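import Fermat.Agent.Mazur16.IP

/-!
# Arithmetic consequences of the Sturm bound
-/

set_option autoImplicit false

open UpperHalfPlane CongruenceSubgroup Matrix.SpecialLinearGroup Function
open scoped MatrixGroups ModularForm Manifold

namespace Fermat.Agent.Mazur16

open Fermat.Agent.ModPoly Fermat.Agent.IntStr PowerSeries

noncomputable section

variable (p : ℕ) [hp : Fact p.Prime]

omit hp in
lemma exists_vps (hp1 : 0 < p) (φ : PowerSeries ℤ) :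
    ∃ R : PowerSeries ℤ, vps p φ = C (φ.coeff 0) + X ^ p * R ∧ R.coeff 0 = φ.coeff 1 := by
  have h1 : (X : PowerSeries ℤ) ^ p ∣ vps p φ - C (φ.coeff 0) := by
    rw [X_pow_dvd_iff]
    intro m hm
    rw [map_sub, coeff_vps, coeff_C]
    by_cases h0 : m = 0
    · simp [h0]
    · rw [if_neg, if_neg h0, sub_zero]
      intro hdvd
      exact absurd (Nat.le_of_dvd (Nat.pos_of_ne_zero h0) hdvd) (by omega)
  obtain ⟨R, hR⟩ := h1
  refine ⟨R, by rw [← hR]; ring, ?_⟩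
  have h2 := congrArg (PowerSeries.coeff p) hR
  rw [coeff_X_pow_mul', if_pos le_rfl, Nat.sub_self, map_sub, coeff_vps, if_pos dvd_rfl,
    Nat.div_self hp1, coeff_C, if_neg hp1.ne', sub_zero] at h2
  exact h2.symm

variable {p}

lemma exists_e4 : ∃ R : PowerSeries ℤ, vps p e4 = 1 + X ^ p * R ∧ R.coeff 0 = 240 := by
  obtain ⟨R, h1, h2⟩ := exists_vps p hp.out.pos e4
  refine ⟨R, ?_, ?_⟩
  · rw [h1]; simp [e4]
  · rw [h2]; simp [e4]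

lemma exists_e6 : ∃ R : PowerSeries ℤ, vps p e6 = 1 + X ^ p * R ∧ R.coeff 0 = -504 := by
  obtain ⟨R, h1, h2⟩ := exists_vps p hp.out.pos e6
  refine ⟨R, ?_, ?_⟩
  · rw [h1]; simp [e6]
  · rw [h2]; simp [e6]

/-- The generic consequence of the Sturm bound. -/
lemma IP.dvd_coeff {k : ℕ} {f : ℍ → ℂ} {A Z W : PowerSeries ℤ} (h : IP p k f A) {ℓ : ℕ}
    (hℓ : ℓ.Prime) (e : ℕ) (hk : k * (p + 1) < 12 * p)
    (hA : A = C ((ℓ : ℤ) ^ e) * Z + X ^ p * W) : (ℓ : ℤ) ^ e ∣ W.coeff 0 := by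
  have h1 := h.sturm hℓ e (fun n hn ↦ by
    rw [hA, map_add, coeff_C_mul, coeff_X_pow_mul', if_neg (by omega), add_zero]
    exact dvd_mul_right _ _) p
  rw [hA, map_add, coeff_C_mul, coeff_X_pow_mul', if_pos le_rfl, Nat.sub_self] at h1
  exact (dvd_add_right (dvd_mul_right _ _)).mp h1

theorem contra4 {G : ℍ → ℂ} {u : ℤ} {κ : PowerSeries ℤ} {ℓ : ℕ} (hℓ : ℓ.Prime) (e : ℕ)
    (h : IP p 2 G (C u + C ((ℓ : ℤ) ^ e) * κ)) : (ℓ : ℤ) ^ e ∣ 240 * u ^ 2 := by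
  obtain ⟨R, hR, hR0⟩ := exists_e4 (p := p)
  have h1 := (h.mul h (m := 4) rfl).add ((IP.e4 p).smul (-u ^ 2))
  have h2 := h1.dvd_coeff (Z := 2 * C u * κ + C ((ℓ : ℤ) ^ e) * κ ^ 2) (W := C (-u ^ 2) * R)
    hℓ e (by have := hp.out.two_le; omega) (by
      rw [hR]
      simp only [map_neg, map_pow]
      ring)
  rw [coeff_C_mul, hR0] at h2
  rw [show 240 * u ^ 2 = -(-u ^ 2 * 240) by ring]
  exact (dvd_neg (a := (ℓ : ℤ) ^ e) (b := -u ^ 2 * 240)).mpr h2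

theorem contra6 {G : ℍ → ℂ} {u : ℤ} {κ : PowerSeries ℤ} {ℓ : ℕ} (hℓ : ℓ.Prime) (e : ℕ)
    (h : IP p 2 G (C u + C ((ℓ : ℤ) ^ e) * κ)) : (ℓ : ℤ) ^ e ∣ 504 * u ^ 3 := by
  obtain ⟨R, hR, hR0⟩ := exists_e6 (p := p)
  have h1 := ((h.mul h (m := 4) rfl).mul h (m := 6) rfl).add ((IP.e6 p).smul (-u ^ 3))
  have h2 := h1.dvd_coeff (Z := 3 * C u ^ 2 * κ + 3 * C u * C ((ℓ : ℤ) ^ e) * κ ^ 2
      + C ((ℓ : ℤ) ^ e) ^ 2 * κ ^ 3) (W := C (-u ^ 3) * R)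
    hℓ e (by have := hp.out.two_le; omega) (by
      rw [hR]
      simp only [map_neg, map_pow]
      ring)
  rw [coeff_C_mul, hR0] at h2
  convert h2 using 1
  ring

theorem contra8 (hp3 : 3 ≤ p) {G : ℍ → ℂ} {u : ℤ} {κ : PowerSeries ℤ} (hκ : κ.coeff 0 = 0)
    (h : IP p 2 G (C u + C 8 * κ)) : (2 : ℤ) ∣ u := by
  obtain ⟨R, hR, hR0⟩ := exists_e4 (p := p)
  obtain ⟨R', hR', hR0'⟩ := exists_e6 (p := p)
  have hG2 := h.mul h (m := 4) rfl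
  have hG4 := (hG2.mul hG2 (m := 8) rfl).smul (-3)
  have hG2E := (hG2.mul (IP.e4 p) (m := 8) rfl).smul (10 * u ^ 2)
  have hGE := (h.mul (IP.e6 p) (m := 8) rfl).smul (-8 * u ^ 3)
  have hEE := ((IP.e4 p).mul (IP.e4 p) (m := 8) rfl).smul (u ^ 4)
  have h1 := ((hG4.add hG2E).add hGE).add hEE
  have h2 := h1.dvd_coeff (ℓ := 2) (Z := - C u ^ 2 * κ ^ 2 - 12 * C u * κ ^ 3 - 24 * κ ^ 4)
    (W := 10 * C u ^ 2 * (C u + C 8 * κ) ^ 2 * R - 8 * C u ^ 3 * (C u + C 8 * κ) * R'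
      + C u ^ 4 * (2 * R + X ^ p * R ^ 2))
    Nat.prime_two 9 (by omega) (by
      rw [hR, hR']
      have e1 : (C (-3 : ℤ) : PowerSeries ℤ) = -3 := by simp
      have e2 : (C (10 * u ^ 2 : ℤ) : PowerSeries ℤ) = 10 * C u ^ 2 := by simp
      have e3 : (C (-8 * u ^ 3 : ℤ) : PowerSeries ℤ) = -8 * C u ^ 3 := by simp
      have e4 : (C (u ^ 4 : ℤ) : PowerSeries ℤ) = C u ^ 4 := by simp
      have e5 : (C (8 : ℤ) : PowerSeries ℤ) = 8 := by simp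
      have e6 : (C (((2 : ℕ) : ℤ) ^ 9) : PowerSeries ℤ) = 512 := by norm_num
      rw [e1, e2, e3, e4, e5, e6]
      ring)
  have h3 : (10 * C u ^ 2 * (C u + C 8 * κ) ^ 2 * R - 8 * C u ^ 3 * (C u + C 8 * κ) * R'
      + C u ^ 4 * (2 * R + X ^ p * R ^ 2) : PowerSeries ℤ).coeff 0 = 6912 * u ^ 4 := by
    rw [coeff_zero_eq_constantCoeff] at hκ hR0 hR0' ⊢
    have hp0 : p ≠ 0 := hp.out.ne_zero
    have c10 : (constantCoeff (10 : PowerSeries ℤ)) = 10 := map_ofNat _ 10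
    have c8 : (constantCoeff (8 : PowerSeries ℤ)) = 8 := map_ofNat _ 8
    have c2 : (constantCoeff (2 : PowerSeries ℤ)) = 2 := map_ofNat _ 2
    simp only [map_add, map_sub, map_mul, map_pow, constantCoeff_C, hκ, hR0, hR0', constantCoeff_X,
      zero_pow hp0, c10, c8, c2]
    ring
  rw [h3] at h2
  have h4 : (2 : ℤ) ∣ u ^ 4 := by
    obtain ⟨z, hz⟩ := h2
    have : (27 : ℤ) * u ^ 4 = 2 * z := by push_cast at hz; linarith
    have h5 : (2 : ℤ) ∣ 27 * u ^ 4 := ⟨z, this⟩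
    omega
  exact Int.prime_two.dvd_of_dvd_pow h4

end

end Fermat.Agent.Mazur16
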