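import Fermat.Agent.Mazur16.Rel

/-!
# The exceptional congruences modulo `3` and `4`
-/

set_option autoImplicit false

open UpperHalfPlane CongruenceSubgroup Matrix.SpecialLinearGroup Function
open scoped MatrixGroups ModularForm Manifold

namespace Fermat.Agent.Mazur16

open Fermat.Agent.ModPoly Fermat.Agent.IntStr PowerSeries

noncomputable section

variable {p : ℕ} [hp : Fact p.Prime]

lemma expand2 {G : ℍ → ℂ} {u M : ℤ} {κ : PowerSeries ℤ} (hκ : κ.coeff 0 = 0)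
    (h : IP p 2 G (C u + C M * κ)) {n : ℕ} (hn : n ≠ 0) :
    p * (2 * u * M * κ.coeff n + M ^ 2 * (κ ^ 2).coeff n) + (2 * u * M * κ.coeff (n * p * p)
      + M ^ 2 * (ups p κ ^ 2).coeff (n * p)) =
      (p + 1) * u ^ 2 * (240 * (ArithmeticFunction.sigma 3 n : ℤ)) := by
  have hp0 := hp.out.ne_zero
  have h1 := rel2 h.mf h.int
  have hA0 : (C u + C M * κ : PowerSeries ℤ).coeff 0 = u := by
    rw [map_add, coeff_C_mul, hκ]; simp
  have e1 : (C u + C M * κ : PowerSeries ℤ) ^ 2 = C (u ^ 2) + C (2 * u * M) * κ +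
      C (M ^ 2) * κ ^ 2 := by
    simp only [map_pow, map_mul, map_ofNat]; ring
  have e2 : ups p (C u + C M * κ : PowerSeries ℤ) = C u + C M * ups p κ := by
    rw [ups_add, ups_C p hp0, ups_C_mul]
  have e3 : (C u + C M * ups p κ : PowerSeries ℤ) ^ 2 = C (u ^ 2) + C (2 * u * M) * ups p κ +
      C (M ^ 2) * (ups p κ) ^ 2 := by
    simp only [map_pow, map_mul, map_ofNat]; ring
  rw [hA0, e2, e3, e1, ups_add, ups_add, ups_C p hp0, ups_C_mul, ups_C_mul] at h1
  have h2 := congrArg (coeff n) h1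
  simp only [map_add, coeff_C_mul, coeff_C, if_neg hn, coeff_ups, zero_add, e4, coeff_mk] at h2
  exact h2

lemma expand3 {G : ℍ → ℂ} {u M : ℤ} {κ : PowerSeries ℤ} (hκ : κ.coeff 0 = 0)
    (h : IP p 2 G (C u + C M * κ)) {n : ℕ} (hn : n ≠ 0) :
    p ^ 2 * (3 * u ^ 2 * M * κ.coeff n + 3 * u * M ^ 2 * (κ ^ 2).coeff n
        + M ^ 3 * (κ ^ 3).coeff n) -
      (3 * u ^ 2 * M * κ.coeff (n * p * p)
      + 3 * u * M ^ 2 * (ups p κ ^ 2).coeff (n * p) + M ^ 3 * (ups p κ ^ 3).coeff (n * p)) =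
      (p ^ 2 - 1) * u ^ 3 * (-504 * (ArithmeticFunction.sigma 5 n : ℤ)) := by
  have hp0 := hp.out.ne_zero
  have h1 := rel3 h.mf h.int
  have hA0 : (C u + C M * κ : PowerSeries ℤ).coeff 0 = u := by
    rw [map_add, coeff_C_mul, hκ]; simp
  have e1 : (C u + C M * κ : PowerSeries ℤ) ^ 3 = C (u ^ 3) + C (3 * u ^ 2 * M) * κ +
      C (3 * u * M ^ 2) * κ ^ 2 + C (M ^ 3) * κ ^ 3 := by
    simp only [map_pow, map_mul, map_ofNat]; ring
  have e2 : ups p (C u + C M * κ : PowerSeries ℤ) = C u + C M * ups p κ := by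
    rw [ups_add, ups_C p hp0, ups_C_mul]
  have e3 : (C u + C M * ups p κ : PowerSeries ℤ) ^ 3 = C (u ^ 3) + C (3 * u ^ 2 * M) * ups p κ +
      C (3 * u * M ^ 2) * (ups p κ) ^ 2 + C (M ^ 3) * (ups p κ) ^ 3 := by
    simp only [map_pow, map_mul, map_ofNat]; ring
  rw [hA0, e2, e3, e1, ups_add, ups_add, ups_add, ups_C p hp0, ups_C_mul, ups_C_mul,
    ups_C_mul] at h1
  have h2 := congrArg (coeff n) h1
  simp only [map_add, map_sub, coeff_C_mul, coeff_C, if_neg hn, coeff_ups, zero_add, e6,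
    coeff_mk] at h2
  exact h2

/-- `ℓ = 3`, `p ≡ 1 mod 3`. -/
theorem contra3 (hp3 : p % 3 = 1) {G : ℍ → ℂ} {u : ℤ} {κ : PowerSeries ℤ} (hκ : κ.coeff 0 = 0)
    (h : IP p 2 G (C u + C 3 * κ)) : (3 : ℤ) ∣ u := by
  have hp0 := hp.out.ne_zero
  obtain ⟨t, ht⟩ : ∃ t : ℕ, p = 3 * t + 1 := ⟨p / 3, by omega⟩
  have htZ : (p : ℤ) = 3 * t + 1 := by exact_mod_cast ht
  by_contra hu
  -- R3 modulo 3
  have hR3 : ∀ n : ℕ, n ≠ 0 → (3 : ℤ) ∣ κ.coeff n - κ.coeff (n * p * p) := by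
    intro n hn
    have h3 := expand3 hκ h hn
    rw [htZ] at h3
    have h4 : (3 : ℤ) ∣ u ^ 2 * (κ.coeff n - κ.coeff (n * p * p)) := by
      refine ⟨-((3 * t ^ 2 + 2 * t) * u ^ 2 * κ.coeff n) - (3 * t + 1) ^ 2 * (u * (κ ^ 2).coeff n
        + (κ ^ 3).coeff n) + u * (ups p κ ^ 2).coeff (n * p) + (ups p κ ^ 3).coeff (n * p)
        - 56 * (3 * t ^ 2 + 2 * t) * u ^ 3 * (ArithmeticFunction.sigma 5 n : ℤ), ?_⟩
      linarith
    rcases Int.prime_three.dvd_or_dvd h4 with h5 | h5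
    · exact absurd (Int.prime_three.dvd_of_dvd_pow h5) hu
    · exact h5
  -- R2 modulo 3
  have hR2 : ∀ n : ℕ, n ≠ 0 → (3 : ℤ) ∣ 2 * (κ.coeff n + κ.coeff (n * p * p)) -
      u * (ArithmeticFunction.sigma 3 n : ℤ) := by
    intro n hn
    have h3 := expand2 hκ h hn
    rw [htZ] at h3
    have h4 : (3 : ℤ) ∣ u * (2 * (κ.coeff n + κ.coeff (n * p * p)) -
      u * (ArithmeticFunction.sigma 3 n : ℤ)) := by
      refine ⟨-2 * t * u * κ.coeff n - (3 * t + 1) * (κ ^ 2).coeff n -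
        (ups p κ ^ 2).coeff (n * p) + (80 * t + 53) * u ^ 2 *
        (ArithmeticFunction.sigma 3 n : ℤ), ?_⟩
      linarith
    rcases Int.prime_three.dvd_or_dvd h4 with h5 | h5
    · exact absurd h5 hu
    · exact h5
  have a1 := hR3 1 one_ne_zero
  have a2 := hR3 (1 * p * p) (by simp [hp0])
  have b1 := hR2 1 one_ne_zero
  have b2 := hR2 (1 * p * p) (by simp [hp0])
  have hs1 : (ArithmeticFunction.sigma 3 1 : ℤ) = 1 := by simp
  have hs2 : (3 : ℤ) ∣ (ArithmeticFunction.sigma 3 (1 * p * p) : ℤ) := by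
    have : 1 * p * p = p ^ 2 := by ring
    rw [this, ArithmeticFunction.sigma_apply_prime_pow hp.out]
    simp only [Finset.sum_range_succ, Finset.sum_range_zero, zero_add]
    refine ⟨1 + 9 * t + 54 * t ^ 2 + 189 * t ^ 3 + 405 * t ^ 4 + 486 * t ^ 5 + 243 * t ^ 6, ?_⟩
    push_cast
    rw [htZ]
    ring
  rw [hs1] at b1
  set x := κ.coeff 1
  set y := κ.coeff (1 * p * p)
  set z := κ.coeff (1 * p * p * p * p)
  have hs3 : (3 : ℤ) ∣ u * (ArithmeticFunction.sigma 3 (1 * p * p) : ℤ) := dvd_mul_of_dvd_right hs2 _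
  apply hu
  omega

/-- Frobenius modulo `2`. -/
lemma sq_coeff_mod_two (φ : PowerSeries ℤ) (n : ℕ) :
    (2 : ℤ) ∣ (φ ^ 2).coeff n - if 2 ∣ n then φ.coeff (n / 2) else 0 := by
  have key : (((φ ^ 2).coeff n : ℤ) : ZMod 2) =
      ((if 2 ∣ n then φ.coeff (n / 2) else 0 : ℤ) : ZMod 2) := by
    rw [pow_two, coeff_mul]
    push_cast
    have h1 : ∑ x ∈ (Finset.HasAntidiagonal.antidiagonal n).filter (fun x ↦ ¬ x.1 = x.2),
        ((φ.coeff x.1 : ℤ) : ZMod 2) * ((φ.coeff x.2 : ℤ) : ZMod 2) = 0 := by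
      refine Finset.sum_involution (fun x _ ↦ x.swap) ?_ ?_ ?_ ?_
      · intro x _
        simp only [Prod.fst_swap, Prod.snd_swap]
        rw [mul_comm ((φ.coeff x.2 : ℤ) : ZMod 2), ← two_mul]
        have : (2 : ZMod 2) = 0 := rfl
        rw [this, zero_mul]
      · intro x hx _ hsw
        have h2 := (Finset.mem_filter.mp hx).2
        exact h2 (congrArg Prod.snd hsw)
      · intro x hx
        simp only [Finset.mem_filter, Finset.HasAntidiagonal.mem_antidiagonal] at hx ⊢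
        exact ⟨by simpa [add_comm] using hx.1, fun h ↦ hx.2 h.symm⟩
      · intro x _; simp
    rw [← Finset.sum_filter_add_sum_filter_not _ (fun x : ℕ × ℕ ↦ x.1 = x.2), h1, add_zero]
    by_cases hn : 2 ∣ n
    · obtain ⟨m, rfl⟩ := hn
      rw [if_pos (dvd_mul_right 2 m), Nat.mul_div_cancel_left _ two_pos]
      have h2 : (Finset.HasAntidiagonal.antidiagonal (2 * m)).filter (fun x : ℕ × ℕ ↦ x.1 = x.2) = {(m, m)} := by
        ext ⟨a, b⟩
        simp only [Finset.mem_filter, Finset.HasAntidiagonal.mem_antidiagonal,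
          Finset.mem_singleton, Prod.mk.injEq]
        omega
      rw [h2, Finset.sum_singleton]
      have h3 : ∀ a : ZMod 2, a * a = a := by decide
      exact h3 _
    · rw [if_neg hn]
      have h2 : (Finset.HasAntidiagonal.antidiagonal n).filter (fun x : ℕ × ℕ ↦ x.1 = x.2) = ∅ := by
        ext ⟨a, b⟩
        simp only [Finset.mem_filter, Finset.HasAntidiagonal.mem_antidiagonal,
          Finset.notMem_empty, iff_false, not_and]
        intro h h'
        apply hn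
        exact ⟨a, by omega⟩
      rw [h2]
      simp
  have h5 := (ZMod.intCast_zmod_eq_zero_iff_dvd ((φ ^ 2).coeff n -
    if 2 ∣ n then φ.coeff (n / 2) else 0) 2).mp (by
      rw [Int.cast_sub, key, sub_self])
  exact_mod_cast h5

/-- `ℓ = 2`, `p ≡ 1 mod 4`. -/
theorem contra2 (hp4 : p % 4 = 1) {G : ℍ → ℂ} {u : ℤ} {κ : PowerSeries ℤ} (hκ : κ.coeff 0 = 0)
    (h : IP p 2 G (C u + C 4 * κ)) : (2 : ℤ) ∣ u := by
  have hp0 := hp.out.ne_zero
  obtain ⟨t, ht⟩ : ∃ t : ℕ, p = 4 * t + 1 := ⟨p / 4, by omega⟩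
  have htZ : (p : ℤ) = 4 * t + 1 := by exact_mod_cast ht
  by_contra hu
  have hcop : IsCoprime (4 : ℤ) u := by
    have : IsCoprime (2 : ℤ) u := Int.prime_two.coprime_iff_not_dvd.mpr hu
    rw [show (4 : ℤ) = 2 * 2 by norm_num]
    exact this.mul_left this
  -- R3 modulo 4
  have hR3 : ∀ n : ℕ, n ≠ 0 → (4 : ℤ) ∣ κ.coeff n - κ.coeff (n * p * p) := by
    intro n hn
    have h3 := expand3 hκ h hn
    rw [htZ] at h3
    have h4 : (4 : ℤ) ∣ (3 * u ^ 2) * (κ.coeff n - κ.coeff (n * p * p)) := by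
      refine ⟨-((4 * t ^ 2 + 2 * t) * 3 * u ^ 2 * κ.coeff n)
        - (4 * t + 1) ^ 2 * (3 * u * (κ ^ 2).coeff n
        + 4 * (κ ^ 3).coeff n) + 3 * u * (ups p κ ^ 2).coeff (n * p)
        + 4 * (ups p κ ^ 3).coeff (n * p)
        - 126 * (4 * t ^ 2 + 2 * t) * u ^ 3 * (ArithmeticFunction.sigma 5 n : ℤ), ?_⟩
      linarith
    have hc : IsCoprime (4 : ℤ) (3 * u ^ 2) :=
      IsCoprime.mul_right (by norm_num) (hcop.pow_right)
    exact hc.dvd_of_dvd_mul_left h4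
  -- R2 modulo 2
  have hR2 : ∀ n : ℕ, n ≠ 0 → (2 : ℤ) ∣ κ.coeff n + (κ ^ 2).coeff n
      + (ups p κ ^ 2).coeff (n * p) := by
    intro n hn
    have h3 := expand2 hκ h hn
    obtain ⟨c, hc⟩ := hR3 n hn
    have hc' : κ.coeff (n * p * p) = κ.coeff n - 4 * c := by linarith
    rw [htZ, hc'] at h3
    have h4 : (2 : ℤ) ∣ u * κ.coeff n + (κ ^ 2).coeff n
      + (ups p κ ^ 2).coeff (n * p) := by
      refine ⟨- t * u * κ.coeff n + u * c - 2 * t * (κ ^ 2).coeff n
        + 15 * (2 * t + 1) * u ^ 2 * (ArithmeticFunction.sigma 3 n : ℤ), ?_⟩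
      linarith
    obtain ⟨w, hw⟩ : ∃ w, u = 2 * w + 1 := ⟨u / 2, by omega⟩
    obtain ⟨d, hd⟩ := h4
    refine ⟨d - w * κ.coeff n, ?_⟩
    rw [hw] at hd
    linarith
  have heven : ∀ n : ℕ, (2 : ℤ) ∣ κ.coeff n := by
    intro n
    rcases eq_or_ne n 0 with rfl | hn
    · rw [hκ]; exact dvd_zero _
    · have h1 := hR2 n hn
      have h2 := sq_coeff_mod_two κ n
      have h3 := sq_coeff_mod_two (ups p κ) (n * p)
      rw [coeff_ups] at h3
      by_cases h2n : 2 ∣ n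
      · obtain ⟨m, rfl⟩ := h2n
        have e1 : 2 * m * p / 2 = m * p := by
          rw [mul_assoc, Nat.mul_div_cancel_left _ two_pos]
        have e2 : 2 ∣ 2 * m * p := ⟨m * p, by ring⟩
        rw [if_pos (dvd_mul_right 2 m), Nat.mul_div_cancel_left _ two_pos] at h2
        rw [if_pos e2, e1] at h3
        have h4 := hR3 m (by rintro rfl; simp at hn)
        omega
      · have e2 : ¬ 2 ∣ n * p := by
          intro hd
          rcases Nat.prime_two.dvd_mul.mp hd with h' | h'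
          · exact h2n h'
          · omega
        rw [if_neg h2n] at h2
        rw [if_neg e2] at h3
        omega
  choose κ' hκ' using heven
  have h8 : (C u + C 4 * κ : PowerSeries ℤ) = C u + C 8 * PowerSeries.mk κ' := by
    ext n
    rw [map_add, map_add, coeff_C_mul, coeff_C_mul, hκ' n, coeff_mk]
    ring
  rw [h8] at h
  have h9 : (PowerSeries.mk κ').coeff 0 = 0 := by
    rw [coeff_mk]
    have := hκ' 0
    rw [hκ] at this
    omega
  have h10 : 3 ≤ p := by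
    have := hp.out.two_le
    omega
  exact hu (contra8 h10 h9 h)

end

end Fermat.Agent.Mazur16
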