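import Mathlib
import Fermat.Prelude.Def_ModularForm_HeckeOperatorForms

/-!
# Coset representatives for `Γ₀(p)` in `SL(2, ℤ)` and explicit trace / norm
-/

set_option autoImplicit false

open UpperHalfPlane CongruenceSubgroup Matrix.SpecialLinearGroup
open scoped MatrixGroups ModularForm

namespace Fermat.Agent.Mazur16

noncomputable section

/-- The coset representative `S T ^ j`. -/
def stJ (j : ℤ) : SL(2, ℤ) := ModularGroup.S * ModularGroup.T ^ j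

lemma stJ_coe (j : ℤ) : (stJ j : Matrix (Fin 2) (Fin 2) ℤ) = !![0, -1; 1, j] := by
  rw [stJ, coe_mul, ModularGroup.coe_S, ModularGroup.coe_T_zpow]
  simp

lemma stJ_inv_coe (j : ℤ) : ((stJ j)⁻¹ : SL(2, ℤ)).1 = !![j, 1; -1, 0] := by
  rw [coe_inv, stJ_coe, Matrix.adjugate_fin_two_of]
  simp

lemma mem_Gamma0_iff_dvd {N : ℕ} {γ : SL(2, ℤ)} : γ ∈ Gamma0 N ↔ (N : ℤ) ∣ γ 1 0 := by
  rw [Gamma0_mem, ZMod.intCast_zmod_eq_zero_iff_dvd]

lemma mapGL_mem_map_iff {Γ : Subgroup SL(2, ℤ)} {γ : SL(2, ℤ)} :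
    mapGL ℝ γ ∈ (Γ : Subgroup (GL (Fin 2) ℝ)) ↔ γ ∈ Γ :=
  Subgroup.mem_map_iff_mem (mapGL_injective)

variable (p : ℕ) [hp : Fact p.Prime]

/-- `SL(2, ℤ)` as the full modular group inside `GL(2, ℝ)`. -/
def toSLGrp (γ : SL(2, ℤ)) : (𝒮ℒ : Subgroup (GL (Fin 2) ℝ)) := ⟨mapGL ℝ γ, ⟨γ, rfl⟩⟩

@[simp] lemma coe_toSLGrp (γ : SL(2, ℤ)) : ((toSLGrp γ : 𝒮ℒ) : GL (Fin 2) ℝ) = mapGL ℝ γ := rfl

/-- The enumeration of the cosets. -/
def cosetMap : Option (Fin p) →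
    (𝒮ℒ : Subgroup (GL (Fin 2) ℝ)) ⧸ (Gamma0 p : Subgroup (GL (Fin 2) ℝ)).subgroupOf 𝒮ℒ
  | none => QuotientGroup.mk 1
  | some j => QuotientGroup.mk (toSLGrp (stJ (j : ℕ)))⁻¹

omit hp in
lemma mk_toSLGrp_inv_eq_iff (γ δ : SL(2, ℤ)) :
    (QuotientGroup.mk (toSLGrp γ)⁻¹ :
      (𝒮ℒ : Subgroup (GL (Fin 2) ℝ)) ⧸ (Gamma0 p : Subgroup (GL (Fin 2) ℝ)).subgroupOf 𝒮ℒ) =
      QuotientGroup.mk (toSLGrp δ)⁻¹ ↔ γ * δ⁻¹ ∈ Gamma0 p := by
  rw [QuotientGroup.eq, Subgroup.mem_subgroupOf, ← mapGL_mem_map_iff]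
  simp [map_mul, map_inv]

lemma toSLGrp_one : toSLGrp 1 = 1 := by
  ext1; simp

lemma cosetMap_bijective : Function.Bijective (cosetMap p) := by
  have hone : (QuotientGroup.mk 1 : (𝒮ℒ : Subgroup (GL (Fin 2) ℝ)) ⧸
      (Gamma0 p : Subgroup (GL (Fin 2) ℝ)).subgroupOf 𝒮ℒ) =
      QuotientGroup.mk (toSLGrp 1)⁻¹ := by rw [toSLGrp_one, inv_one]
  constructor
  · intro a b hab
    rcases a with _ | i <;> rcases b with _ | j
    · rfl
    · exfalso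
      simp only [cosetMap] at hab
      rw [hone, mk_toSLGrp_inv_eq_iff, mem_Gamma0_iff_dvd, one_mul, stJ_inv_coe] at hab
      have h1 : (p : ℤ) ∣ 1 := by simpa using hab
      exact hp.out.one_lt.ne' (by exact_mod_cast Int.eq_one_of_dvd_one (by positivity) h1)
    · exfalso
      simp only [cosetMap] at hab
      rw [hone, eq_comm, mk_toSLGrp_inv_eq_iff, mem_Gamma0_iff_dvd, one_mul, stJ_inv_coe] at hab
      have h1 : (p : ℤ) ∣ 1 := by simpa using hab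
      exact hp.out.one_lt.ne' (by exact_mod_cast Int.eq_one_of_dvd_one (by positivity) h1)
    · simp only [cosetMap] at hab
      rw [mk_toSLGrp_inv_eq_iff, mem_Gamma0_iff_dvd, coe_mul, stJ_coe, stJ_inv_coe] at hab
      have h1 : (p : ℤ) ∣ (j : ℕ) - (i : ℕ) := by simpa [sub_eq_add_neg] using hab
      congr 1
      ext
      have hi := i.2
      have hj := j.2
      obtain ⟨c, hc⟩ := h1
      have hp0 : (0 : ℤ) < p := by exact_mod_cast hp.out.pos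
      have : c = 0 := by
        have h2 : (p : ℤ) * c < p * 1 := by
          rw [mul_one, ← hc]; omega
        have h3 : (p : ℤ) * (-1) < p * c := by
          rw [← hc]; omega
        have := lt_of_mul_lt_mul_left h2 hp0.le
        have := lt_of_mul_lt_mul_left h3 hp0.le
        omega
      subst this
      omega
  · intro q
    obtain ⟨⟨x, γ, rfl⟩, rfl⟩ := QuotientGroup.mk_surjective q
    have hx : (⟨mapGL ℝ γ, ⟨γ, rfl⟩⟩ : (𝒮ℒ : Subgroup (GL (Fin 2) ℝ))) = (toSLGrp γ⁻¹)⁻¹ := by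
      ext1; simp
    rw [hx]
    set δ := γ⁻¹ with hδ
    by_cases hc : (p : ℤ) ∣ δ 1 0
    · refine ⟨none, ?_⟩
      simp only [cosetMap]
      rw [hone, eq_comm, mk_toSLGrp_inv_eq_iff, inv_one, mul_one]
      exact mem_Gamma0_iff_dvd.mpr hc
    · have hc' : (δ 1 0 : ZMod p) ≠ 0 := by
        rwa [Ne, ZMod.intCast_zmod_eq_zero_iff_dvd]
      let j : ZMod p := (δ 1 1 : ZMod p) / (δ 1 0 : ZMod p)
      refine ⟨some ⟨j.val, ZMod.val_lt j⟩, ?_⟩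
      simp only [cosetMap]
      rw [eq_comm, mk_toSLGrp_inv_eq_iff, Gamma0_mem, coe_mul, stJ_inv_coe]
      have : (δ 1 0 : ZMod p) * j = (δ 1 1 : ZMod p) := by
        simp only [j]; field_simp
      simp [Matrix.mul_apply, Fin.sum_univ_two, this]

/-- The equivalence between `Option (Fin p)` and the cosets. -/
def cosetEquiv : Option (Fin p) ≃
    (𝒮ℒ : Subgroup (GL (Fin 2) ℝ)) ⧸ (Gamma0 p : Subgroup (GL (Fin 2) ℝ)).subgroupOf 𝒮ℒ :=
  Equiv.ofBijective _ (cosetMap_bijective p)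

lemma card_coset : Nat.card ((𝒮ℒ : Subgroup (GL (Fin 2) ℝ)) ⧸
    (Gamma0 p : Subgroup (GL (Fin 2) ℝ)).subgroupOf 𝒮ℒ) = p + 1 := by
  rw [← Nat.card_congr (cosetEquiv p), Nat.card_eq_fintype_card, Fintype.card_option,
    Fintype.card_fin]

open SlashInvariantForm

variable {k : ℤ} {F : Type*} [FunLike F ℍ ℂ]
  [SlashInvariantFormClass F (Gamma0 p : Subgroup (GL (Fin 2) ℝ)) k] (f : F)

omit hp in
lemma quotientFunc_cosetMap_none :
    quotientFunc (ℋ := 𝒮ℒ) f (cosetMap p none) = ⇑f := by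
  change quotientFunc (ℋ := 𝒮ℒ) f ⟦1⟧ = ⇑f
  rw [quotientFunc_mk]
  simp

omit hp in
lemma quotientFunc_cosetMap_some (j : Fin p) :
    quotientFunc (ℋ := 𝒮ℒ) f (cosetMap p (some j)) = ⇑f ∣[k] stJ (j : ℕ) := by
  change quotientFunc (ℋ := 𝒮ℒ) f ⟦(toSLGrp (stJ (j : ℕ)))⁻¹⟧ = _
  rw [quotientFunc_mk, Subgroup.coe_inv, inv_inv]
  rfl

/-- Explicit form of the product over cosets. -/
lemma prod_coset {M : Type*} [CommMonoid M]
    [Fintype ((𝒮ℒ : Subgroup (GL (Fin 2) ℝ)) ⧸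
      (Gamma0 p : Subgroup (GL (Fin 2) ℝ)).subgroupOf 𝒮ℒ)]
    (Φ : (𝒮ℒ : Subgroup (GL (Fin 2) ℝ)) ⧸
      (Gamma0 p : Subgroup (GL (Fin 2) ℝ)).subgroupOf 𝒮ℒ → M) :
    ∏ q, Φ q = Φ (cosetMap p none) * ∏ j : Fin p, Φ (cosetMap p (some j)) := by
  rw [← Equiv.prod_comp (cosetEquiv p), Fintype.prod_option]
  rfl

lemma sum_coset {M : Type*} [AddCommMonoid M]
    [Fintype ((𝒮ℒ : Subgroup (GL (Fin 2) ℝ)) ⧸
      (Gamma0 p : Subgroup (GL (Fin 2) ℝ)).subgroupOf 𝒮ℒ)]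
    (Φ : (𝒮ℒ : Subgroup (GL (Fin 2) ℝ)) ⧸
      (Gamma0 p : Subgroup (GL (Fin 2) ℝ)).subgroupOf 𝒮ℒ → M) :
    ∑ q, Φ q = Φ (cosetMap p none) + ∑ j : Fin p, Φ (cosetMap p (some j)) := by
  rw [← Equiv.sum_comp (cosetEquiv p), Fintype.sum_option]
  rfl

/-- Slashing by `S T ^ j` is translation of the slash by `S`. -/
lemma slash_stJ_apply (k : ℤ) (f : ℍ → ℂ) (j : ℤ) (τ : ℍ) :
    (f ∣[k] stJ j) τ = (f ∣[k] ModularGroup.S) ((j : ℝ) +ᵥ τ) := by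
  rw [stJ, SlashAction.slash_mul, ModularForm.SL_slash_apply (f ∣[k] ModularGroup.S)]
  have hT : (ModularGroup.T ^ j) • τ = (j : ℝ) +ᵥ τ := by
    rw [UpperHalfPlane.modular_T_zpow_smul]
  have hd : denom (ModularGroup.T ^ j : SL(2, ℤ)) τ = 1 := by
    rw [ModularGroup.denom_apply, ModularGroup.coe_T_zpow]
    simp
  rw [hT, hd, one_zpow, mul_one]

end

end Fermat.Agent.Mazur16
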