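import Fermat.Agent.Mazur16.Eis

/-!
# Recursions for the divisor sums
-/

set_option autoImplicit false

namespace Fermat.Agent.Mazur16

open ArithmeticFunction

lemma sigma_rec {ℓ : ℕ} (hℓ : ℓ.Prime) {k : ℕ} (hk : k ≠ 0) :
    sigma 1 (k * ℓ) + (if ℓ ∣ k then ℓ * sigma 1 (k / ℓ) else 0) = (1 + ℓ) * sigma 1 k := by
  obtain ⟨a, b, hb, rfl⟩ := Nat.exists_eq_pow_mul_and_not_dvd hk ℓ hℓ.ne_one
  have hcop : ∀ n, Nat.Coprime (ℓ ^ n) b := fun n ↦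
    Nat.Coprime.pow_left n ((Nat.Prime.coprime_iff_not_dvd hℓ).mpr hb)
  have hmul : ∀ n, sigma 1 (ℓ ^ n * b) = (∑ j ∈ Finset.range (n + 1), ℓ ^ j) * sigma 1 b := by
    intro n
    rw [isMultiplicative_sigma.map_mul_of_coprime (hcop n), sigma_apply_prime_pow hℓ]
    simp
  rw [show ℓ ^ a * b * ℓ = ℓ ^ (a + 1) * b by ring, hmul, hmul]
  rcases a with _ | a
  · rw [if_neg (by simpa using hb)]
    simp only [Finset.sum_range_succ, Finset.sum_range_zero]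
    ring
  · rw [if_pos (by rw [pow_succ']; exact ⟨ℓ ^ a * b, by ring⟩),
      show ℓ ^ (a + 1) * b = ℓ * (ℓ ^ a * b) by ring, Nat.mul_div_cancel_left _ hℓ.pos, hmul,
      Finset.sum_range_succ (fun j ↦ ℓ ^ j) (a + 1 + 1),
      Finset.sum_range_succ (fun j ↦ ℓ ^ j) (a + 1)]
    ring

variable (p : ℕ) [hp : Fact p.Prime]

lemma sigma_rec_int {ℓ : ℕ} (hℓ : ℓ.Prime) {k : ℕ} (hk : k ≠ 0) :
    (sigma 1 (k * ℓ) : ℤ) = (1 + ℓ) * sigma 1 k -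
      (if ℓ ∣ k then (ℓ : ℤ) * sigma 1 (k / ℓ) else 0) := by
  have h := sigma_rec hℓ hk
  have h2 : (sigma 1 (k * ℓ) : ℤ) + ((if ℓ ∣ k then ℓ * sigma 1 (k / ℓ) else 0 : ℕ) : ℤ) =
      (1 + ℓ) * sigma 1 k := by exact_mod_cast h
  split_ifs at h2 ⊢ <;> push_cast at h2 <;> linarith

lemma sig_mul_self {k : ℕ} (hk : k ≠ 0) : sig p (k * p) = sig p k := by
  rw [sig, sig, if_pos (dvd_mul_left p k), Nat.mul_div_cancel _ hp.out.pos,
    sigma_rec_int hp.out hk]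
  ring

lemma sig_mul {ℓ : ℕ} (hℓ : ℓ.Prime) (hℓp : ℓ ≠ p) {k : ℕ} (hk : k ≠ 0) :
    sig p (k * ℓ) = (1 + ℓ) * sig p k - if ℓ ∣ k then (ℓ : ℤ) * sig p (k / ℓ) else 0 := by
  have hcop : Nat.Coprime p ℓ := (Nat.coprime_primes hp.out hℓ).mpr (Ne.symm hℓp)
  have h1 : p ∣ k * ℓ ↔ p ∣ k := ⟨fun h ↦ hcop.dvd_of_dvd_mul_right h, fun h ↦ h.mul_right _⟩
  unfold sig
  rw [sigma_rec_int hℓ hk]
  by_cases hpk : p ∣ k
  · obtain ⟨c, rfl⟩ := hpk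
    have hc : c ≠ 0 := by rintro rfl; simp at hk
    have e1 : p * c * ℓ / p = c * ℓ := by
      rw [mul_assoc, Nat.mul_div_cancel_left _ hp.out.pos]
    have e2 : p * c / p = c := Nat.mul_div_cancel_left _ hp.out.pos
    rw [if_pos (h1.mpr (dvd_mul_right p c)), e1, sigma_rec_int hℓ hc, if_pos (dvd_mul_right p c),
      e2]
    have h2 : ℓ ∣ p * c ↔ ℓ ∣ c :=
      ⟨fun h ↦ hcop.symm.dvd_of_dvd_mul_left h, fun h ↦ h.mul_left _⟩
    by_cases hℓc : ℓ ∣ c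
    · obtain ⟨d, rfl⟩ := hℓc
      have e3 : p * (ℓ * d) / ℓ = p * d := by
        rw [show p * (ℓ * d) = ℓ * (p * d) by ring, Nat.mul_div_cancel_left _ hℓ.pos]
      have e4 : ℓ * d / ℓ = d := Nat.mul_div_cancel_left _ hℓ.pos
      have e5 : p * d / p = d := Nat.mul_div_cancel_left _ hp.out.pos
      rw [if_pos (h2.mpr (dvd_mul_right ℓ d)), if_pos (dvd_mul_right ℓ d),
        if_pos (h2.mpr (dvd_mul_right ℓ d)), e3, e4, if_pos (dvd_mul_right p d), e5]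
      ring
    · rw [if_neg (fun h ↦ hℓc (h2.mp h)), if_neg hℓc, if_neg (fun h ↦ hℓc (h2.mp h))]
      ring
  · rw [if_neg (fun h ↦ hpk (h1.mp h)), if_neg hpk]
    by_cases hℓk : ℓ ∣ k
    · obtain ⟨d, rfl⟩ := hℓk
      have e4 : ℓ * d / ℓ = d := Nat.mul_div_cancel_left _ hℓ.pos
      rw [if_pos (dvd_mul_right ℓ d), if_pos (dvd_mul_right ℓ d), e4,
        if_neg (fun h ↦ hpk (h.mul_left _))]
      ring
    · rw [if_neg hℓk, if_neg hℓk]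
      ring

lemma sig_one : sig p 1 = 1 := by
  rw [sig, if_neg]
  · simp
  · intro h
    exact hp.out.one_lt.ne' (Nat.dvd_one.mp h)

omit hp in
lemma sig_zero : sig p 0 = 0 := by
  simp [sig]

end Fermat.Agent.Mazur16
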