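import Fermat.Prelude.Def_CuspForm_HeckeLocal
import Fermat.Prelude.Def_CuspForm_HeckeEvalForms
import Fermat.Prelude.Def_HeckeGalois_EichlerShimura
import Fermat.Prelude.Def_ModularCurve_ModularUnit
import Fermat.Agent.Mazur16.Sig
import Fermat.Agent.DS.Lattice

/-!
# Duality between the Hecke algebra and the lattice of integral cusp forms
-/

set_option autoImplicit false

open CuspForm ModularCurve CongruenceSubgroup ModularFormClass

namespace Fermat.Agent.Mazur16

open Fermat.Agent.DS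

noncomputable section

variable (p : ℕ) [hp : Fact p.Prime]

/-- The map from the polynomial Hecke algebra to the Hecke algebra acting on the lattice. -/
abbrev phi : HeckeAlg →+* ↥(heckeLatticeAlgebra p ∅) :=
  (latticeRestrictHom p ∅).toRingHom.comp (heckeEvalForms p 2)

/-- The Eisenstein character. -/
abbrev ev : HeckeAlg →+* ℤ := (MvPolynomial.aeval (R := ℤ) (eisensteinSystem p)).toRingHom

omit hp in
lemma mem_eisensteinIdeal {P : HeckeAlg} : P ∈ eisensteinIdeal p ↔ ev p P = 0 :=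
  mem_eigenIdeal_iff _ _

lemma heckeEvalForms_surjective : Function.Surjective (heckeEvalForms p 2) := by
  rintro ⟨x, hx⟩
  suffices h : ∃ P, ((heckeEvalForms p 2 P : heckeAlgebra p 2 ∅) :
      Module.End ℂ (CuspForm (Gamma0 p) 2)) = x by
    obtain ⟨P, hP⟩ := h
    exact ⟨P, Subtype.ext hP⟩
  induction hx using Algebra.adjoin_induction with
  | mem x hx =>
    rcases hx with ⟨ℓ, hℓ, hℓN, -, rfl⟩ | ⟨q, hqN, hq, -, rfl⟩
    · exact ⟨heckeGen ⟨ℓ, hℓ⟩, by
        rw [heckeEvalForms_heckeGen_of_not_dvd (ℓ := ⟨ℓ, hℓ⟩) hℓN]; rfl⟩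
    · exact ⟨heckeGen ⟨q, hq⟩, by
        rw [heckeEvalForms_heckeGen_of_dvd (q := ⟨q, hq⟩) hqN]; rfl⟩
  | algebraMap r => exact ⟨MvPolynomial.C r, by rw [heckeEvalForms_C]; rfl⟩
  | add x y _ _ hx hy =>
    obtain ⟨P, hP⟩ := hx
    obtain ⟨Q, hQ⟩ := hy
    exact ⟨P + Q, by rw [map_add, ← hP, ← hQ]; rfl⟩
  | mul x y _ _ hx hy =>
    obtain ⟨P, hP⟩ := hx
    obtain ⟨Q, hQ⟩ := hy
    exact ⟨P * Q, by rw [map_mul, ← hP, ← hQ]; rfl⟩

lemma phi_surjective : Function.Surjective (phi p) :=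
  (latticeRestrictHom_surjective p ∅).comp (heckeEvalForms_surjective p)

/-- The integer valued coefficient functional. -/
def cz (n : ℕ) : ↥(intLattice p 2) →ₗ[ℤ] ℤ where
  toFun f := Classical.choose (mem_intLattice.mp f.2 n)
  map_add' f g := by
    apply Int.cast_injective (α := ℂ)
    push_cast
    rw [← Classical.choose_spec (mem_intLattice.mp (f + g).2 n),
      ← Classical.choose_spec (mem_intLattice.mp f.2 n),
      ← Classical.choose_spec (mem_intLattice.mp g.2 n)]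
    exact (coeffL p 2 n).map_add f g
  map_smul' c f := by
    apply Int.cast_injective (α := ℂ)
    simp only [eq_intCast, Int.cast_id, smul_eq_mul]
    push_cast
    rw [← Classical.choose_spec (mem_intLattice.mp (c • f).2 n),
      ← Classical.choose_spec (mem_intLattice.mp f.2 n)]
    have := (coeffL p 2 n).map_smul (c : ℂ) f
    simp only [coeffL_apply, smul_eq_mul, Int.cast_smul_eq_zsmul] at this
    exact this

omit hp in
lemma cz_spec (n : ℕ) (f : ↥(intLattice p 2)) :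
    qCoeff (f : CuspForm (Gamma0 p) 2) n = ((cz p n f : ℤ) : ℂ) :=
  Classical.choose_spec (mem_intLattice.mp f.2 n)

omit hp in
lemma cz_zero (f : ↥(intLattice p 2)) : cz p 0 f = 0 := by
  have := cz_spec p 0 f
  rw [qCoeff_zero_eq] at this
  exact_mod_cast this.symm

lemma cz_ext (f : ↥(intLattice p 2)) (h : ∀ n, 1 ≤ n → cz p n f = 0) : f = 0 := by
  apply Subtype.ext
  refine eq_zero_of_coeffs _ fun n hn ↦ ?_
  rw [cz_spec, h n hn, Int.cast_zero]

/-- the action of `phi` on the lattice. -/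
abbrev act (P : HeckeAlg) (f : ↥(intLattice p 2)) : ↥(intLattice p 2) :=
  (phi p P : Module.End ℤ ↥(intLattice p 2)) f

lemma coe_act (P : HeckeAlg) (f : ↥(intLattice p 2)) :
    ((act p P f : ↥(intLattice p 2)) : CuspForm (Gamma0 p) 2) =
      (heckeEvalForms p 2 P : Module.End ℂ (CuspForm (Gamma0 p) 2)) f := rfl

lemma act_mul (P Q : HeckeAlg) (f : ↥(intLattice p 2)) :
    act p (P * Q) f = act p P (act p Q f) := by
  unfold act
  rw [map_mul]; rfl

lemma act_sub (P Q : HeckeAlg) (f : ↥(intLattice p 2)) :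
    act p (P - Q) f = act p P f - act p Q f := by
  unfold act
  rw [map_sub]; rfl

lemma act_add (P Q : HeckeAlg) (f : ↥(intLattice p 2)) :
    act p (P + Q) f = act p P f + act p Q f := by
  unfold act
  rw [map_add]; rfl

lemma act_C (a : ℤ) (f : ↥(intLattice p 2)) :
    act p (MvPolynomial.C a) f = a • f := by
  have : (MvPolynomial.C a : HeckeAlg) = (a : HeckeAlg) := by simp
  unfold act
  rw [this, map_intCast]
  simp

lemma act_one (f : ↥(intLattice p 2)) : act p 1 f = f := by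
  unfold act
  rw [map_one]; rfl

lemma cz_act_gen {ℓ : ℕ} (hℓ : ℓ.Prime) (hℓp : ℓ ≠ p) (f : ↥(intLattice p 2)) (n : ℕ) :
    cz p n (act p (heckeGen ⟨ℓ, hℓ⟩) f) =
      cz p (n * ℓ) f + if ℓ ∣ n then (ℓ : ℤ) * cz p (n / ℓ) f else 0 := by
  have hnd : ¬ ℓ ∣ p := fun h ↦ hℓp ((Nat.prime_dvd_prime_iff_eq hℓ hp.out).mp h)
  apply Int.cast_injective (α := ℂ)
  rw [← cz_spec, coe_act, heckeEvalForms_heckeGen_of_not_dvd (ℓ := ⟨ℓ, hℓ⟩) hnd,
    heckeAlgebra.coe_T, qCoeff_heckeTLin]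
  push_cast
  rw [← cz_spec]
  split_ifs
  · rw [← cz_spec]
    norm_num
  · simp

lemma cz_act_gen_self (f : ↥(intLattice p 2)) (n : ℕ) :
    cz p n (act p (heckeGen ⟨p, hp.out⟩) f) = cz p (n * p) f := by
  apply Int.cast_injective (α := ℂ)
  rw [← cz_spec, coe_act, heckeEvalForms_heckeGen_of_dvd (q := ⟨p, hp.out⟩) (dvd_refl p),
    heckeAlgebra.coe_U, qCoeff_heckeULin hp.out, ← cz_spec]

lemma ev_gen {ℓ : ℕ} (hℓ : ℓ.Prime) (hℓp : ℓ ≠ p) : ev p (heckeGen ⟨ℓ, hℓ⟩) = 1 + ℓ := by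
  have hnd : ¬ ℓ ∣ p := fun h ↦ hℓp ((Nat.prime_dvd_prime_iff_eq hℓ hp.out).mp h)
  change MvPolynomial.aeval (R := ℤ) (eisensteinSystem p) (heckeGen ⟨ℓ, hℓ⟩) = 1 + ℓ
  rw [aeval_heckeGen, eisensteinSystem_of_not_dvd hnd]

lemma ev_gen_self : ev p (heckeGen ⟨p, hp.out⟩) = 1 := by
  change MvPolynomial.aeval (R := ℤ) (eisensteinSystem p) (heckeGen ⟨p, hp.out⟩) = 1
  rw [aeval_heckeGen, eisensteinSystem_of_dvd (dvd_refl p)]

/-- Hecke operators `T_k` for all `k ≥ 1`. -/
theorem exists_T (k : ℕ) (hk : k ≠ 0) :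
    ∃ P : HeckeAlg, (∀ f, cz p 1 (act p P f) = cz p k f) ∧ ev p P = sig p k := by
  induction k using Nat.strong_induction_on with
  | _ k ih =>
    rcases eq_or_ne k 1 with rfl | hk1
    · exact ⟨1, fun f ↦ by rw [act_one], by rw [map_one, sig_one]⟩
    · obtain ⟨ℓ, hℓ, hdvd⟩ := Nat.exists_prime_and_dvd hk1
      obtain ⟨k', rfl⟩ := hdvd
      have hk' : k' ≠ 0 := by rintro rfl; simp at hk
      have hlt : k' < ℓ * k' := by
        have := hℓ.two_le
        nlinarith [Nat.pos_of_ne_zero hk']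
      obtain ⟨P, hP, hPe⟩ := ih k' hlt hk'
      rcases eq_or_ne ℓ p with rfl | hℓp
      · refine ⟨P * heckeGen ⟨ℓ, hℓ⟩, fun f ↦ ?_, ?_⟩
        · rw [act_mul, hP, cz_act_gen_self, mul_comm]
        · rw [map_mul, hPe, ev_gen_self, mul_one, mul_comm ℓ, sig_mul_self ℓ hk']
      · by_cases hd : ℓ ∣ k'
        · obtain ⟨k'', rfl⟩ := hd
          have hk'' : k'' ≠ 0 := by rintro rfl; simp at hk'
          have hlt' : k'' < ℓ * (ℓ * k'') := by
            have := hℓ.two_le
            nlinarith [Nat.pos_of_ne_zero hk'', Nat.pos_of_ne_zero hk']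
          obtain ⟨Q, hQ, hQe⟩ := ih k'' hlt' hk''
          refine ⟨P * heckeGen ⟨ℓ, hℓ⟩ - MvPolynomial.C (ℓ : ℤ) * Q, fun f ↦ ?_, ?_⟩
          · rw [act_sub, act_mul, act_mul, act_C, map_sub, hP, map_smul, hQ,
              cz_act_gen p hℓ hℓp, if_pos (dvd_mul_right ℓ k''),
              Nat.mul_div_cancel_left _ hℓ.pos, mul_comm (ℓ * k'') ℓ]
            simp
          · rw [map_sub, map_mul, map_mul, hPe, hQe, ev_gen p hℓ hℓp,
              mul_comm ℓ (ℓ * k''), sig_mul p hℓ hℓp hk', if_pos (dvd_mul_right ℓ k''),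
              Nat.mul_div_cancel_left _ hℓ.pos]
            simp
            ring
        · refine ⟨P * heckeGen ⟨ℓ, hℓ⟩, fun f ↦ ?_, ?_⟩
          · rw [act_mul, hP, cz_act_gen p hℓ hℓp, if_neg hd, add_zero, mul_comm]
          · rw [map_mul, hPe, ev_gen p hℓ hℓp, mul_comm ℓ k', sig_mul p hℓ hℓp hk', if_neg hd]
            ring

/-- the Hecke algebra on the lattice -/
abbrev TT := ↥(heckeLatticeAlgebra p ∅)

/-- pairing with a form -/
def pairL : ↥(intLattice p 2) →ₗ[ℤ] (TT p →ₗ[ℤ] ℤ) where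
  toFun f :=
    { toFun := fun T ↦ cz p 1 ((T : Module.End ℤ ↥(intLattice p 2)) f)
      map_add' := fun S T ↦ by
        change cz p 1 (((S : Module.End ℤ ↥(intLattice p 2)) + T) f) = _
        rw [LinearMap.add_apply, map_add]
      map_smul' := fun c T ↦ by
        change cz p 1 ((c • (T : Module.End ℤ ↥(intLattice p 2))) f) = _
        rw [LinearMap.smul_apply, map_smul]; rfl }
  map_add' f g := by
    ext T
    change cz p 1 ((T : Module.End ℤ ↥(intLattice p 2)) (f + g)) = _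
    rw [map_add, map_add]; rfl
  map_smul' c f := by
    ext T
    change cz p 1 ((T : Module.End ℤ ↥(intLattice p 2)) (c • f)) = _
    rw [map_smul, map_smul]; rfl

lemma pairL_apply (f : ↥(intLattice p 2)) (T : TT p) :
    pairL p f T = cz p 1 ((T : Module.End ℤ ↥(intLattice p 2)) f) := rfl

lemma pairL_injective : Function.Injective (pairL p) := by
  rw [injective_iff_map_eq_zero]
  intro f hf
  refine cz_ext p f fun n hn ↦ ?_
  obtain ⟨P, hP, -⟩ := exists_T p n (by omega)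
  rw [← hP]
  exact LinearMap.congr_fun hf (phi p P)

lemma pairT_injective : Function.Injective (pairL p).flip := by
  rw [injective_iff_map_eq_zero]
  intro T hT
  apply Subtype.ext
  refine LinearMap.ext fun f ↦ ?_
  change (T : Module.End ℤ ↥(intLattice p 2)) f = 0
  refine cz_ext p _ fun n hn ↦ ?_
  obtain ⟨P, hP, -⟩ := exists_T p n (by omega)
  rw [← hP]
  have hcomm : act p P ((T : Module.End ℤ ↥(intLattice p 2)) f) =
      (T : Module.End ℤ ↥(intLattice p 2)) (act p P f) := by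
    have : phi p P * T = T * phi p P := mul_comm _ _
    exact congrArg (fun U : TT p ↦ (U : Module.End ℤ ↥(intLattice p 2)) f) this
  rw [hcomm]
  exact LinearMap.congr_fun hT (act p P f)

instance : Module.Finite ℤ ↥(intLattice p 2) := intLattice.moduleFinite p
instance : Module.Free ℤ ↥(intLattice p 2) := intLattice.moduleFree p

lemma finrank_eq : Module.finrank ℤ ↥(intLattice p 2) = Module.finrank ℤ (TT p →ₗ[ℤ] ℤ) := by
  have h1 := LinearMap.finrank_le_finrank_of_injective (pairL_injective p)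
  have h2 := LinearMap.finrank_le_finrank_of_injective (pairT_injective p)
  have h3 : Module.finrank ℤ (TT p →ₗ[ℤ] ℤ) = Module.finrank ℤ (TT p) := by
    rw [Module.finrank_linearMap, Module.finrank_self, mul_one]
  have h4 : Module.finrank ℤ (↥(intLattice p 2) →ₗ[ℤ] ℤ) = Module.finrank ℤ ↥(intLattice p 2) := by
    rw [Module.finrank_linearMap, Module.finrank_self, mul_one]
  omega

/-- finite index of the image of the pairing. -/
lemma exists_smul_mem (Φ : TT p →ₗ[ℤ] ℤ) : ∃ d : ℤ, d ≠ 0 ∧ ∃ f, pairL p f = d • Φ := by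
  have h1 : Module.finrank ℤ (LinearMap.range (pairL p)) = Module.finrank ℤ (TT p →ₗ[ℤ] ℤ) := by
    rw [LinearMap.finrank_range_of_inj (pairL_injective p), finrank_eq]
  have h2 := Submodule.finrank_quotient_add_finrank (LinearMap.range (pairL p))
  have h3 : Module.finrank ℤ ((TT p →ₗ[ℤ] ℤ) ⧸ LinearMap.range (pairL p)) = 0 := by omega
  rw [Module.finrank_eq_zero_iff_isTorsion] at h3
  obtain ⟨⟨d, hd⟩, hd'⟩ := h3 (x := Submodule.Quotient.mk Φ)
  refine ⟨d, nonZeroDivisors.ne_zero hd, ?_⟩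
  have h4 : (Submodule.Quotient.mk (d • Φ) : (TT p →ₗ[ℤ] ℤ) ⧸ LinearMap.range (pairL p)) = 0 := hd'
  rw [Submodule.Quotient.mk_eq_zero] at h4
  exact h4

/-- perfectness of the pairing. -/
theorem pairL_surjective : Function.Surjective (pairL p) := by
  intro Φ
  obtain ⟨d, hd, f, hf⟩ := exists_smul_mem p Φ
  have hdiv : ∀ n, ∃ c : ℤ, qCoeff (f : CuspForm (Gamma0 p) 2) n = ((d * c : ℤ) : ℂ) := by
    intro n
    rcases eq_or_ne n 0 with rfl | hn
    · exact ⟨0, by rw [cz_spec, cz_zero]; simp⟩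
    · obtain ⟨P, hP, -⟩ := exists_T p n hn
      refine ⟨Φ (phi p P), ?_⟩
      rw [cz_spec, ← hP]
      have := LinearMap.congr_fun hf (phi p P)
      rw [pairL_apply] at this
      exact_mod_cast this
  have hdC : (d : ℂ) ≠ 0 := by exact_mod_cast hd
  have hmem : ((d : ℂ)⁻¹ • (f : CuspForm (Gamma0 p) 2)) ∈ intLattice p 2 := by
    rw [mem_intLattice]
    intro n
    obtain ⟨c, hc⟩ := hdiv n
    refine ⟨c, ?_⟩
    have := (coeffL p 2 n).map_smul (d : ℂ)⁻¹ (f : CuspForm (Gamma0 p) 2)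
    simp only [coeffL_apply, smul_eq_mul] at this
    rw [this, hc]
    push_cast
    field_simp
  refine ⟨⟨_, hmem⟩, ?_⟩
  have hfd : f = d • (⟨_, hmem⟩ : ↥(intLattice p 2)) := by
    apply Subtype.ext
    change (f : CuspForm (Gamma0 p) 2) = d • ((d : ℂ)⁻¹ • (f : CuspForm (Gamma0 p) 2))
    rw [← Int.cast_smul_eq_zsmul ℂ, smul_smul, mul_inv_cancel₀ hdC, one_smul]
  rw [hfd, map_smul] at hf
  exact smul_right_injective _ hd hf

end

end Fermat.Agent.Mazur16
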