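import Fermat.Agent.Mazur16.PropU

/-!
# The Eisenstein series of weight two and level `p`
-/

set_option autoImplicit false

open UpperHalfPlane CongruenceSubgroup Matrix.SpecialLinearGroup Function EisensteinSeries
open scoped MatrixGroups ModularForm Manifold

namespace Fermat.Agent.Mazur16

open Fermat.Agent.ModPoly Fermat.Agent.IntStr PowerSeries

noncomputable section

lemma isBoundedAtImInfty_D2 (γ : SL(2, ℤ)) : IsBoundedAtImInfty (D2 γ) := by
  rw [isBoundedAtImInfty_iff]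
  by_cases hc : γ 1 0 = 0
  · refine ⟨0, 0, fun z _ ↦ ?_⟩
    simp [D2, hc]
  · refine ⟨2 * Real.pi, 1, fun z hz ↦ ?_⟩
    have h1 : |(γ 1 0 : ℝ)| * z.im ≤ ‖denom γ z‖ := by
      rw [ModularGroup.denom_apply]
      have h2 : ((γ 1 0 : ℂ) * z + γ 1 1).im = (γ 1 0 : ℝ) * z.im := by simp
      have h3 := Complex.abs_im_le_norm ((γ 1 0 : ℂ) * z + γ 1 1)
      rwa [h2, abs_mul, abs_of_pos z.im_pos] at h3
    have hc1 : 0 < |(γ 1 0 : ℝ)| := by
      rw [abs_pos]; exact_mod_cast hc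
    have h4 : |(γ 1 0 : ℝ)| ≤ ‖denom γ z‖ := by nlinarith
    rw [D2, norm_div]
    have h5 : 0 < ‖denom γ z‖ := lt_of_lt_of_le hc1 h4
    rw [div_le_iff₀ h5]
    have h6 : ‖(2 * Real.pi * Complex.I * γ 1 0 : ℂ)‖ = 2 * Real.pi * |(γ 1 0 : ℝ)| := by
      rw [norm_mul, norm_mul, norm_mul, Complex.norm_I, Complex.norm_ofNat, Complex.norm_real,
        Complex.norm_intCast, Real.norm_of_nonneg Real.pi_pos.le]
      ring
    rw [h6]
    exact mul_le_mul_of_nonneg_left h4 (by positivity)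

lemma QF.E2 : QF E2 where
  per := by
    rw [per_iff]
    intro τ
    have h := congrFun (E2_slash_action ModularGroup.T) τ
    rw [D2_T, smul_zero, sub_zero, ModularForm.SL_slash_apply, modular_T_smul] at h
    simpa [ModularGroup.denom_apply, ModularGroup.T] using h
  hol := E2_mdifferentiable
  bdd := isBoundedAtImInfty_E2

lemma coeff_E2 (n : ℕ) :
    (qe E2).coeff n = if n = 0 then 1 else -24 * (ArithmeticFunction.sigma 1 n : ℂ) := by
  refine QF.E2.coeff_eq_of_hasSum (c := fun n ↦ if n = 0 then 1 else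
    -24 * (ArithmeticFunction.sigma 1 n : ℂ)) (fun τ ↦ ?_) n
  have := hasSum_qExpansion_E2 (z := τ)
  simpa only [Periodic.qParam, Complex.ofReal_one, div_one, smul_eq_mul] using this

lemma sub_slash_SL (k : ℤ) (f g : ℍ → ℂ) (γ : SL(2, ℤ)) :
    (f - g) ∣[k] γ = f ∣[k] γ - g ∣[k] γ := by
  rw [sub_eq_add_neg, SlashAction.add_slash, SlashAction.neg_slash, ← sub_eq_add_neg]

variable (p : ℕ) [hp : Fact p.Prime]

/-- The Eisenstein series `p E₂(pz) - E₂(z)`. -/
def eis : ℍ → ℂ := E2 ∣[(2 : ℤ)] ModularForm.heckeDiagMatrix p - E2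

/-- `σ'(n)`, the sum of the divisors of `n` prime to `p`. -/
def sig (n : ℕ) : ℤ :=
  (ArithmeticFunction.sigma 1 n : ℤ) - if p ∣ n then (p : ℤ) * ArithmeticFunction.sigma 1 (n / p)
    else 0

/-- The power series `Σ σ'(n) q^n`. -/
def del : PowerSeries ℤ := PowerSeries.mk (sig p)

lemma slash_E2_heckeDiag : E2 ∣[(2 : ℤ)] ModularForm.heckeDiagMatrix p = (p : ℂ) • dil p E2 := by
  ext τ
  rw [ModularForm.slash_heckeDiagMatrix_apply 2 hp.out.ne_zero]
  simp [dil]

theorem isForm_eis : IsForm p 2 (eis p) where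
  slash γ hγ := by
    have hN := hp.out.ne_zero
    rw [Gamma0_mem] at hγ
    obtain ⟨c, hc⟩ := (ZMod.intCast_zmod_eq_zero_iff_dvd _ _).mp hγ
    have hdet : γ 0 0 * γ 1 1 - γ 0 1 * γ 1 0 = 1 := by
      have := γ.det_coe
      rwa [Matrix.det_fin_two] at this
    let γ' : SL(2, ℤ) := ⟨!![γ 0 0, p * γ 0 1; c, γ 1 1], by
      rw [Matrix.det_fin_two_of]; rw [hc] at hdet; linear_combination hdet⟩
    have key : ModularForm.heckeDiagMatrix p * (mapGL ℝ γ : GL (Fin 2) ℝ) =
        mapGL ℝ γ' * ModularForm.heckeDiagMatrix p := by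
      apply Units.ext
      rw [Units.val_mul, Units.val_mul, val_mapGL_eq, val_mapGL_eq,
        ModularForm.val_heckeDiagMatrix hN]
      have e00 : ((γ' 0 0 : ℤ) : ℝ) = γ 0 0 := rfl
      have e01 : ((γ' 0 1 : ℤ) : ℝ) = p * γ 0 1 := by
        have : γ' 0 1 = p * γ 0 1 := rfl
        rw [this]; push_cast; ring
      have e10 : ((γ' 1 0 : ℤ) : ℝ) = c := rfl
      have e11 : ((γ' 1 1 : ℤ) : ℝ) = γ 1 1 := rfl
      have hcR : ((γ 1 0 : ℤ) : ℝ) = p * c := by exact_mod_cast hc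
      rw [e00, e01, e10, e11]
      ext i j
      fin_cases i <;> fin_cases j <;> simp [Matrix.mul_apply, Fin.sum_univ_two]
      · ring
      · rw [hcR]; ring
    have h1 : (E2 ∣[(2 : ℤ)] ModularForm.heckeDiagMatrix p) ∣[(2 : ℤ)] γ =
        E2 ∣[(2 : ℤ)] ModularForm.heckeDiagMatrix p - (1 / (2 * riemannZeta 2)) • D2 γ := by
      rw [ModularForm.SL_slash, ← SlashAction.slash_mul]
      rw [show (((γ : SL(2, ℤ)) : GL (Fin 2) ℝ)) = mapGL ℝ γ from rfl, key,
        SlashAction.slash_mul]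
      have h2 : E2 ∣[(2 : ℤ)] (mapGL ℝ γ' : GL (Fin 2) ℝ) =
        E2 - (1 / (2 * riemannZeta 2)) • D2 γ' := E2_slash_action γ'
      rw [h2]
      ext τ
      rw [ModularForm.slash_heckeDiagMatrix_apply 2 hN, Pi.sub_apply, Pi.sub_apply,
        ModularForm.slash_heckeDiagMatrix_apply 2 hN, Pi.smul_apply, Pi.smul_apply, mul_sub]
      congr 1
      simp only [D2, smul_eq_mul, ModularGroup.denom_apply]
      rw [heckeDiagMatrix_smul_coe hN, hc]
      have e10 : (γ' 1 0 : ℤ) = c := rfl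
      have e11 : (γ' 1 1 : ℤ) = γ 1 1 := rfl
      rw [e10, e11]
      norm_num
      ring
    rw [eis, sub_slash_SL, h1, E2_slash_action]
    abel
  holo := (QF.E2.hol.slash 2 _).sub QF.E2.hol
  bdd γ := by
    have hE : ∀ γ : SL(2, ℤ), IsBoundedAtImInfty (E2 ∣[(2 : ℤ)] γ) := by
      intro γ
      rw [E2_slash_action]
      exact isBoundedAtImInfty_E2.sub ((isBoundedAtImInfty_D2 γ).const_smul_left _)
    rw [eis, sub_slash_SL]
    have hA : IsBoundedAtImInfty ((E2 ∣[(2 : ℤ)] ModularForm.heckeDiagMatrix p) ∣[(2 : ℤ)] γ) := by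
      rw [ModularForm.SL_slash, ← SlashAction.slash_mul]
      obtain ⟨γ', a, b, d, had, -, -, -, h, -⟩ := exists_hermite hp.out.ne_zero γ
      rw [show (((γ : SL(2, ℤ)) : GL (Fin 2) ℝ)) = mapGL ℝ γ from rfl, h, SlashAction.slash_mul]
      apply IsBoundedAtImInfty.slash
      · rw [ModularForm.val_upperTriangularGL]; simp
      · exact hE γ'
    exact hA.sub (hE γ)

theorem qe_eis : qe (eis p) = (C ((p : ℤ) - 1) + C 24 * del p).map (Int.castRingHom ℂ) := by
  have hN := hp.out.ne_zero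
  rw [eis, slash_E2_heckeDiag, ((QF.E2.dil hN).smul _).qe_sub QF.E2, (QF.E2.dil hN).qe_smul]
  ext n
  rw [map_sub, coeff_smul, QF.E2.coeff_dil hN, coeff_E2 n, coeff_map, map_add, coeff_C_mul,
    coeff_C, del, coeff_mk, sig, smul_eq_mul]
  by_cases h0 : n = 0
  · subst h0
    simp [coeff_E2]
  · rw [if_neg h0, if_neg h0, zero_add]
    split_ifs with hd
    · rw [coeff_E2, if_neg (by
        intro h
        rw [Nat.div_eq_zero_iff] at h
        rcases h with h | h
        · exact hN h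
        · exact absurd (Nat.le_of_dvd (Nat.pos_of_ne_zero h0) hd) (by omega))]
      simp
      ring
    · simp

end

end Fermat.Agent.Mazur16
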