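import Fermat.Agent.Mazur16.Upper

/-!
# The lower bound for the index, given a form with constant term `1/2`
-/

set_option autoImplicit false

open CuspForm ModularCurve CongruenceSubgroup ModularFormClass UpperHalfPlane
open Matrix.SpecialLinearGroup
open scoped MatrixGroups ModularForm Manifold

namespace Fermat.Agent.Mazur16

open Fermat.Agent.DS Fermat.Agent.IntStr

noncomputable section

variable (p : ℕ) [hp : Fact p.Prime]

lemma exists_coset (γ : SL(2, ℤ)) :
    γ ∈ Gamma0 p ∨ ∃ j : ℕ, ∃ γ' ∈ Gamma0 p, γ = γ' * stJ (j : ℤ) := by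
  by_cases hc : (p : ℤ) ∣ γ 1 0
  · exact Or.inl (mem_Gamma0_iff_dvd.mpr hc)
  · right
    have hc' : (γ 1 0 : ZMod p) ≠ 0 := by
      rwa [Ne, ZMod.intCast_zmod_eq_zero_iff_dvd]
    let j : ZMod p := (γ 1 1 : ZMod p) / (γ 1 0 : ZMod p)
    refine ⟨j.val, γ * (stJ (j.val : ℤ))⁻¹, ?_, by group⟩
    rw [Gamma0_mem, coe_mul, stJ_inv_coe]
    have : (γ 1 0 : ZMod p) * j = (γ 1 1 : ZMod p) := by
      simp only [j]; field_simp
    simp [Matrix.mul_apply, Fin.sum_univ_two, this]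

lemma QF.isZero {f : ℍ → ℂ} (hf : QF f) (h0 : (qe f).coeff 0 = 0) : IsZeroAtImInfty f := by
  have hanal := hf.analytic
  have hper := hf.per'
  have h : valueAtInfty f = 0 := by
    rwa [← qExpansion_coeff_zero one_pos hanal hper]
  have h2 : cuspFunction 1 f 0 = 0 := by
    rw [UpperHalfPlane.cuspFunction_apply_zero one_pos hanal hper, h]
  have h3 := (hanal.continuousAt.tendsto.comp (qParam_tendsto_atImInfty one_pos))
  rw [h2] at h3
  exact h3.congr (fun τ ↦ UpperHalfPlane.eq_cuspFunction τ one_ne_zero hper)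

lemma isZeroAtImInfty_iff' {f : ℍ → ℂ} :
    IsZeroAtImInfty f ↔ ∀ ε : ℝ, 0 < ε → ∃ A : ℝ, ∀ z : ℍ, A ≤ im z → ‖f z‖ ≤ ε :=
  isZeroAtImInfty_iff

lemma im_heckeDiagMatrix_smul (τ : ℍ) :
    (ModularForm.heckeDiagMatrix p • τ).im = p * τ.im := by
  have := congrArg Complex.im (heckeDiagMatrix_smul_coe hp.out.ne_zero τ)
  simpa using this

lemma isZero_of_dil {f : ℍ → ℂ} (h : IsZeroAtImInfty (dil p f)) : IsZeroAtImInfty f := by
  rw [isZeroAtImInfty_iff'] at h ⊢
  intro ε hε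
  obtain ⟨A, hA⟩ := h ε hε
  have hp0 : (0 : ℝ) < p := by exact_mod_cast hp.out.pos
  refine ⟨p * A, fun z hz ↦ ?_⟩
  have := hA ((ModularForm.heckeDiagMatrix p)⁻¹ • z) (by
    have h1 := im_heckeDiagMatrix_smul p ((ModularForm.heckeDiagMatrix p)⁻¹ • z)
    rw [smul_inv_smul] at h1
    rw [h1] at hz
    exact le_of_mul_le_mul_left hz hp0)
  rwa [dil_apply, smul_inv_smul] at this

lemma isZero_shift {f : ℍ → ℂ} (h : IsZeroAtImInfty f) (t : ℝ) : IsZeroAtImInfty (shift t f) := by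
  rw [isZeroAtImInfty_iff'] at h ⊢
  intro ε hε
  obtain ⟨A, hA⟩ := h ε hε
  exact ⟨A, fun z hz ↦ hA _ (by simpa using hz)⟩

/-- a weight two form vanishing at `∞` is a cusp form. -/
lemma isZero_slash {f : ℍ → ℂ} (hf : IsForm p 2 f) (h0 : (qe f).coeff 0 = 0) (γ : SL(2, ℤ)) :
    IsZeroAtImInfty (f ∣[(2 : ℤ)] γ) := by
  have hq := QF.of_isForm hf
  rcases exists_coset p γ with hγ | ⟨j, γ', hγ', rfl⟩
  · rw [hf.slash γ hγ]
    exact hq.isZero h0
  · rw [SlashAction.slash_mul, hf.slash γ' hγ', slash_stJ_eq_shift]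
    refine isZero_shift ?_ _
    refine isZero_of_dil p ?_
    change IsZeroAtImInfty (atZero p 2 f)
    refine (QF.atZero' p hf).isZero ?_
    rw [atZero_two_isForm hf, (hq.heckeU 2 p).qe_smul, PowerSeries.coeff_smul,
      hq.coeff_heckeU 2 hp.out.ne_zero, zero_mul, h0, smul_zero]

/-- the cusp form -/
def toCusp {f : ℍ → ℂ} (hf : IsForm p 2 f) (h0 : (qe f).coeff 0 = 0) : CuspForm (Gamma0 p) 2 where
  toFun := f
  slash_action_eq' := hf.toModularForm.slash_action_eq'
  holo' := hf.holo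
  zero_at_cusps' hc := by
    rw [Subgroup.IsArithmetic.isCusp_iff_isCusp_SL2Z] at hc
    rw [OnePoint.isZeroAt_iff_forall_SL2Z hc]
    intro γ _
    exact isZero_slash p hf h0 γ

lemma coe_toCusp {f : ℍ → ℂ} (hf : IsForm p 2 f) (h0 : (qe f).coeff 0 = 0) :
    ⇑(toCusp p hf h0) = f := rfl

/-- The congruence satisfied by all Hecke operators. -/
lemma cong_act {M : ℤ} {f : ↥(intLattice p 2)} (a : ℤ)
    (hf : ∀ n, n ≠ 0 → M ∣ cz p n f - a * sig p n) (P : HeckeAlg) :
    ∀ n, n ≠ 0 → M ∣ cz p n (act p P f) - a * ev p P * sig p n := by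
  induction P using MvPolynomial.induction_on with
  | C b =>
    intro n hn
    have hb : (MvPolynomial.C b : HeckeAlg) = ((b : ℤ) : HeckeAlg) := by simp
    rw [act_C, map_smul, hb, map_intCast, Int.cast_id]
    have : b • cz p n f - a * b * sig p n = b * (cz p n f - a * sig p n) := by
      simp only [smul_eq_mul]; ring
    rw [this]
    exact (hf n hn).mul_left _
  | add P Q hP hQ =>
    intro n hn
    rw [act_add, map_add (cz p n), map_add (ev p)]
    have h1 := dvd_add (hP n hn) (hQ n hn)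
    have h2 : cz p n (act p P f) + cz p n (act p Q f) - a * (ev p P + ev p Q) * sig p n =
      cz p n (act p P f) - a * ev p P * sig p n + (cz p n (act p Q f) - a * ev p Q * sig p n) := by
      ring
    rw [h2]
    exact h1
  | mul_X P ℓ hP =>
    intro n hn
    rw [mul_comm, act_mul, map_mul]
    obtain ⟨ℓ, hℓ⟩ := ℓ
    have hX : (MvPolynomial.X ⟨ℓ, hℓ⟩ : HeckeAlg) = heckeGen ⟨ℓ, hℓ⟩ := rfl
    rw [hX]
    have hnℓ : n * ℓ ≠ 0 := mul_ne_zero hn hℓ.ne_zero
    rcases eq_or_ne ℓ p with rfl | hℓp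
    · rw [cz_act_gen_self, ev_gen_self]
      have := hP (n * ℓ) hnℓ
      rw [sig_mul_self ℓ hn] at this
      rwa [one_mul]
    · rw [cz_act_gen p hℓ hℓp, ev_gen p hℓ hℓp]
      have h1 := hP (n * ℓ) hnℓ
      rw [sig_mul p hℓ hℓp hn] at h1
      split_ifs at h1 ⊢ with hd
      · have hn' : n / ℓ ≠ 0 := by
          intro h
          rw [Nat.div_eq_zero_iff] at h
          rcases h with h | h
          · exact hℓ.ne_zero h
          · exact absurd (Nat.le_of_dvd (Nat.pos_of_ne_zero hn) hd) (by omega)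
        have h2 := (hP (n / ℓ) hn').mul_left (ℓ : ℤ)
        have h3 := dvd_add h1 h2
        refine h3.trans (dvd_of_eq ?_)
        ring
      · refine h1.trans (dvd_of_eq ?_)
        ring

/-- The lower bound. -/
theorem lower_of_form {G : ℍ → ℂ} (hG : IsForm p 2 G) {b : PowerSeries ℤ} (hb0 : b.coeff 0 = 0)
    (hq : qe G = (PowerSeries.C 2 + PowerSeries.C 4 * b).map (Int.castRingHom ℂ)) (P : HeckeAlg)
    (hP : phi p P = 0) : (eisensteinNumerator p : ℤ) ∣ ev p P := by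
  let F : ℍ → ℂ := (1 / 2 : ℂ) • eis p + (-((p : ℂ) - 1) / 4) • G
  have hF : IsForm p 2 F := ((isForm_eis p).smul _).add (hG.smul _)
  have hFq : qe F = (PowerSeries.C 12 * del p - PowerSeries.C ((p : ℤ) - 1) * b).map
      (Int.castRingHom ℂ) := by
    have h1 := ((QF.of_isForm (isForm_eis p)).smul (1 / 2)).qe_add
      ((QF.of_isForm hG).smul (-((p : ℂ) - 1) / 4))
    rw [h1, (QF.of_isForm (isForm_eis p)).qe_smul, (QF.of_isForm hG).qe_smul, hq, qe_eis]
    obtain ⟨a, ha⟩ : ∃ a : ℤ, a = (p : ℤ) - 1 := ⟨_, rfl⟩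
    have haC : (p : ℂ) - 1 = a := by rw [ha]; push_cast; ring
    rw [← ha, haC]
    ext n
    simp only [map_add, map_sub, PowerSeries.coeff_map, PowerSeries.coeff_C_mul,
      PowerSeries.coeff_smul, PowerSeries.coeff_C, smul_eq_mul, Int.coe_castRingHom]
    split_ifs
    · push_cast; ring
    · push_cast; ring
  have h0 : (qe F).coeff 0 = 0 := by
    rw [hFq, PowerSeries.coeff_map, map_sub, PowerSeries.coeff_C_mul, PowerSeries.coeff_C_mul, hb0,
      del, PowerSeries.coeff_mk, sig_zero]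
    simp
  have hmem : toCusp p hF h0 ∈ intLattice p 2 := by
    rw [mem_intLattice]
    intro n
    change ∃ c : ℤ, (qe F).coeff n = c
    rw [hFq, PowerSeries.coeff_map]
    exact ⟨_, rfl⟩
  have hcz : ∀ n, cz p n ⟨_, hmem⟩ = 12 * sig p n - ((p : ℤ) - 1) * b.coeff n := by
    intro n
    apply Int.cast_injective (α := ℂ)
    rw [← cz_spec]
    change (qe F).coeff n = _
    rw [hFq, PowerSeries.coeff_map, map_sub, PowerSeries.coeff_C_mul, PowerSeries.coeff_C_mul, del,
      PowerSeries.coeff_mk]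
    rfl
  have h1 := cong_act p (M := (p : ℤ) - 1) (f := ⟨_, hmem⟩) 12 (fun n _ ↦ by
    rw [hcz]; exact ⟨-b.coeff n, by ring⟩) P 1 one_ne_zero
  have h2 : act p P ⟨_, hmem⟩ = 0 := by
    unfold act; rw [hP]; rfl
  rw [h2, map_zero, sig_one, mul_one, zero_sub, dvd_neg] at h1
  -- arithmetic
  have hp1 : ((p - 1 : ℕ) : ℤ) = (p : ℤ) - 1 := by
    rw [Nat.cast_sub hp.out.one_lt.le]; simp
  rw [← hp1] at h1
  have h3 : (p - 1) ∣ 12 * (ev p P).natAbs := by
    have := Int.natAbs_dvd_natAbs.mpr h1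
    rwa [Int.natAbs_mul, Int.natAbs_natCast] at this
  refine Int.natCast_dvd.mpr ?_
  rw [eisensteinNumerator]
  set g := Nat.gcd (p - 1) 12 with hg
  have hg0 : 0 < g := Nat.gcd_pos_of_pos_right _ (by norm_num)
  have hcop : Nat.Coprime ((p - 1) / g) (12 / g) := Nat.coprime_div_gcd_div_gcd hg0
  refine hcop.dvd_of_dvd_mul_left ?_
  have h4 : (p - 1) / g * g ∣ (12 / g) * (ev p P).natAbs * g := by
    rw [Nat.div_mul_cancel (Nat.gcd_dvd_left _ _)]
    have : 12 / g * (ev p P).natAbs * g = 12 * (ev p P).natAbs := by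
      rw [mul_right_comm, Nat.div_mul_cancel (Nat.gcd_dvd_right _ _)]
    rwa [this]
  exact Nat.dvd_of_mul_dvd_mul_right hg0 h4

end

end Fermat.Agent.Mazur16
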