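import Fermat.Agent.Mazur16.Theta8
import Fermat.Agent.Mazur16.Lower

/-!
# The index of the Eisenstein ideal
-/

set_option autoImplicit false

open CuspForm ModularCurve CongruenceSubgroup ModularFormClass UpperHalfPlane
open scoped MatrixGroups ModularForm Manifold

namespace Fermat.Agent.Mazur16

open Fermat.Agent.DS Fermat.Agent.IntStr

noncomputable section

variable (p : ℕ) [hp : Fact p.Prime]

lemma lattice_zero (hp3 : p ≤ 4) (f : ↥(intLattice p 2)) : f = 0 := by
  let F : ModularForm (Gamma0 p) 2 := ModularFormClass.modularForm (f : CuspForm (Gamma0 p) 2)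
  have hF : IsForm p 2 (F : UpperHalfPlane → ℂ) := IsForm.of_modularForm F
  have hIP := IP.of_two p hF (A := PowerSeries.mk fun n ↦ cz p n f) (by
    ext n
    rw [PowerSeries.coeff_map, PowerSeries.coeff_mk]
    exact cz_spec p n f)
  refine cz_ext p f fun n _ ↦ ?_
  by_contra hne
  have h1 := hIP.sturm Nat.prime_two (cz p n f).natAbs (fun m hm ↦ by
    have hm0 : m = 0 := by omega
    rw [hm0, PowerSeries.coeff_mk, cz_zero]
    exact dvd_zero _) n
  rw [PowerSeries.coeff_mk] at h1
  have h2 := Int.natAbs_dvd_natAbs.mpr h1
  have h3 : 2 ^ (cz p n f).natAbs ∣ (cz p n f).natAbs := by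
    simpa [Int.natAbs_pow] using h2
  exact absurd (Nat.le_of_dvd (Int.natAbs_pos.mpr hne) h3) (not_le.mpr Nat.lt_two_pow_self)

/-- The index of the Eisenstein ideal. -/
theorem card_quotient : Nat.card (TT p ⧸ II p) = eisensteinNumerator p := by
  by_cases hp5 : 5 ≤ p
  · obtain ⟨G, b, hG, hb0, hq⟩ := exists_half_form p (by omega)
    exact card_of_lower p hp5 fun P hP ↦ lower_of_form p hG hb0 hq P hP
  · have hp2 := hp.out.two_le
    have hp4 : p ≠ 4 := by
      rintro rfl
      exact absurd hp.out (by norm_num)
    have hn : eisensteinNumerator p = 1 := by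
      have : p = 2 ∨ p = 3 := by omega
      rcases this with h | h <;> rw [h] <;> decide
    have hsub : Subsingleton (TT p) := by
      constructor
      intro a b
      apply Subtype.ext
      refine LinearMap.ext fun f ↦ ?_
      rw [lattice_zero p (by omega) f, map_zero, map_zero]
    have : Subsingleton (TT p ⧸ II p) :=
      (Ideal.Quotient.mk_surjective (I := II p)).subsingleton
    rw [hn]
    exact Nat.card_unique

end

end Fermat.Agent.Mazur16
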