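import Fermat.Agent.Mazur16.SturmMod
import Fermat.Agent.IntStr.DeltaN

/-!
# Integral pairs: forms on `Γ₀(p)` with integral expansions at `∞` and (up to scaling) at `0`
-/

set_option autoImplicit false

open UpperHalfPlane CongruenceSubgroup Matrix.SpecialLinearGroup Function
open scoped MatrixGroups ModularForm Manifold

namespace Fermat.Agent.Mazur16

open Fermat.Agent.ModPoly Fermat.Agent.IntStr

noncomputable section

variable (p : ℕ) [hp : Fact p.Prime]

lemma QF.of_isForm {N : ℕ} {k : ℤ} {f : ℍ → ℂ} (hf : IsForm N k f) : QF f where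
  per := hf.periodic
  hol := hf.holo
  bdd := by simpa using hf.bdd 1

lemma QF.atZero' {k : ℤ} {f : ℍ → ℂ} (hf : IsForm p k f) : QF (Mazur16.atZero p k f) := by
  have := QF.atZero p hf.toModularForm
  simpa using this

omit hp in
lemma atZero_mul (k l : ℤ) (f g : ℍ → ℂ) :
    atZero p (k + l) (f * g) = atZero p k f * atZero p l g := by
  rw [atZero, ModularForm.mul_slash_SL2, dil_mul]; rfl

omit hp in
lemma atZero_add (k : ℤ) (f g : ℍ → ℂ) :
    atZero p k (f + g) = atZero p k f + atZero p k g := by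
  rw [atZero, SlashAction.add_slash, dil_add]; rfl

omit hp in
lemma atZero_smul (k : ℤ) (c : ℂ) (f : ℍ → ℂ) :
    atZero p k (c • f) = c • atZero p k f := by
  rw [atZero, ModularForm.SL_smul_slash, dil_smul]; rfl

omit hp in
lemma atZero_cast {k l : ℤ} (h : k = l) (f : ℍ → ℂ) : atZero p k f = atZero p l f := by rw [h]

/-- A form on `Γ₀(p)` with integral expansions. -/
structure IP (k : ℕ) (f : ℍ → ℂ) (A : PowerSeries ℤ) : Prop where
  mf : IsForm p (k : ℤ) f
  int : qe f = A.map (Int.castRingHom ℂ)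
  intS : ∃ c : ℤ, c ≠ 0 ∧ ∃ B : PowerSeries ℤ,
    (c : ℂ) • qe (atZero p k f) = B.map (Int.castRingHom ℂ)

namespace IP

variable {p} {k l m : ℕ} {f g : ℍ → ℂ} {A B : PowerSeries ℤ}

theorem sturm (h : IP p k f A) {ℓ : ℕ} (hℓ : ℓ.Prime) (e : ℕ)
    (hA : ∀ n, 12 * n ≤ k * (p + 1) → (ℓ : ℤ) ^ e ∣ A.coeff n) (n : ℕ) :
    (ℓ : ℤ) ^ e ∣ A.coeff n := by
  obtain ⟨c, hc, B, hB⟩ := h.intS
  exact sturm_prime_pow p hℓ e h.mf.toModularForm A h.int c (by exact_mod_cast hc) B hB hA n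

theorem add (hf : IP p k f A) (hg : IP p k g B) : IP p k (f + g) (A + B) where
  mf := hf.mf.add hg.mf
  int := by
    rw [(QF.of_isForm hf.mf).qe_add (QF.of_isForm hg.mf), hf.int, hg.int, map_add]
  intS := by
    obtain ⟨c, hc, C, hC⟩ := hf.intS
    obtain ⟨d, hd, D, hD⟩ := hg.intS
    refine ⟨c * d, mul_ne_zero hc hd, PowerSeries.C d * C + PowerSeries.C c * D, ?_⟩
    rw [atZero_add, (QF.atZero' p hf.mf).qe_add (QF.atZero' p hg.mf), smul_add]
    rw [map_add, map_mul, map_mul, ← hC, ← hD, PowerSeries.map_C, PowerSeries.map_C,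
      ← PowerSeries.smul_eq_C_mul, ← PowerSeries.smul_eq_C_mul, smul_smul, smul_smul, eq_intCast,
      eq_intCast, Int.cast_mul, mul_comm (d : ℂ)]

theorem mul (hf : IP p k f A) (hg : IP p l g B) (h : k + l = m) : IP p m (f * g) (A * B) where
  mf := (hf.mf.mul hg.mf).cast (by rw [← h]; push_cast; ring)
  int := by
    rw [(QF.of_isForm hf.mf).qe_mul (QF.of_isForm hg.mf), hf.int, hg.int, map_mul]
  intS := by
    obtain ⟨c, hc, C, hC⟩ := hf.intS
    obtain ⟨d, hd, D, hD⟩ := hg.intS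
    refine ⟨c * d, mul_ne_zero hc hd, C * D, ?_⟩
    have h' : ((m : ℕ) : ℤ) = (k : ℤ) + (l : ℤ) := by rw [← h]; push_cast; ring
    rw [atZero_cast p h', atZero_mul, (QF.atZero' p hf.mf).qe_mul (QF.atZero' p hg.mf),
      map_mul, ← hC, ← hD, smul_mul_smul_comm, Int.cast_mul]

theorem smul (a : ℤ) (hf : IP p k f A) : IP p k ((a : ℂ) • f) (PowerSeries.C a * A) where
  mf := hf.mf.smul _
  int := by
    rw [(QF.of_isForm hf.mf).qe_smul, hf.int, map_mul, PowerSeries.map_C,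
      ← PowerSeries.smul_eq_C_mul]
    rfl
  intS := by
    obtain ⟨c, hc, C, hC⟩ := hf.intS
    refine ⟨c, hc, PowerSeries.C a * C, ?_⟩
    rw [atZero_smul, (QF.atZero' p hf.mf).qe_smul, map_mul, PowerSeries.map_C,
      ← PowerSeries.smul_eq_C_mul, ← hC, smul_comm]
    rfl

omit hp in
theorem congr (hf : IP p k f A) (h : A = B) : IP p k f B := h ▸ hf

end IP

/-- weight two forms with integral coefficients are integral pairs. -/
theorem IP.of_two {f : ℍ → ℂ} (hf : IsForm p 2 f) {A : PowerSeries ℤ}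
    (hA : qe f = A.map (Int.castRingHom ℂ)) : IP p 2 f A where
  mf := hf
  int := hA
  intS := by
    refine ⟨-p, by simpa using hp.out.ne_zero, PowerSeries.mk fun n ↦ A.coeff (n * p), ?_⟩
    have h := atZero_two p hf.toModularForm
    rw [IsForm.coe_toModularForm] at h
    rw [show ((2 : ℕ) : ℤ) = 2 from rfl, h]
    have hq := QF.of_isForm hf
    rw [(hq.heckeU 2 p).qe_smul, smul_smul]
    have hpC : (p : ℂ) ≠ 0 := by exact_mod_cast hp.out.ne_zero
    have : ((-p : ℤ) : ℂ) * (-(p : ℂ)⁻¹) = 1 := by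
      push_cast; field_simp
    rw [this, one_smul]
    ext n
    rw [hq.coeff_heckeU 2 hp.out.ne_zero, hA]
    simp

lemma dil_eq_slash {k : ℤ} (f : ℍ → ℂ) :
    dil p f = ((p : ℂ) ^ (k - 1))⁻¹ • (f ∣[k] ModularForm.heckeDiagMatrix p) := by
  ext τ
  have hp0 : (p : ℂ) ^ (k - 1) ≠ 0 := zpow_ne_zero _ (by exact_mod_cast hp.out.ne_zero)
  rw [Pi.smul_apply, ModularForm.slash_heckeDiagMatrix_apply k hp.out.ne_zero, smul_eq_mul,
    inv_mul_cancel_left₀ hp0]
  rfl

lemma isForm_dil {k : ℤ} {f : ℍ → ℂ} (hf : IsForm 1 k f) : IsForm p k (dil p f) := by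
  rw [dil_eq_slash p (k := k)]
  exact (isForm_scale hp.out.ne_zero hf).smul _

lemma atZero_dil {k : ℤ} {f : ℍ → ℂ} (hf : IsForm 1 k f) :
    atZero p k (dil p f) = ((p : ℂ) ^ k)⁻¹ • f := by
  ext τ
  have hp0 : (p : ℂ) ≠ 0 := by exact_mod_cast hp.out.ne_zero
  have hτ : (τ : ℂ) ≠ 0 := ne_zero τ
  rw [atZero, dil_apply, ModularForm.SL_slash_apply, dil_apply, Pi.smul_apply, smul_eq_mul]
  have h1 : ModularForm.heckeDiagMatrix p • ModularGroup.S • ModularForm.heckeDiagMatrix p • τ =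
      ModularGroup.S • τ := by
    ext
    rw [heckeDiagMatrix_smul_coe hp.out.ne_zero, modular_S_smul, modular_S_smul]
    change (p : ℂ) * (-((ModularForm.heckeDiagMatrix p • τ : ℍ) : ℂ))⁻¹ = (-(τ : ℂ))⁻¹
    rw [heckeDiagMatrix_smul_coe hp.out.ne_zero]
    field_simp
  rw [h1]
  have h2 : denom (ModularGroup.S : SL(2, ℤ)) ((ModularForm.heckeDiagMatrix p • τ : ℍ) : ℂ) =
      p * τ := by
    rw [ModularGroup.denom_S, heckeDiagMatrix_smul_coe hp.out.ne_zero]
  have h3 := congrFun (hf.slash ModularGroup.S (by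
    rw [Gamma0_mem]; exact Subsingleton.elim _ _)) τ
  rw [ModularForm.SL_slash_apply, ModularGroup.denom_S] at h3
  rw [h2, ← h3, mul_zpow, zpow_neg (p : ℂ)]
  ring

/-- the `q`-expansion of `E₄`. -/
def e4 : PowerSeries ℤ :=
  PowerSeries.mk fun n ↦ if n = 0 then 1 else 240 * (ArithmeticFunction.sigma 3 n : ℤ)

/-- the `q`-expansion of `E₆`. -/
def e6 : PowerSeries ℤ :=
  PowerSeries.mk fun n ↦ if n = 0 then 1 else -504 * (ArithmeticFunction.sigma 5 n : ℤ)

lemma qe_E₄ : qe ModularForm.E₄ = e4.map (Int.castRingHom ℂ) := by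
  ext n
  have h := EisensteinSeries.E_qExpansion_coeff (k := 4) (by norm_num) ⟨2, rfl⟩ n
  rw [h, show bernoulli 4 = -1 / 30 by decide +kernel]
  simp only [e4, PowerSeries.coeff_map, PowerSeries.coeff_mk]
  split_ifs
  · simp
  · push_cast
    norm_num

lemma qe_E₆ : qe ModularForm.E₆ = e6.map (Int.castRingHom ℂ) := by
  ext n
  have h := EisensteinSeries.E_qExpansion_coeff (k := 6) (by norm_num) ⟨3, rfl⟩ n
  rw [h, show bernoulli 6 = 1 / 42 by decide +kernel]
  simp only [e6, PowerSeries.coeff_map, PowerSeries.coeff_mk]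
  split_ifs
  · simp
  · push_cast
    norm_num

lemma IP.dil_levelOne {k : ℕ} {f : ℍ → ℂ} (hf : IsForm 1 (k : ℤ) f) {A : PowerSeries ℤ}
    (hA : qe f = A.map (Int.castRingHom ℂ)) : IP p k (dil p f) (vps p A) where
  mf := isForm_dil p hf
  int := by
    rw [(QF.of_isForm hf).qe_dil hp.out.ne_zero, hA, map_vps]
  intS := by
    refine ⟨p ^ k, pow_ne_zero _ (by simpa using hp.out.ne_zero), A, ?_⟩
    rw [atZero_dil p hf, (QF.of_isForm hf).qe_smul, smul_smul, hA]
    have : (((p : ℤ) ^ k : ℤ) : ℂ) * ((p : ℂ) ^ (k : ℤ))⁻¹ = 1 := by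
      have hpC : (p : ℂ) ≠ 0 := by exact_mod_cast hp.out.ne_zero
      rw [zpow_natCast]
      push_cast
      field_simp
    rw [this, one_smul]

lemma IP.e4 : IP p 4 (dil p ModularForm.E₄) (vps p e4) :=
  IP.dil_levelOne p (isForm_E₄ 1) qe_E₄

lemma IP.e6 : IP p 6 (dil p ModularForm.E₆) (vps p e6) :=
  IP.dil_levelOne p (isForm_E₆ 1) qe_E₆

end

end Fermat.Agent.Mazur16
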