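import Fermat.Agent.Mazur16.Shift
import Fermat.Agent.ModPoly.LevelOne
import Fermat.Agent.IntStr.LevelOne

/-!
# An integral Sturm bound in level one
-/

set_option autoImplicit false

open UpperHalfPlane CongruenceSubgroup Matrix.SpecialLinearGroup Function
open scoped MatrixGroups ModularForm Manifold

namespace Fermat.Agent.Mazur16

open Fermat.Agent.ModPoly Fermat.Agent.IntStr

noncomputable section

variable (V : AddSubgroup ℂ)

lemma coeff_map_mul_mem {V : AddSubgroup ℂ} (A : PowerSeries ℤ) (B : PowerSeries ℂ) (n : ℕ)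
    (h : ∀ i ≤ n, B.coeff i ∈ V) : (A.map (Int.castRingHom ℂ) * B).coeff n ∈ V := by
  rw [PowerSeries.coeff_mul]
  refine AddSubgroup.sum_mem _ fun x hx ↦ ?_
  rw [PowerSeries.coeff_map, eq_intCast, ← zsmul_eq_mul]
  exact AddSubgroup.zsmul_mem _ (h _ (by
    have := Finset.HasAntidiagonal.mem_antidiagonal.mp hx; omega)) _

lemma IsLevelOne_eq_zero_of_neg {k : ℤ} (hk : k < 0) {P : PowerSeries ℂ} (h : IsLevelOne k P) :
    P = 0 := by
  obtain ⟨f, rfl⟩ := h
  have : f = 0 := rank_zero_iff_forall_zero.mp (ModularForm.levelOne_neg_weight_rank_zero hk) f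
  rw [this]
  exact qExpansion_zero 1

theorem levelOne_coeff_mem (k : ℕ) : ∀ P : PowerSeries ℂ, IsLevelOne k P →
    (∀ n : ℕ, 12 * n ≤ k → P.coeff n ∈ V) → ∀ n, P.coeff n ∈ V := by
  induction k using Nat.strong_induction_on with
  | _ k ih =>
    intro P hP hV n
    rcases Nat.even_or_odd k with hk | hk
    · by_cases hk2 : k = 2
      · subst hk2
        obtain ⟨f, rfl⟩ := hP
        have h0 : f = 0 :=
          (rank_zero_iff_forall_zero.mp ModularForm.levelOne_weight_two_rank_zero) f
        rw [h0]
        have : qExpansion 1 (0 : ℍ → ℂ) = 0 := qExpansion_zero 1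
        rw [show ((0 : ModularForm 𝒮ℒ ((2 : ℕ) : ℤ)) : ℍ → ℂ) = 0 from rfl, this]
        simp
      · obtain ⟨e, he, hei, he0⟩ := exists_monic_form k hk hk2
        obtain ⟨E, hE⟩ := (isInt_iff e).mp hei
        have heL : IsLevelOne k (qExpansion 1 e) := ⟨he.toModularFormOne, rfl⟩
        set c : ℂ := P.coeff 0 with hc
        have hcV : c ∈ V := hV 0 (by simp)
        have hP' := hP.sub (heL.smul c)
        have h0 : (P - c • qExpansion 1 e).coeff 0 = 0 := by
          rw [map_sub, PowerSeries.coeff_smul, he0]; simp [hc]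
        obtain ⟨Q, hQ, hPQ⟩ := hP'.exists_eq_delta_mul h0
        have hcE : ∀ m, (c • qExpansion 1 e).coeff m ∈ V := by
          intro m
          rw [PowerSeries.coeff_smul, ← hE]
          change c * (PowerSeries.map (Int.castRingHom ℂ) E).coeff m ∈ V
          rw [PowerSeries.coeff_map, eq_intCast, mul_comm, ← zsmul_eq_mul]
          exact AddSubgroup.zsmul_mem _ hcV _
        have hPeq : P = deltaPS.map (Int.castRingHom ℂ) * Q + c • qExpansion 1 e := by
          rw [← hPQ, sub_add_cancel]
        suffices hQV : ∀ m, Q.coeff m ∈ V by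
          rw [hPeq, map_add]
          exact V.add_mem (coeff_map_mul_mem _ _ _ fun i _ ↦ hQV i) (hcE n)
        rcases lt_or_ge k 12 with hk12 | hk12
        · rw [IsLevelOne_eq_zero_of_neg (by lia) hQ]
          simp
        · have hQ' : IsLevelOne ((k - 12 : ℕ) : ℤ) Q := hQ.cast (by lia)
          refine ih (k - 12) (by lia) Q hQ' ?_
          -- coefficients of `Q`
          set D := ModularCurve.dedekindEtaUnit
          set D' := ModularCurve.dedekindEtaUnitInv
          have hDQ : ∀ m, (D.map (Int.castRingHom ℂ) * Q).coeff m =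
              (P - c • qExpansion 1 e).coeff (m + 1) := by
            intro m
            rw [hPQ, deltaPS, map_mul (PowerSeries.map (Int.castRingHom ℂ)), PowerSeries.map_X,
              mul_assoc, PowerSeries.coeff_succ_X_mul]
          have hQD : Q = D'.map (Int.castRingHom ℂ) * (D.map (Int.castRingHom ℂ) * Q) := by
            rw [← mul_assoc, ← map_mul, mul_comm D' D,
              ModularCurve.dedekindEtaUnit_mul_inv, map_one, one_mul]
          intro m hm
          rw [hQD]
          refine coeff_map_mul_mem _ _ _ fun i hi ↦ ?_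
          rw [hDQ, map_sub]
          exact V.sub_mem (hV _ (by lia)) (hcE _)
    · obtain ⟨f, rfl⟩ := hP
      have h0 : f = 0 := ModularForm.levelOne_odd_weight_eq_zero (by exact_mod_cast hk) f
      rw [h0]
      have : qExpansion 1 (0 : ℍ → ℂ) = 0 := qExpansion_zero 1
      rw [show ((0 : ModularForm 𝒮ℒ (k : ℤ)) : ℍ → ℂ) = 0 from rfl, this]
      simp

end

end Fermat.Agent.Mazur16
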