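import Fermat.Agent.Mazur16.Contra2

/-!
# The upper bound for Eisenstein congruences
-/

set_option autoImplicit false

open UpperHalfPlane CongruenceSubgroup Matrix.SpecialLinearGroup Function
open scoped MatrixGroups ModularForm Manifold

namespace Fermat.Agent.Mazur16

open Fermat.Agent.ModPoly Fermat.Agent.IntStr PowerSeries

noncomputable section

variable {p : ℕ} [hp : Fact p.Prime]

lemma step {Γ : ℍ → ℂ} (hΓ : IsForm p 2 Γ) {m : ℕ} {h : PowerSeries ℤ}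
    (hq : qe Γ = (C ((p : ℤ) - 1) + C (24 * (m : ℤ)) * h).map (Int.castRingHom ℂ))
    {ℓ v e : ℕ} (hℓ : ℓ.Prime) {u c : ℤ} (h1 : (p : ℤ) - 1 = ℓ ^ v * u)
    (h2 : 24 * (m : ℤ) = ℓ ^ v * (ℓ ^ e * c)) :
    ∃ G, IP p 2 G (C u + C ((ℓ : ℤ) ^ e) * (C c * h)) := by
  have hℓ0 : (ℓ : ℂ) ≠ 0 := by exact_mod_cast hℓ.ne_zero
  refine ⟨((ℓ : ℂ) ^ v)⁻¹ • Γ, IP.of_two p (hΓ.smul _) ?_⟩
  rw [(QF.of_isForm hΓ).qe_smul, hq, h1, h2]
  ext n
  simp only [coeff_smul, smul_eq_mul, coeff_map, map_add, coeff_C_mul, coeff_C]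
  simp only [eq_intCast]
  push_cast
  split_ifs
  · field_simp
  · field_simp
    simp only [zero_add]
    ring

theorem m_ne_zero (hp2 : 2 < p) {Γ : ℍ → ℂ} (hΓ : IsForm p 2 Γ) {m : ℕ} {h : PowerSeries ℤ}
    (hq : qe Γ = (C ((p : ℤ) - 1) + C (24 * (m : ℤ)) * h).map (Int.castRingHom ℂ)) : m ≠ 0 := by
  rintro rfl
  obtain ⟨G, hG⟩ := step hΓ hq (ℓ := 2) (v := 0) (e := 240 * (p - 1) ^ 2) Nat.prime_two
    (u := (p : ℤ) - 1) (c := 0) (by simp) (by simp)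
  have h1 := contra4 Nat.prime_two _ hG
  have hp1 : ((p - 1 : ℕ) : ℤ) = (p : ℤ) - 1 := by
    rw [Nat.cast_sub hp.out.one_lt.le]; simp
  rw [← hp1] at h1
  have h2 : 2 ^ (240 * (p - 1) ^ 2) ∣ 240 * (p - 1) ^ 2 := by exact_mod_cast h1
  have h3 : 0 < 240 * (p - 1) ^ 2 := by
    have : 0 < p - 1 := by omega
    positivity
  exact absurd (Nat.le_of_dvd h3 h2) (not_le.mpr (Nat.lt_two_pow_self))

theorem propU (hp5 : 5 ≤ p) {Γ : ℍ → ℂ} (hΓ : IsForm p 2 Γ) {m : ℕ} {h : PowerSeries ℤ}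
    (h0 : h.coeff 0 = 0)
    (hq : qe Γ = (C ((p : ℤ) - 1) + C (24 * (m : ℤ)) * h).map (Int.castRingHom ℂ)) :
    m * Nat.gcd (p - 1) 12 ∣ p - 1 := by
  have hm0 : m ≠ 0 := m_ne_zero (by omega) hΓ hq
  have hp1 : ((p - 1 : ℕ) : ℤ) = (p : ℤ) - 1 := by
    rw [Nat.cast_sub hp.out.one_lt.le]; simp
  set g := Nat.gcd (p - 1) 12 with hg
  have hg0 : g ≠ 0 := Nat.gcd_ne_zero_right (by norm_num)
  have hpm : p - 1 ≠ 0 := by omega
  rw [← Nat.factorization_le_iff_dvd (mul_ne_zero hm0 hg0) hpm]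
  by_contra hcon
  rw [Finsupp.le_def] at hcon
  push Not at hcon
  obtain ⟨ℓ, hℓlt⟩ := hcon
  rw [Nat.factorization_mul hm0 hg0, Finsupp.add_apply] at hℓlt
  set v := (p - 1).factorization ℓ with hv
  set w := m.factorization ℓ with hw
  set s := g.factorization ℓ with hs
  have hℓ : ℓ.Prime := by
    by_contra hnp
    rw [hw, hs, Nat.factorization_eq_zero_of_not_prime _ hnp,
      Nat.factorization_eq_zero_of_not_prime _ hnp] at hℓlt
    omega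
  have hsv : s ≤ v := (Nat.factorization_le_iff_dvd hg0 hpm).mpr (Nat.gcd_dvd_left _ _) ℓ
  have hs12 : ℓ ^ s ∣ 12 := (Nat.ordProj_dvd g ℓ).trans (Nat.gcd_dvd_right _ _)
  obtain ⟨u, hu⟩ : ℓ ^ v ∣ p - 1 := Nat.ordProj_dvd _ _
  have hu' : ¬ ℓ ∣ u := by
    intro hdvd
    have := Nat.pow_succ_factorization_not_dvd hpm hℓ
    apply this
    rw [← hv, pow_succ, hu]
    exact mul_dvd_mul_left _ hdvd
  obtain ⟨m', hm'⟩ : ℓ ^ w ∣ m := Nat.ordProj_dvd _ _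
  have huZ : ¬ (ℓ : ℤ) ∣ (u : ℤ) := by exact_mod_cast hu'
  have h1 : (p : ℤ) - 1 = (ℓ : ℤ) ^ v * (u : ℤ) := by
    rw [← hp1, hu]; push_cast; ring
  have hκ : ∀ c : ℤ, (C c * h).coeff 0 = 0 := by
    intro c; rw [coeff_C_mul, h0, mul_zero]
  -- the cases
  rcases eq_or_ne ℓ 2 with rfl | hℓ2
  · have hs2 : s ≤ 2 := by
      by_contra hlt
      have h8 : 2 ^ 3 ∣ 12 := (pow_dvd_pow 2 (by omega : 3 ≤ s)).trans hs12
      norm_num at h8
    by_cases hp4 : p % 4 = 1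
    · have hv2 : v + 2 ≤ w + 3 := by omega
      obtain ⟨c, hc⟩ : ∃ c : ℤ, 24 * (m : ℤ) = ((2 : ℕ) : ℤ) ^ v * (((2 : ℕ) : ℤ) ^ 2 * c) := by
        refine ⟨2 ^ (w + 3 - (v + 2)) * (3 * m'), ?_⟩
        have : 2 ^ (w + 3) = 2 ^ v * (2 ^ 2 * 2 ^ (w + 3 - (v + 2))) := by
          rw [← pow_add, ← pow_add]; congr 1; omega
        have h24 : 24 * m = 2 ^ (w + 3) * (3 * m') := by
          rw [hm', pow_add]; ring
        rw [this] at h24
        have h24' : (24 : ℤ) * m = 2 ^ v * (2 ^ 2 * 2 ^ (w + 3 - (v + 2))) * (3 * m') := by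
          exact_mod_cast h24
        rw [h24']; push_cast; ring
      obtain ⟨G, hG⟩ := step hΓ hq hℓ h1 hc
      have e4 : ((2 : ℕ) : ℤ) ^ 2 = 4 := by norm_num
      rw [e4] at hG
      exact huZ (contra2 hp4 (hκ c) hG)
    · have hpodd : p % 2 = 1 := by
        rcases hp.out.eq_two_or_odd with h' | h'
        · omega
        · exact h'
      have hv1 : v ≤ 1 := by
        by_contra hlt
        have h4 : 2 ^ 2 ∣ p - 1 := (pow_dvd_pow 2 (by omega : 2 ≤ v)).trans ⟨u, hu⟩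
        norm_num at h4
        omega
      have hv0 : v ≠ 0 := by
        intro h00
        rw [h00, pow_zero, one_mul] at hu
        apply hu'
        omega
      have hv2 : v + 3 ≤ w + 3 := by omega
      obtain ⟨c, hc⟩ : ∃ c : ℤ, 24 * (m : ℤ) = ((2 : ℕ) : ℤ) ^ v * (((2 : ℕ) : ℤ) ^ 3 * c) := by
        refine ⟨2 ^ (w + 3 - (v + 3)) * (3 * m'), ?_⟩
        have : 2 ^ (w + 3) = 2 ^ v * (2 ^ 3 * 2 ^ (w + 3 - (v + 3))) := by
          rw [← pow_add, ← pow_add]; congr 1; omega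
        have h24 : 24 * m = 2 ^ (w + 3) * (3 * m') := by
          rw [hm', pow_add]; ring
        rw [this] at h24
        have h24' : (24 : ℤ) * m = 2 ^ v * (2 ^ 3 * 2 ^ (w + 3 - (v + 3))) * (3 * m') := by
          exact_mod_cast h24
        rw [h24']; push_cast; ring
      obtain ⟨G, hG⟩ := step hΓ hq hℓ h1 hc
      have e8 : ((2 : ℕ) : ℤ) ^ 3 = 8 := by norm_num
      rw [e8] at hG
      exact huZ (contra8 (by omega) (hκ c) hG)
  rcases eq_or_ne ℓ 3 with rfl | hℓ3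
  · have hs1 : s ≤ 1 := by
      by_contra hlt
      have h8 : 3 ^ 2 ∣ 12 := (pow_dvd_pow 3 (by omega : 2 ≤ s)).trans hs12
      norm_num at h8
    by_cases hp3 : p % 3 = 1
    · have hv2 : v + 1 ≤ w + 1 := by omega
      obtain ⟨c, hc⟩ : ∃ c : ℤ, 24 * (m : ℤ) = ((3 : ℕ) : ℤ) ^ v * (((3 : ℕ) : ℤ) ^ 1 * c) := by
        refine ⟨3 ^ (w + 1 - (v + 1)) * (8 * m'), ?_⟩
        have : 3 ^ (w + 1) = 3 ^ v * (3 ^ 1 * 3 ^ (w + 1 - (v + 1))) := by
          rw [← pow_add, ← pow_add]; congr 1; omega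
        have h24 : 24 * m = 3 ^ (w + 1) * (8 * m') := by
          rw [hm', pow_add]; ring
        rw [this] at h24
        have h24' : (24 : ℤ) * m = 3 ^ v * (3 ^ 1 * 3 ^ (w + 1 - (v + 1))) * (8 * m') := by
          exact_mod_cast h24
        rw [h24']; push_cast; ring
      obtain ⟨G, hG⟩ := step hΓ hq hℓ h1 hc
      have e8 : ((3 : ℕ) : ℤ) ^ 1 = 3 := by norm_num
      rw [e8] at hG
      exact huZ (contra3 hp3 (hκ c) hG)
    · have hp30 : p % 3 = 2 := by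
        have : p % 3 ≠ 0 := by
          intro h'
          have h'' := (Nat.prime_dvd_prime_iff_eq Nat.prime_three hp.out).mp
            (Nat.dvd_of_mod_eq_zero h')
          omega
        omega
      have hv0 : v = 0 := by
        by_contra hne
        have h3 : 3 ^ 1 ∣ p - 1 := (pow_dvd_pow 3 (by omega : 1 ≤ v)).trans ⟨u, hu⟩
        omega
      have hv2 : v + 2 ≤ w + 1 := by omega
      obtain ⟨c, hc⟩ : ∃ c : ℤ, 24 * (m : ℤ) = ((3 : ℕ) : ℤ) ^ v * (((3 : ℕ) : ℤ) ^ 2 * c) := by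
        refine ⟨3 ^ (w + 1 - (v + 2)) * (8 * m'), ?_⟩
        have : 3 ^ (w + 1) = 3 ^ v * (3 ^ 2 * 3 ^ (w + 1 - (v + 2))) := by
          rw [← pow_add, ← pow_add]; congr 1; omega
        have h24 : 24 * m = 3 ^ (w + 1) * (8 * m') := by
          rw [hm', pow_add]; ring
        rw [this] at h24
        have h24' : (24 : ℤ) * m = 3 ^ v * (3 ^ 2 * 3 ^ (w + 1 - (v + 2))) * (8 * m') := by
          exact_mod_cast h24
        rw [h24']; push_cast; ring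
      obtain ⟨G, hG⟩ := step hΓ hq hℓ h1 hc
      have h9 := contra4 hℓ 2 hG
      apply huZ
      have h10 : (3 : ℤ) ∣ (u : ℤ) ^ 2 := by
        push_cast at h9
        omega
      exact Int.prime_three.dvd_of_dvd_pow h10
  -- `ℓ ≥ 5`
  have hs0 : s = 0 := by
    by_contra hne
    have h' : ℓ ∣ 12 := (dvd_pow_self ℓ hne).trans hs12
    have h'' : ℓ ∣ 2 * 2 * 3 := h'
    rcases hℓ.dvd_mul.mp h'' with h3 | h3
    · rcases hℓ.dvd_mul.mp h3 with h4 | h4 <;>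
      exact hℓ2 ((Nat.prime_dvd_prime_iff_eq hℓ Nat.prime_two).mp h4)
    · exact hℓ3 ((Nat.prime_dvd_prime_iff_eq hℓ Nat.prime_three).mp h3)
  have hv2 : v + 1 ≤ w := by omega
  obtain ⟨c, hc⟩ : ∃ c : ℤ, 24 * (m : ℤ) = (ℓ : ℤ) ^ v * ((ℓ : ℤ) ^ 1 * c) := by
    refine ⟨ℓ ^ (w - (v + 1)) * (24 * m'), ?_⟩
    have : ℓ ^ w = ℓ ^ v * (ℓ ^ 1 * ℓ ^ (w - (v + 1))) := by
      rw [← pow_add, ← pow_add]; congr 1; omega
    have h24 : 24 * m = ℓ ^ w * (24 * m') := by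
      conv_lhs => rw [hm']
      ring
    rw [this] at h24
    have h24' : (24 : ℤ) * m = ℓ ^ v * (ℓ ^ 1 * ℓ ^ (w - (v + 1))) * (24 * m') := by
      exact_mod_cast h24
    rw [h24']; ring
  obtain ⟨G, hG⟩ := step hΓ hq hℓ h1 hc
  have hℓZ : Prime (ℓ : ℤ) := Nat.prime_iff_prime_int.mp hℓ
  rcases eq_or_ne ℓ 5 with rfl | hℓ5
  · have h9 := contra6 hℓ 1 hG
    rw [pow_one] at h9
    rcases hℓZ.dvd_or_dvd h9 with h10 | h10
    · norm_num at h10
    · exact huZ (hℓZ.dvd_of_dvd_pow h10)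
  · have h9 := contra4 hℓ 1 hG
    rw [pow_one] at h9
    rcases hℓZ.dvd_or_dvd h9 with h10 | h10
    · have h11 : ℓ ∣ 240 := by exact_mod_cast h10
      have h12 : ℓ ∣ 2 ^ 4 * 3 * 5 := h11
      rcases hℓ.dvd_mul.mp h12 with h3 | h3
      · rcases hℓ.dvd_mul.mp h3 with h4 | h4
        · exact hℓ2 ((Nat.prime_dvd_prime_iff_eq hℓ Nat.prime_two).mp (hℓ.dvd_of_dvd_pow h4))
        · exact hℓ3 ((Nat.prime_dvd_prime_iff_eq hℓ Nat.prime_three).mp h4)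
      · exact hℓ5 ((Nat.prime_dvd_prime_iff_eq hℓ Nat.prime_five).mp h3)
    · exact huZ (hℓZ.dvd_of_dvd_pow h10)

end

end Fermat.Agent.Mazur16
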