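import Mathlib
import Fermat.Prelude.Def_ModularForm_HeckeOperatorForms
import Fermat.Prelude.Def_FLTPrelim_Modularity
import Fermat.Prelude.Thm_UpperHalfPlane_qCoeff_heckeT
import Fermat.Prelude.Thm_UpperHalfPlane_qCoeff_heckeU
import Fermat.Prelude.Thm_UpperHalfPlane_eq_of_forall_qCoeff_eq
import Fermat.Prelude.Thm_ModularForm_periodic_heckeT_comp_ofComplex
import Fermat.Prelude.Thm_ModularForm_periodic_heckeU_comp_ofComplex
import Fermat.Prelude.Thm_ModularForm_isBoundedAtImInfty_heckeT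
import Fermat.Prelude.Thm_ModularForm_isBoundedAtImInfty_heckeU
import Fermat.Prelude.Thm_ModularForm_mdifferentiable_heckeT
import Fermat.Prelude.Thm_ModularForm_mdifferentiable_heckeU
import Fermat.Prelude.Thm_CongruenceSubgroup_one_mem_strictPeriods_Gamma0

/-!
# Functions with a `q`-expansion

`QF f` : `f` is 1-periodic, holomorphic and bounded at `i∞`.  We collect the
closure properties of this class and the behaviour of `qExpansion 1`.
-/

set_option autoImplicit false

open UpperHalfPlane CongruenceSubgroup Matrix.SpecialLinearGroup Function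
open scoped MatrixGroups ModularForm Manifold

namespace Fermat.Agent.Mazur16

noncomputable section

/-- `f` is 1-periodic, holomorphic and bounded at `i∞`. -/
structure QF (f : ℍ → ℂ) : Prop where
  per : Periodic (f ∘ ofComplex) 1
  hol : MDiff f
  bdd : IsBoundedAtImInfty f

/-- the `q`-expansion of a function. -/
abbrev qe (f : ℍ → ℂ) : PowerSeries ℂ := qExpansion 1 f

lemma qCoeff_eq (f : ℍ → ℂ) (n : ℕ) : ModularFormClass.qCoeff f n = (qe f).coeff n := rfl

namespace QF

variable {f g : ℍ → ℂ}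

lemma per' (hf : QF f) : Periodic (f ∘ ofComplex) (1 : ℝ) := by
  simpa using hf.per

lemma analytic (hf : QF f) : AnalyticAt ℂ (cuspFunction 1 f) 0 :=
  analyticAt_cuspFunction_zero one_pos hf.per' hf.hol hf.bdd

lemma hasSum (hf : QF f) (τ : ℍ) :
    HasSum (fun m : ℕ ↦ (qe f).coeff m * Periodic.qParam 1 τ ^ m) (f τ) :=
  hasSum_qExpansion one_pos hf.per' hf.hol hf.bdd τ

/-- uniqueness of coefficients -/
lemma coeff_eq_of_hasSum (hf : QF f) {c : ℕ → ℂ}
    (h : ∀ τ : ℍ, HasSum (fun m ↦ c m * Periodic.qParam 1 τ ^ m) (f τ)) (m : ℕ) :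
    (qe f).coeff m = c m := by
  let : FunLike (ℍ → ℂ) ℍ ℂ := ⟨fun f ↦ f, fun _ _ h ↦ h⟩
  exact (UpperHalfPlane.qExpansion_coeff_unique (F := ℍ → ℂ) f one_pos hf.analytic h m).symm

lemma add (hf : QF f) (hg : QF g) : QF (f + g) where
  per := hf.per.add hg.per
  hol := hf.hol.add hg.hol
  bdd := hf.bdd.add hg.bdd

lemma mul (hf : QF f) (hg : QF g) : QF (f * g) where
  per := hf.per.mul hg.per
  hol := hf.hol.mul hg.hol
  bdd := hf.bdd.mul hg.bdd

lemma smul (c : ℂ) (hf : QF f) : QF (c • f) where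
  per := by
    intro x
    have := hf.per x
    simp only [comp_apply, Pi.smul_apply] at this ⊢
    rw [this]
  hol := hf.hol.const_smul c
  bdd := by
    have := hf.bdd
    rw [IsBoundedAtImInfty, Filter.BoundedAtFilter] at this ⊢
    exact this.const_smul_left c

lemma neg (hf : QF f) : QF (-f) := by
  simpa using hf.smul (-1)

lemma sub (hf : QF f) (hg : QF g) : QF (f - g) := by
  simpa [sub_eq_add_neg] using hf.add hg.neg

lemma const (c : ℂ) : QF (fun _ ↦ c) where
  per := by intro x; simp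
  hol := mdifferentiable_const
  bdd := Filter.const_boundedAtFilter _ _

lemma one : QF (1 : ℍ → ℂ) := const 1

lemma zero : QF (0 : ℍ → ℂ) := const 0

lemma pow (hf : QF f) (n : ℕ) : QF (f ^ n) := by
  induction n with
  | zero => simpa using one
  | succ n ih => rw [pow_succ]; exact ih.mul hf

lemma sum {ι : Type*} (s : Finset ι) {F : ι → ℍ → ℂ} (h : ∀ i ∈ s, QF (F i)) :
    QF (∑ i ∈ s, F i) := by
  classical
  induction s using Finset.induction_on with
  | empty => simpa using zero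
  | insert a s ha ih =>
    rw [Finset.sum_insert ha]
    exact (h a (by simp)).add (ih fun i hi ↦ h i (by simp [hi]))

lemma prod {ι : Type*} (s : Finset ι) {F : ι → ℍ → ℂ} (h : ∀ i ∈ s, QF (F i)) :
    QF (∏ i ∈ s, F i) := by
  classical
  induction s using Finset.induction_on with
  | empty => simpa using one
  | insert a s ha ih =>
    rw [Finset.prod_insert ha]
    exact (h a (by simp)).mul (ih fun i hi ↦ h i (by simp [hi]))

lemma qe_add (hf : QF f) (hg : QF g) : qe (f + g) = qe f + qe g :=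
  qExpansion_add hf.analytic hg.analytic

lemma qe_sub (hf : QF f) (hg : QF g) : qe (f - g) = qe f - qe g :=
  qExpansion_sub hf.analytic hg.analytic

lemma qe_mul (hf : QF f) (hg : QF g) : qe (f * g) = qe f * qe g :=
  qExpansion_mul hf.analytic hg.analytic

lemma qe_smul (c : ℂ) (hf : QF f) : qe (c • f) = c • qe f :=
  qExpansion_smul hf.analytic c

lemma qe_neg (hf : QF f) : qe (-f) = - qe f :=
  qExpansion_neg hf.analytic

lemma qe_one : qe 1 = 1 := qExpansion_one 1

lemma qe_zero : qe 0 = 0 := qExpansion_zero 1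

lemma qe_pow (hf : QF f) (n : ℕ) : qe (f ^ n) = qe f ^ n := by
  induction n with
  | zero => simpa using qe_one
  | succ n ih => rw [pow_succ, qe_mul (hf.pow n) hf, ih, pow_succ]

lemma qe_sum {ι : Type*} (s : Finset ι) {F : ι → ℍ → ℂ} (h : ∀ i ∈ s, QF (F i)) :
    qe (∑ i ∈ s, F i) = ∑ i ∈ s, qe (F i) := by
  classical
  induction s using Finset.induction_on with
  | empty => simpa using qe_zero
  | insert a s ha ih =>
    rw [Finset.sum_insert ha, Finset.sum_insert ha,
      qe_add (h a (by simp)) (QF.sum s fun i hi ↦ h i (by simp [hi])),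
      ih fun i hi ↦ h i (by simp [hi])]

lemma qe_prod {ι : Type*} (s : Finset ι) {F : ι → ℍ → ℂ} (h : ∀ i ∈ s, QF (F i)) :
    qe (∏ i ∈ s, F i) = ∏ i ∈ s, qe (F i) := by
  classical
  induction s using Finset.induction_on with
  | empty => simpa using qe_one
  | insert a s ha ih =>
    rw [Finset.prod_insert ha, Finset.prod_insert ha,
      qe_mul (h a (by simp)) (QF.prod s fun i hi ↦ h i (by simp [hi])),
      ih fun i hi ↦ h i (by simp [hi])]

lemma qe_const (c : ℂ) : qe (fun _ ↦ c) = PowerSeries.C c := by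
  have : (fun _ : ℍ ↦ c) = c • (1 : ℍ → ℂ) := by ext; simp
  rw [this, qe_smul c one, qe_one, PowerSeries.smul_eq_C_mul, mul_one]

lemma ext_iff (hf : QF f) (hg : QF g) : f = g ↔ qe f = qe g := by
  constructor
  · rintro rfl; rfl
  · intro h
    have h1 : qe (f - g) = 0 := by rw [qe_sub hf hg, h, sub_self]
    have h2 := (qExpansion_eq_zero_iff one_pos (hf.sub hg).per' (hf.sub hg).hol
      (hf.sub hg).bdd).mp h1
    exact sub_eq_zero.mp h2

lemma of_modularForm {Γ : Subgroup (GL (Fin 2) ℝ)} {k : ℤ} {F : Type*} [FunLike F ℍ ℂ]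
    [ModularFormClass F Γ k] (f : F) (hΓ : (1 : ℝ) ∈ Γ.strictPeriods) : QF (f : ℍ → ℂ) where
  per := by simpa using SlashInvariantFormClass.periodic_comp_ofComplex f hΓ
  hol := ModularFormClass.holo f
  bdd := by
    have : Fact (IsCusp OnePoint.infty Γ) := ⟨Γ.isCusp_of_mem_strictPeriods one_pos hΓ⟩
    exact ModularFormClass.bdd_at_infty f

lemma of_Gamma0 {N : ℕ} {k : ℤ} {F : Type*} [FunLike F ℍ ℂ]
    [ModularFormClass F (Gamma0 N : Subgroup (GL (Fin 2) ℝ)) k] (f : F) : QF (f : ℍ → ℂ) :=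
  of_modularForm f (CongruenceSubgroup.one_mem_strictPeriods_Gamma0 N)

lemma of_levelOne {k : ℤ} {F : Type*} [FunLike F ℍ ℂ]
    [ModularFormClass F 𝒮ℒ k] (f : F) : QF (f : ℍ → ℂ) :=
  of_modularForm f one_mem_strictPeriods_SL

lemma heckeU (hf : QF f) (k : ℤ) (p : ℕ) : QF (ModularForm.heckeU k p f) where
  per := ModularForm.periodic_heckeU_comp_ofComplex hf.per k p
  hol := ModularForm.mdifferentiable_heckeU hf.hol k p
  bdd := ModularForm.isBoundedAtImInfty_heckeU hf.bdd k p

lemma heckeT (hf : QF f) (k : ℤ) (p : ℕ) : QF (ModularForm.heckeT k p f) where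
  per := ModularForm.periodic_heckeT_comp_ofComplex hf.per k p
  hol := ModularForm.mdifferentiable_heckeT hf.hol k p
  bdd := ModularForm.isBoundedAtImInfty_heckeT hf.bdd k p

lemma coeff_heckeU (hf : QF f) (k : ℤ) {p : ℕ} (hp : p ≠ 0) (n : ℕ) :
    (qe (ModularForm.heckeU k p f)).coeff n = (qe f).coeff (n * p) :=
  UpperHalfPlane.qCoeff_heckeU hf.per hf.hol hf.bdd k hp n

lemma coeff_heckeT (hf : QF f) (k : ℤ) {p : ℕ} (hp : p ≠ 0) (n : ℕ) :
    (qe (ModularForm.heckeT k p f)).coeff n = (qe f).coeff (n * p) +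
      if p ∣ n then (p : ℂ) ^ (k - 1) * (qe f).coeff (n / p) else 0 :=
  UpperHalfPlane.qCoeff_heckeT hf.per hf.hol hf.bdd k hp n

end QF

/-- Dilation: `dil p f τ = f (p τ)`. -/
def dil (p : ℕ) (f : ℍ → ℂ) : ℍ → ℂ := fun τ ↦ f (ModularForm.heckeDiagMatrix p • τ)

lemma dil_apply (p : ℕ) (f : ℍ → ℂ) (τ : ℍ) :
    dil p f τ = f (ModularForm.heckeDiagMatrix p • τ) := rfl

lemma dil_eq (p : ℕ) (hp : p ≠ 0) (f : ℍ → ℂ) :
    dil p f = ModularForm.heckeT 1 p f - ModularForm.heckeU 1 p f := by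
  ext τ
  rw [ModularForm.heckeT_eq_heckeU_add, add_sub_cancel_left,
    ModularForm.slash_heckeDiagMatrix_apply 1 hp]
  simp [dil]

lemma QF.dil {f : ℍ → ℂ} (hf : QF f) {p : ℕ} (hp : p ≠ 0) : QF (dil p f) := by
  rw [dil_eq p hp]
  exact (hf.heckeT 1 p).sub (hf.heckeU 1 p)

lemma QF.coeff_dil {f : ℍ → ℂ} (hf : QF f) {p : ℕ} (hp : p ≠ 0) (n : ℕ) :
    (qe (Fermat.Agent.Mazur16.dil p f)).coeff n = if p ∣ n then (qe f).coeff (n / p) else 0 := by
  rw [dil_eq p hp, QF.qe_sub (hf.heckeT 1 p) (hf.heckeU 1 p), map_sub, hf.coeff_heckeT 1 hp,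
    hf.coeff_heckeU 1 hp, add_sub_cancel_left]
  simp

end

end Fermat.Agent.Mazur16
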