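import Fermat.Agent.Mazur16.Contra

/-!
# The quadratic and cubic trace relations
-/

set_option autoImplicit false

open UpperHalfPlane CongruenceSubgroup Matrix.SpecialLinearGroup Function
open scoped MatrixGroups ModularForm Manifold

namespace Fermat.Agent.Mazur16

open Fermat.Agent.ModPoly Fermat.Agent.IntStr PowerSeries

noncomputable section

/-- formal `U_p`. -/
def ups {R : Type*} [Semiring R] (p : ℕ) (φ : PowerSeries R) : PowerSeries R :=
  PowerSeries.mk fun n ↦ φ.coeff (n * p)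

@[simp] lemma coeff_ups {R : Type*} [Semiring R] (p : ℕ) (φ : PowerSeries R) (n : ℕ) :
    (ups p φ).coeff n = φ.coeff (n * p) := by
  simp [ups]

lemma map_ups {R S : Type*} [Semiring R] [Semiring S] (f : R →+* S) (p : ℕ) (φ : PowerSeries R) :
    (ups p φ).map f = ups p (φ.map f) := by
  ext n
  simp

lemma ups_add {R : Type*} [Semiring R] (p : ℕ) (φ ψ : PowerSeries R) :
    ups p (φ + ψ) = ups p φ + ups p ψ := by
  ext n; simp

lemma ups_C_mul {R : Type*} [Semiring R] (p : ℕ) (a : R) (φ : PowerSeries R) :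
    ups p (C a * φ) = C a * ups p φ := by
  ext n; simp

lemma ups_C {R : Type*} [Semiring R] (p : ℕ) (hp : p ≠ 0) (a : R) :
    ups p (C a : PowerSeries R) = C a := by
  ext n
  rw [coeff_ups, coeff_C, coeff_C]
  simp [hp]

lemma QF.qe_heckeU {f : ℍ → ℂ} (hf : QF f) (k : ℤ) {p : ℕ} (hp : p ≠ 0) :
    qe (ModularForm.heckeU k p f) = ups p (qe f) := by
  ext n
  rw [hf.coeff_heckeU k hp, coeff_ups]

lemma levelOne_eq {k : ℕ} (hk : k < 12) {P Q : PowerSeries ℂ} (hP : IsLevelOne k P)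
    (hQ : IsLevelOne k Q) (h0 : P.coeff 0 = Q.coeff 0) : P = Q := by
  have h := levelOne_coeff_mem ⊥ k (P - Q) (hP.sub hQ) (fun n hn ↦ by
    have : n = 0 := by omega
    rw [this, map_sub, h0, sub_self]
    exact AddSubgroup.zero_mem _)
  ext n
  have := h n
  rw [AddSubgroup.mem_bot, map_sub, sub_eq_zero] at this
  exact this

variable {p : ℕ} [hp : Fact p.Prime]

/-- the trace to level one of a form on `Γ₀(p)`. -/
lemma trace_eq {k : ℤ} (f : ModularForm (Gamma0 p) k) :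
    (ModularForm.trace 𝒮ℒ f : ℍ → ℂ) =
      f + (p : ℂ) • ModularForm.heckeU k p (atZero p k f) := by
  have hp0 := hp.out.ne_zero
  refine dil_injective hp0 (QF.of_levelOne _)
    ((QF.of_Gamma0 f).add (((QF.atZero p f).heckeU k p).smul _)) ?_
  rw [dil_trace, sum_shift p (k := k) (QF.atZero p f), dil_add, dil_smul]

lemma atZero_two_isForm {G : ℍ → ℂ} (hG : IsForm p 2 G) :
    atZero p 2 G = -(p : ℂ)⁻¹ • ModularForm.heckeU 2 p G := by
  simpa using atZero_two p hG.toModularForm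

theorem rel2 {G : ℍ → ℂ} (hG : IsForm p 2 G) {A : PowerSeries ℤ}
    (hA : qe G = A.map (Int.castRingHom ℂ)) :
    C (p : ℤ) * A ^ 2 + ups p (ups p A ^ 2) = C ((p + 1) * A.coeff 0 ^ 2) * e4 := by
  have hp0 := hp.out.ne_zero
  have hpC : (p : ℂ) ≠ 0 := by exact_mod_cast hp0
  have hq := QF.of_isForm hG
  have hU := hq.heckeU 2 p
  have hG2 : IsForm p 4 (G ^ 2) := by
    rw [pow_two]; exact (hG.mul hG).cast (by norm_num)
  have hz : atZero p 4 (G ^ 2) = ((p : ℂ)⁻¹) ^ 2 • (ModularForm.heckeU 2 p G) ^ 2 := by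
    rw [pow_two G, show (4 : ℤ) = 2 + 2 by norm_num, atZero_mul, atZero_two_isForm hG]
    ext τ
    simp only [Pi.mul_apply, Pi.smul_apply, smul_eq_mul, Pi.pow_apply]
    ring
  have h1 := trace_eq hG2.toModularForm
  rw [IsForm.coe_toModularForm, hz] at h1
  have hq4 : QF (((p : ℂ)⁻¹) ^ 2 • (ModularForm.heckeU 2 p G) ^ 2) := (hU.pow 2).smul _
  have h2 : qe (ModularForm.trace 𝒮ℒ hG2.toModularForm : ℍ → ℂ) =
      (A.map (Int.castRingHom ℂ)) ^ 2 +
      (p : ℂ)⁻¹ • (ups p (ups p A ^ 2)).map (Int.castRingHom ℂ) := by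
    rw [h1, (hq.pow 2).qe_add ((hq4.heckeU 4 p).smul _), (hq4.heckeU 4 p).qe_smul, hq.qe_pow,
      hq4.qe_heckeU 4 hp0, (hU.pow 2).qe_smul, hU.qe_pow, hq.qe_heckeU 2 hp0, hA]
    congr 1
    ext n
    simp only [coeff_smul, coeff_ups, map_ups, map_pow, smul_eq_mul]
    field_simp
  have hL : IsLevelOne (4 : ℕ) (qe (ModularForm.trace 𝒮ℒ hG2.toModularForm : ℍ → ℂ)) :=
    ⟨ModularForm.trace 𝒮ℒ hG2.toModularForm, rfl⟩
  have hE : IsLevelOne (4 : ℕ) (e4.map (Int.castRingHom ℂ)) := ⟨ModularForm.E₄, qe_E₄⟩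
  have h3 := levelOne_eq (k := 4) (by norm_num) (hL.smul (p : ℂ))
    (hE.smul (((p : ℂ) + 1) * (A.coeff 0 : ℂ) ^ 2)) (by
      rw [h2]
      simp only [coeff_smul, map_add, smul_eq_mul, coeff_map, coeff_ups, zero_mul,
        coeff_zero_eq_constantCoeff, map_pow, e4]
      simp only [← coeff_zero_eq_constantCoeff_apply, coeff_ups, zero_mul, coeff_map, coeff_mk,
        if_true]
      simp only [coeff_zero_eq_constantCoeff]
      simp only [← coeff_zero_eq_constantCoeff_apply]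
      field_simp
      simp)
  rw [h2] at h3
  apply (PowerSeries.map_injective (Int.castRingHom ℂ) Int.cast_injective)
  rw [map_add, map_mul, map_mul, map_C, map_C, map_pow]
  ext n
  have h4 := congrArg (PowerSeries.coeff n) h3
  simp only [coeff_smul, map_add, smul_eq_mul, mul_add, ← mul_assoc, mul_inv_cancel₀ hpC,
    one_mul] at h4
  simp only [map_add, coeff_C_mul]
  rw [show (Int.castRingHom ℂ) (p : ℤ) = (p : ℂ) by simp, h4]
  simp

theorem rel3 {G : ℍ → ℂ} (hG : IsForm p 2 G) {A : PowerSeries ℤ}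
    (hA : qe G = A.map (Int.castRingHom ℂ)) :
    C ((p : ℤ) ^ 2) * A ^ 3 - ups p (ups p A ^ 3) = C ((p ^ 2 - 1) * A.coeff 0 ^ 3) * e6 := by
  have hp0 := hp.out.ne_zero
  have hpC : (p : ℂ) ≠ 0 := by exact_mod_cast hp0
  have hq := QF.of_isForm hG
  have hU := hq.heckeU 2 p
  have hG3 : IsForm p 6 (G ^ 3) := (hG.pow 3).cast (by norm_num)
  have hz : atZero p 6 (G ^ 3) = (-((p : ℂ)⁻¹) ^ 3) • (ModularForm.heckeU 2 p G) ^ 3 := by
    rw [pow_succ G 2, pow_two G, show (6 : ℤ) = 2 + 2 + 2 by norm_num, atZero_mul, atZero_mul,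
      atZero_two_isForm hG]
    ext τ
    simp only [Pi.mul_apply, Pi.smul_apply, smul_eq_mul, Pi.pow_apply]
    ring
  have h1 := trace_eq hG3.toModularForm
  rw [IsForm.coe_toModularForm, hz] at h1
  have hq4 : QF ((-((p : ℂ)⁻¹) ^ 3) • (ModularForm.heckeU 2 p G) ^ 3) := (hU.pow 3).smul _
  have h2 : qe (ModularForm.trace 𝒮ℒ hG3.toModularForm : ℍ → ℂ) =
      (A.map (Int.castRingHom ℂ)) ^ 3 +
      (-((p : ℂ)⁻¹) ^ 2) • (ups p (ups p A ^ 3)).map (Int.castRingHom ℂ) := by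
    rw [h1, (hq.pow 3).qe_add ((hq4.heckeU 6 p).smul _), (hq4.heckeU 6 p).qe_smul, hq.qe_pow,
      hq4.qe_heckeU 6 hp0, (hU.pow 3).qe_smul, hU.qe_pow, hq.qe_heckeU 2 hp0, hA]
    congr 1
    ext n
    simp only [coeff_smul, coeff_ups, map_ups, map_pow, smul_eq_mul]
    field_simp
  have hL : IsLevelOne (6 : ℕ) (qe (ModularForm.trace 𝒮ℒ hG3.toModularForm : ℍ → ℂ)) :=
    ⟨ModularForm.trace 𝒮ℒ hG3.toModularForm, rfl⟩
  have hE : IsLevelOne (6 : ℕ) (e6.map (Int.castRingHom ℂ)) := ⟨ModularForm.E₆, qe_E₆⟩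
  have h3 := levelOne_eq (k := 6) (by norm_num) (hL.smul ((p : ℂ) ^ 2))
    (hE.smul (((p : ℂ) ^ 2 - 1) * (A.coeff 0 : ℂ) ^ 3)) (by
      rw [h2]
      simp only [coeff_smul, map_add, smul_eq_mul, coeff_map, coeff_ups, zero_mul,
        coeff_zero_eq_constantCoeff, map_pow, e6]
      simp only [← coeff_zero_eq_constantCoeff_apply, coeff_ups, zero_mul, coeff_map, coeff_mk,
        if_true]
      simp only [coeff_zero_eq_constantCoeff]
      simp only [← coeff_zero_eq_constantCoeff_apply]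
      field_simp
      simp
      ring)
  rw [h2] at h3
  apply (PowerSeries.map_injective (Int.castRingHom ℂ) Int.cast_injective)
  rw [map_sub, map_mul, map_mul, map_C, map_C, map_pow]
  ext n
  have h4 := congrArg (PowerSeries.coeff n) h3
  have hpp : (p : ℂ) ^ 2 * (-((p : ℂ)⁻¹) ^ 2) = -1 := by field_simp
  simp only [coeff_smul, map_add, smul_eq_mul, mul_add, ← mul_assoc, hpp] at h4
  simp only [map_sub, coeff_C_mul]
  rw [show (Int.castRingHom ℂ) (p : ℤ) ^ 2 = (p : ℂ) ^ 2 by simp, sub_eq_add_neg,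
    ← neg_one_mul, map_pow (PowerSeries.map (Int.castRingHom ℂ)), h4]
  simp

end

end Fermat.Agent.Mazur16
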