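import Fermat.Agent.Mazur16.Trace

/-!
# Shifts, and explicit `q`-expansions of traces and norms
-/

set_option autoImplicit false

open UpperHalfPlane CongruenceSubgroup Matrix.SpecialLinearGroup Function
open scoped MatrixGroups ModularForm Manifold

namespace Fermat.Agent.Mazur16

noncomputable section

/-- translation -/
def shift (t : ℝ) (f : ℍ → ℂ) : ℍ → ℂ := fun τ ↦ f (t +ᵥ τ)

lemma shift_apply (t : ℝ) (f : ℍ → ℂ) (τ : ℍ) : shift t f τ = f (t +ᵥ τ) := rfl

lemma per_iff {f : ℍ → ℂ} :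
    Periodic (f ∘ ofComplex) 1 ↔ ∀ τ : ℍ, f ((1 : ℝ) +ᵥ τ) = f τ := by
  constructor
  · intro h τ
    have := h τ
    simp only [comp_apply, ofComplex_apply] at this
    rw [← this]
    congr 1
    have h2 : ((τ : ℂ) + 1) = (((1 : ℝ) +ᵥ τ : ℍ) : ℂ) := by
      simp [add_comm]
    rw [h2, ofComplex_apply]
  · intro h w
    by_cases hw : 0 < w.im
    · have hw' : 0 < (w + 1).im := by simpa using hw
      simp only [comp_apply, ofComplex_apply_of_im_pos hw, ofComplex_apply_of_im_pos hw']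
      rw [← h ⟨w, hw⟩]
      congr 1
      ext
      simp [add_comm]
    · have hw' : (w + 1).im ≤ 0 := by simpa using hw
      simp only [Function.comp_apply, ofComplex_apply_of_im_nonpos (not_lt.mp hw),
        ofComplex_apply_of_im_nonpos hw']

lemma qParam_vadd (t : ℝ) (τ : ℍ) :
    Periodic.qParam 1 ((t +ᵥ τ : ℍ) : ℂ) =
      Complex.exp (2 * Real.pi * Complex.I * t) * Periodic.qParam 1 τ := by
  rw [Periodic.qParam, Periodic.qParam, ← Complex.exp_add]
  congr 1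
  simp only [coe_vadd, Complex.ofReal_one, div_one]
  ring

/-- the upper triangular matrix realising the translation. -/
def shiftMat (t : ℝ) : GL (Fin 2) ℝ :=
  Matrix.GeneralLinearGroup.mkOfDetNeZero !![1, t; 0, 1] (by simp)

lemma shiftMat_smul (t : ℝ) (τ : ℍ) : shiftMat t • τ = t +ᵥ τ := by
  ext
  have hdet : 0 < (shiftMat t).det.val := by
    simp [shiftMat]
  rw [UpperHalfPlane.coe_smul_of_det_pos hdet]
  simp [shiftMat, num, denom, add_comm]

lemma QF.shift {f : ℍ → ℂ} (hf : QF f) (t : ℝ) : QF (shift t f) where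
  per := by
    rw [per_iff]
    intro τ
    have := per_iff.mp hf.per (t +ᵥ τ)
    rw [shift_apply, shift_apply, ← this, vadd_vadd, vadd_vadd, add_comm]
  hol := by
    have h : Fermat.Agent.Mazur16.shift t f = f ∘ (fun τ ↦ shiftMat t • τ) := by
      ext τ
      simp [Fermat.Agent.Mazur16.shift, shiftMat_smul]
    rw [h]
    exact hf.hol.comp (UpperHalfPlane.mdifferentiable_smul (by simp [shiftMat]))
  bdd := by
    obtain ⟨M, A, hMA⟩ := isBoundedAtImInfty_iff.mp hf.bdd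
    rw [isBoundedAtImInfty_iff]
    exact ⟨M, A, fun z hz ↦ hMA _ (by simpa using hz)⟩

lemma QF.coeff_shift {f : ℍ → ℂ} (hf : QF f) (t : ℝ) (n : ℕ) :
    (qe (Fermat.Agent.Mazur16.shift t f)).coeff n =
      Complex.exp (2 * Real.pi * Complex.I * t) ^ n * (qe f).coeff n := by
  refine (hf.shift t).coeff_eq_of_hasSum (c := fun n ↦
    Complex.exp (2 * Real.pi * Complex.I * t) ^ n * (qe f).coeff n) (fun τ ↦ ?_) n
  have := hf.hasSum (t +ᵥ τ)
  rw [shift_apply]
  convert this using 2 with m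
  rw [qParam_vadd, mul_pow]; ring

lemma QF.qe_shift {f : ℍ → ℂ} (hf : QF f) (t : ℝ) :
    qe (Fermat.Agent.Mazur16.shift t f) =
      PowerSeries.rescale (Complex.exp (2 * Real.pi * Complex.I * t)) (qe f) := by
  ext n
  rw [hf.coeff_shift, PowerSeries.coeff_rescale]

lemma heckeDiagMatrix_smul_coe {p : ℕ} (hp : p ≠ 0) (τ : ℍ) :
    ((ModularForm.heckeDiagMatrix p • τ : ℍ) : ℂ) = p * τ := by
  have hdet : 0 < (ModularForm.heckeDiagMatrix p).det.val := by
    rw [Matrix.GeneralLinearGroup.val_det_apply, ModularForm.val_heckeDiagMatrix hp]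
    simpa using Nat.pos_of_ne_zero hp
  rw [UpperHalfPlane.coe_smul_of_det_pos hdet]
  simp [num, denom, ModularForm.val_heckeDiagMatrix hp]

/-- `dil p f` for `p ≠ 0`. -/
lemma dil_shift {p : ℕ} (hp : p ≠ 0) (t : ℝ) (f : ℍ → ℂ) :
    dil p (shift t f) = shift (t / p) (dil p f) := by
  ext τ
  rw [dil_apply, shift_apply, shift_apply, dil_apply]
  congr 1
  ext
  rw [coe_vadd, heckeDiagMatrix_smul_coe hp, heckeDiagMatrix_smul_coe hp, coe_vadd]
  push_cast
  have : (p : ℂ) ≠ 0 := by exact_mod_cast hp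
  field_simp

lemma dil_add (p : ℕ) (f g : ℍ → ℂ) : dil p (f + g) = dil p f + dil p g := rfl
lemma dil_sub (p : ℕ) (f g : ℍ → ℂ) : dil p (f - g) = dil p f - dil p g := rfl
lemma dil_mul (p : ℕ) (f g : ℍ → ℂ) : dil p (f * g) = dil p f * dil p g := rfl
lemma dil_smul (p : ℕ) (c : ℂ) (f : ℍ → ℂ) : dil p (c • f) = c • dil p f := rfl
lemma dil_neg (p : ℕ) (f : ℍ → ℂ) : dil p (-f) = - dil p f := rfl
lemma dil_pow (p : ℕ) (f : ℍ → ℂ) (n : ℕ) : dil p (f ^ n) = dil p f ^ n := rfl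
lemma dil_sum (p : ℕ) {ι : Type*} (s : Finset ι) (F : ι → ℍ → ℂ) :
    dil p (∑ i ∈ s, F i) = ∑ i ∈ s, dil p (F i) := by
  ext τ; simp [dil]
lemma dil_prod (p : ℕ) {ι : Type*} (s : Finset ι) (F : ι → ℍ → ℂ) :
    dil p (∏ i ∈ s, F i) = ∏ i ∈ s, dil p (F i) := by
  ext τ; simp [dil]

lemma dil_injective {p : ℕ} (hp : p ≠ 0) {f g : ℍ → ℂ} (hf : QF f) (hg : QF g)
    (h : dil p f = dil p g) : f = g := by
  rw [hf.ext_iff hg]
  ext n
  have h1 := hf.coeff_dil hp (p * n)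
  have h2 := hg.coeff_dil hp (p * n)
  simp only [dvd_mul_right, if_true, Nat.mul_div_cancel_left _ (Nat.pos_of_ne_zero hp)] at h1 h2
  rw [← h1, ← h2, h]

variable (p : ℕ) [hp : Fact p.Prime] {k : ℤ}

lemma slash_stJ_eq_shift (f : ℍ → ℂ) (j : ℕ) :
    f ∣[k] stJ (j : ℕ) = shift j (f ∣[k] ModularGroup.S) := by
  ext τ
  rw [slash_stJ_apply]
  simp [shift]

/-- The cusp-zero function. -/
def atZero (k : ℤ) (f : ℍ → ℂ) : ℍ → ℂ := dil p (f ∣[k] ModularGroup.S)

lemma dil_slash_stJ (f : ℍ → ℂ) (j : ℕ) :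
    dil p (f ∣[k] stJ (j : ℕ)) = shift (j / p) (atZero p k f) := by
  rw [slash_stJ_eq_shift, dil_shift hp.out.ne_zero]
  rfl

lemma atZero_eq (f : ModularForm (Gamma0 p) k) :
    atZero p k f = ((p : ℂ) ^ (k - 1))⁻¹ • ⇑(alForm p f) := by
  ext τ
  have hp0 : (p : ℂ) ^ (k - 1) ≠ 0 := zpow_ne_zero _ (by exact_mod_cast hp.out.ne_zero)
  rw [Pi.smul_apply, alForm_apply, smul_eq_mul, inv_mul_cancel_left₀ hp0]
  rfl

lemma QF.atZero (f : ModularForm (Gamma0 p) k) : QF (atZero p k f) := by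
  rw [atZero_eq]
  exact (QF.of_Gamma0 (alForm p f)).smul _

lemma atZero_two (f : ModularForm (Gamma0 p) 2) :
    atZero p 2 f = -(p : ℂ)⁻¹ • ModularForm.heckeU 2 p f := by
  ext τ
  exact slash_S_apply p f τ

lemma dil_norm (f : ModularForm (Gamma0 p) k) :
    dil p (ModularForm.norm 𝒮ℒ f) =
      dil p f * ∏ j ∈ Finset.range p, shift (j / p) (Mazur16.atZero p k f) := by
  rw [norm_apply, dil_mul, dil_prod]
  simp_rw [dil_slash_stJ]

lemma dil_trace (f : ModularForm (Gamma0 p) k) :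
    dil p (ModularForm.trace 𝒮ℒ f) =
      dil p f + ∑ j ∈ Finset.range p, shift (j / p) (Mazur16.atZero p k f) := by
  rw [trace_apply, dil_add, dil_sum]
  simp_rw [dil_slash_stJ]

lemma sum_shift {D : ℍ → ℂ} (hD : QF D) :
    ∑ j ∈ Finset.range p, shift (j / p) D = (p : ℂ) • dil p (ModularForm.heckeU k p D) := by
  have hp0 := hp.out.ne_zero
  have hpC : (p : ℂ) ≠ 0 := by exact_mod_cast hp0
  rw [(QF.sum _ (fun j _ ↦ hD.shift _)).ext_iff (((hD.heckeU k p).dil hp0).smul _),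
    QF.qe_sum _ (fun j _ ↦ hD.shift _), QF.qe_smul _ ((hD.heckeU k p).dil hp0)]
  ext n
  rw [map_sum, PowerSeries.coeff_smul, (hD.heckeU k p).coeff_dil hp0, hD.coeff_heckeU k hp0]
  simp_rw [hD.coeff_shift]
  rw [← Finset.sum_mul]
  have hprim := Complex.isPrimitiveRoot_exp p hp0
  set ζ := Complex.exp (2 * Real.pi * Complex.I / p) with hζ
  have h1 : ∀ j : ℕ, Complex.exp (2 * Real.pi * Complex.I * ((j / p : ℝ) : ℂ)) ^ n =
      (ζ ^ n) ^ j := by
    intro j
    rw [← pow_mul, mul_comm n j, pow_mul, hζ, ← Complex.exp_nat_mul _ j]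
    congr 2
    push_cast
    ring
  simp_rw [h1]
  by_cases hn : p ∣ n
  · rw [if_pos hn]
    have : ζ ^ n = 1 := (hprim.pow_eq_one_iff_dvd n).mpr hn
    simp [this, Nat.div_mul_cancel hn]
  · rw [if_neg hn]
    have h2 : ζ ^ n ≠ 1 := fun h ↦ hn ((hprim.pow_eq_one_iff_dvd n).mp h)
    have h3 : ∑ j ∈ Finset.range p, (ζ ^ n) ^ j = 0 := by
      rw [geom_sum_eq h2, ← pow_mul, mul_comm, pow_mul, hprim.pow_eq_one]
      simp
    rw [h3]
    simp

end

end Fermat.Agent.Mazur16
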