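import Fermat.Agent.Mazur16.LevelOneSpan

/-!
# A Sturm bound modulo primes in level `p`
-/

set_option autoImplicit false

open UpperHalfPlane CongruenceSubgroup Matrix.SpecialLinearGroup Function
open scoped MatrixGroups ModularForm Manifold

namespace Fermat.Agent.Mazur16

open Fermat.Agent.ModPoly Fermat.Agent.IntStr

noncomputable section

/-- `φ(X^p)`. -/
def vps {R : Type*} [Semiring R] (p : ℕ) (φ : PowerSeries R) : PowerSeries R :=
  PowerSeries.mk fun n ↦ if p ∣ n then φ.coeff (n / p) else 0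

@[simp] lemma coeff_vps {R : Type*} [Semiring R] (p : ℕ) (φ : PowerSeries R) (n : ℕ) :
    (vps p φ).coeff n = if p ∣ n then φ.coeff (n / p) else 0 := by
  simp [vps]

lemma map_vps {R S : Type*} [Semiring R] [Semiring S] (f : R →+* S) (p : ℕ) (φ : PowerSeries R) :
    (vps p φ).map f = vps p (φ.map f) := by
  ext n
  simp only [PowerSeries.coeff_map, coeff_vps]
  split_ifs <;> simp

lemma QF.qe_dil {f : ℍ → ℂ} (hf : QF f) {p : ℕ} (hp : p ≠ 0) :
    qe (Mazur16.dil p f) = vps p (qe f) := by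
  ext n
  rw [hf.coeff_dil hp, coeff_vps]

/-- The ring of algebraic integers in `ℂ`. -/
abbrev OO : Subalgebra ℤ ℂ := integralClosure ℤ ℂ

lemma exists_maximal {ℓ : ℕ} (hℓ : ℓ.Prime) :
    ∃ 𝔪 : Ideal OO, 𝔪.IsMaximal ∧ (ℓ : OO) ∈ 𝔪 := by
  have hne : Ideal.span {(ℓ : OO)} ≠ ⊤ := by
    intro h
    rw [Ideal.span_singleton_eq_top] at h
    obtain ⟨u, hu⟩ := h.exists_right_inv
    have h1 : (ℓ : ℂ) * (u : ℂ) = 1 := by
      have := congrArg (Subtype.val) hu
      simpa using this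
    have hℓ0 : (ℓ : ℂ) ≠ 0 := by exact_mod_cast hℓ.ne_zero
    have h2 : (u : ℂ) = algebraMap ℚ ℂ ((ℓ : ℚ)⁻¹) := by
      rw [eq_comm, map_inv₀, map_natCast]
      field_simp
      linear_combination -h1
    have h3 : IsIntegral ℤ ((ℓ : ℚ)⁻¹) := by
      have := u.2
      rw [mem_integralClosure_iff, h2] at this
      exact (isIntegral_algebraMap_iff (algebraMap ℚ ℂ).injective).mp this
    obtain ⟨z, hz⟩ := IsIntegrallyClosed.isIntegral_iff.mp h3
    have hz' : (ℓ : ℚ) * (z : ℚ) = 1 := by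
      have hℓ0 : (ℓ : ℚ) ≠ 0 := by exact_mod_cast hℓ.ne_zero
      have : (z : ℚ) = (ℓ : ℚ)⁻¹ := by simpa using hz
      rw [this]; field_simp
    have hz'' : (ℓ : ℤ) * z = 1 := by exact_mod_cast hz'
    have := Int.isUnit_iff.mp (IsUnit.of_mul_eq_one _ hz'')
    have h4 := hℓ.one_lt
    omega
  obtain ⟨𝔪, h𝔪, hle⟩ := Ideal.exists_le_maximal _ hne
  exact ⟨𝔪, h𝔪, hle (Ideal.mem_span_singleton_self _)⟩

lemma dvd_of_mem {ℓ : ℕ} (hℓ : ℓ.Prime) {𝔪 : Ideal OO} (h𝔪 : 𝔪.IsMaximal) (hmem : (ℓ : OO) ∈ 𝔪)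
    {a : ℤ} (ha : (a : OO) ∈ 𝔪) : (ℓ : ℤ) ∣ a := by
  by_contra h
  have hcop : IsCoprime (ℓ : ℤ) a := by
    exact ((Nat.prime_iff_prime_int.mp hℓ).coprime_iff_not_dvd.mpr h)
  obtain ⟨x, y, hxy⟩ := hcop
  apply h𝔪.ne_top
  rw [Ideal.eq_top_iff_one]
  have : (1 : OO) = (x : OO) * (ℓ : OO) + (y : OO) * (a : OO) := by
    have := congrArg (Int.cast : ℤ → OO) hxy
    push_cast at this
    exact this.symm
  rw [this]
  exact 𝔪.add_mem (𝔪.mul_mem_left _ hmem) (𝔪.mul_mem_left _ ha)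

variable (p : ℕ) [hp : Fact p.Prime]

omit hp in
lemma eq_zero_of_atZero {k : ℤ} {f : ℍ → ℂ} (h : atZero p k f = 0) : f = 0 := by
  have h1 : f ∣[k] ModularGroup.S = 0 := by
    ext τ
    have := congrFun h ((ModularForm.heckeDiagMatrix p)⁻¹ • τ)
    rw [atZero, dil_apply, smul_inv_smul] at this
    exact this
  have h2 : f = (f ∣[k] ModularGroup.S) ∣[k] ModularGroup.S⁻¹ := by
    rw [← SlashAction.slash_mul, mul_inv_cancel, SlashAction.slash_one]
  rw [h2, h1, SlashAction.zero_slash]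

theorem sturm_prime_core {k : ℕ} (K : ModularForm (Gamma0 p) (k : ℤ)) (A : PowerSeries ℤ)
    (hA : qe K = A.map (Int.castRingHom ℂ)) (c : ℂ) (B : PowerSeries ℤ)
    (hB : c • qe (atZero p k K) = B.map (Int.castRingHom ℂ)) {ℓ : ℕ} (hℓ : ℓ.Prime)
    (hB' : ∃ n, ¬ (ℓ : ℤ) ∣ B.coeff n)
    (h : ∀ n, 12 * n ≤ k * (p + 1) → (ℓ : ℤ) ∣ A.coeff n) (n : ℕ) : (ℓ : ℤ) ∣ A.coeff n := by
  obtain ⟨𝔪, h𝔪, hmem⟩ := exists_maximal hℓ
  have hp0 := hp.out.ne_zero
  -- the roots of unity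
  have hζint : ∀ j : ℕ, IsIntegral ℤ (Complex.exp (2 * Real.pi * Complex.I * ((j / p : ℝ) : ℂ))) := by
    intro j
    refine IsIntegral.of_pow hp.out.pos ?_
    have : Complex.exp (2 * Real.pi * Complex.I * ((j / p : ℝ) : ℂ)) ^ p = 1 := by
      rw [← Complex.exp_nat_mul, Complex.exp_eq_one_iff]
      refine ⟨j, ?_⟩
      have hpC : (p : ℂ) ≠ 0 := by exact_mod_cast hp0
      push_cast
      field_simp
    rw [this]
    exact isIntegral_one
  let ζ : ℕ → OO := fun j ↦ ⟨_, hζint j⟩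
  have hζp : ∀ j, ζ j ^ p = 1 := by
    intro j
    ext
    change Complex.exp (2 * Real.pi * Complex.I * ((j / p : ℝ) : ℂ)) ^ p = 1
    rw [← Complex.exp_nat_mul, Complex.exp_eq_one_iff]
    refine ⟨j, ?_⟩
    have hpC : (p : ℂ) ≠ 0 := by exact_mod_cast hp0
    push_cast
    field_simp
  let P : PowerSeries OO := vps p (A.map (Int.castRingHom OO)) *
    ∏ j ∈ Finset.range p, PowerSeries.rescale (ζ j) (B.map (Int.castRingHom OO))
  let F : ModularForm 𝒮ℒ ((k * (p + 1) : ℕ) : ℤ) :=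
    ModularForm.mcast (by rw [card_coset]; push_cast; ring) (c ^ p • ModularForm.norm 𝒮ℒ K)
  have hF : (F : ℍ → ℂ) = c ^ p • (ModularForm.norm 𝒮ℒ K : ℍ → ℂ) := rfl
  have hFq : QF (F : ℍ → ℂ) := QF.of_levelOne F
  have hdil : vps p (qe F) = P.map (OO.val : OO →+* ℂ) := by
    have hK := QF.of_Gamma0 K
    have hD := QF.atZero p K
    have h1 : (c ^ p) • ∏ j ∈ Finset.range p, shift (j / p) (atZero p k K) =
        ∏ j ∈ Finset.range p, c • shift (j / p) (atZero p k K) := by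
      rw [Finset.prod_smul, Finset.prod_const, Finset.card_range]
    rw [← hFq.qe_dil hp0, hF, dil_smul, dil_norm, ← mul_smul_comm, h1,
      QF.qe_mul (hK.dil hp0) (QF.prod _ fun j _ ↦ (hD.shift _).smul _),
      QF.qe_prod _ (fun j _ ↦ (hD.shift _).smul _), hK.qe_dil hp0, hA]
    simp only [P, map_mul, map_prod, map_vps]
    congr 1
    refine Finset.prod_congr rfl fun j _ ↦ ?_
    rw [(hD.shift _).qe_smul, hD.qe_shift]
    ext n
    have := congrArg (PowerSeries.coeff n) hB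
    simp only [PowerSeries.coeff_smul, PowerSeries.coeff_rescale, PowerSeries.coeff_map,
      smul_eq_mul, map_mul, map_pow] at this ⊢
    rw [mul_left_comm, this]
    simp [ζ]
  -- the subgroup of multiples of `ℓ`
  let V : AddSubgroup ℂ := ((Ideal.span {(ℓ : OO)}).toAddSubgroup).map (OO.val : OO →+* ℂ).toAddMonoidHom
  have hVmem : ∀ x : OO, (x : ℂ) ∈ V → x ∈ 𝔪 := by
    rintro x ⟨y, hy, hyx⟩
    have : y = x := Subtype.ext hyx
    rw [← this]
    exact (Ideal.span_singleton_le_iff_mem _).mpr hmem hy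
  have hFn : ∀ n, (qe F).coeff n = ((P.coeff (p * n) : OO) : ℂ) := by
    intro n
    have := congrArg (PowerSeries.coeff (p * n)) hdil
    rw [coeff_vps, if_pos (dvd_mul_right p n), Nat.mul_div_cancel_left _ hp.out.pos,
      PowerSeries.coeff_map] at this
    exact this
  have hFV := levelOne_coeff_mem V _ (qe F) ⟨F, rfl⟩ (by
    intro n hn
    rw [hFn]
    refine ⟨P.coeff (p * n), ?_, rfl⟩
    rw [PowerSeries.coeff_mul]
    refine Ideal.sum_mem _ fun x hx ↦ ?_
    refine Ideal.mul_mem_right _ _ ?_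
    have hx' := Finset.HasAntidiagonal.mem_antidiagonal.mp hx
    rw [coeff_vps]
    split_ifs with hdvd
    · obtain ⟨i, hi⟩ := hdvd
      rw [hi, Nat.mul_div_cancel_left _ hp.out.pos, PowerSeries.coeff_map]
      have hile : p * i ≤ p * n := by omega
      have hile' := Nat.le_of_mul_le_mul_left hile hp.out.pos
      obtain ⟨z, hz⟩ := h i (by omega)
      rw [hz, Ideal.mem_span_singleton]
      exact ⟨(z : OO), by simp⟩
    · exact Ideal.zero_mem _)
  -- reduction modulo the maximal ideal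
  let κ := OO ⧸ 𝔪
  let _ : Field κ := Ideal.Quotient.field 𝔪
  let π : OO →+* κ := Ideal.Quotient.mk 𝔪
  have hPπ : P.map π = 0 := by
    ext m
    rw [PowerSeries.coeff_map, map_zero]
    refine Ideal.Quotient.eq_zero_iff_mem.mpr (hVmem _ ?_)
    have := congrArg (PowerSeries.coeff m) hdil
    rw [coeff_vps, PowerSeries.coeff_map] at this
    have h2 : ((P.coeff m : OO) : ℂ) = if p ∣ m then (qe F).coeff (m / p) else 0 := this.symm
    rw [h2]
    split_ifs
    · exact hFV _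
    · exact V.zero_mem
  have hπint : ∀ a : ℤ, π (a : OO) = 0 → (ℓ : ℤ) ∣ a := fun a ha ↦
    dvd_of_mem hℓ h𝔪 hmem (Ideal.Quotient.eq_zero_iff_mem.mp ha)
  simp only [P, map_mul, map_prod, map_vps] at hPπ
  rcases mul_eq_zero.mp hPπ with h0 | h0
  · have := congrArg (PowerSeries.coeff (p * n)) h0
    rw [coeff_vps, if_pos (dvd_mul_right p n), Nat.mul_div_cancel_left _ hp.out.pos,
      PowerSeries.coeff_map, PowerSeries.coeff_map, map_zero] at this
    exact hπint _ (by simpa using this)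
  · exfalso
    rw [Finset.prod_eq_zero_iff] at h0
    obtain ⟨j, -, hj⟩ := h0
    obtain ⟨m, hm⟩ := hB'
    apply hm
    have := congrArg (PowerSeries.coeff m) hj
    rw [PowerSeries.coeff_map, PowerSeries.coeff_rescale, PowerSeries.coeff_map, map_mul, map_pow,
      map_zero, mul_eq_zero] at this
    rcases this with h1 | h1
    · exfalso
      have h2 : π (ζ j) = 0 := by
        by_contra hne
        exact pow_ne_zero m hne h1
      have h3 := congrArg π (hζp j)
      rw [map_pow, h2, map_one, zero_pow hp0] at h3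
      exact zero_ne_one h3
    · exact hπint _ (by simpa using h1)

/-- the Sturm bound modulo a prime. -/
theorem sturm_prime {k : ℕ} (K : ModularForm (Gamma0 p) (k : ℤ)) (A : PowerSeries ℤ)
    (hA : qe K = A.map (Int.castRingHom ℂ)) (c : ℂ) (hc : c ≠ 0) (B : PowerSeries ℤ)
    (hB : c • qe (atZero p k K) = B.map (Int.castRingHom ℂ)) {ℓ : ℕ} (hℓ : ℓ.Prime)
    (h : ∀ n, 12 * n ≤ k * (p + 1) → (ℓ : ℤ) ∣ A.coeff n) (n : ℕ) : (ℓ : ℤ) ∣ A.coeff n := by
  by_cases hB0 : B = 0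
  · have h1 : qe (atZero p k K) = 0 := by
      rw [hB0, map_zero] at hB
      exact (smul_eq_zero.mp hB).resolve_left hc
    have h2 : atZero p k K = 0 := by
      rw [(QF.atZero p K).ext_iff QF.zero, h1, QF.qe_zero]
    have h3 : (K : ℍ → ℂ) = 0 := eq_zero_of_atZero p h2
    have h4 : A = 0 := by
      rw [h3, QF.qe_zero] at hA
      ext m
      have := congrArg (PowerSeries.coeff m) hA
      simpa using this.symm
    simp [h4]
  · obtain ⟨m, hm⟩ : ∃ m, B.coeff m ≠ 0 := by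
      by_contra hcon
      push Not at hcon
      exact hB0 (by ext i; simpa using hcon i)
    have hex : ∃ v : ℕ, ¬ ∀ i, (ℓ : ℤ) ^ v ∣ B.coeff i := by
      by_contra hcon
      push Not at hcon
      have hfin : FiniteMultiplicity (ℓ : ℤ) (B.coeff m) := by
        rw [Int.finiteMultiplicity_iff]
        refine ⟨?_, hm⟩
        simpa using hℓ.one_lt.ne'
      obtain ⟨v, hv⟩ := hfin
      exact hv (hcon (v + 1) m)
    classical
    set v := Nat.find hex with hv
    have hv1 := Nat.find_spec hex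
    rw [← hv] at hv1
    have hv0 : v ≠ 0 := by
      intro h0
      rw [h0] at hv1
      exact hv1 fun i ↦ by simp
    obtain ⟨w, hw⟩ := Nat.exists_eq_succ_of_ne_zero hv0
    have hv2 : ∀ i, (ℓ : ℤ) ^ w ∣ B.coeff i := by
      have := Nat.find_min hex (m := w) (by omega)
      rwa [not_not] at this
    choose b hb using hv2
    have hℓ0 : (ℓ : ℂ) ≠ 0 := by exact_mod_cast hℓ.ne_zero
    refine sturm_prime_core p K A hA (c / (ℓ : ℂ) ^ w) (PowerSeries.mk b) ?_ hℓ ?_ h n
    · ext i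
      have := congrArg (PowerSeries.coeff i) hB
      simp only [PowerSeries.coeff_smul, smul_eq_mul, PowerSeries.coeff_map, hb i] at this
      simp only [PowerSeries.coeff_smul, smul_eq_mul, PowerSeries.coeff_map,
        PowerSeries.coeff_mk]
      rw [div_mul_eq_mul_div, this]
      field_simp
      simp
    · by_contra hcon
      push Not at hcon
      apply hv1
      intro i
      rw [hw, hb i, pow_succ]
      have := hcon i
      rw [PowerSeries.coeff_mk] at this
      exact mul_dvd_mul_left _ this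

/-- the Sturm bound modulo a prime power. -/
theorem sturm_prime_pow {k : ℕ} {ℓ : ℕ} (hℓ : ℓ.Prime) (e : ℕ) :
    ∀ (K : ModularForm (Gamma0 p) (k : ℤ)) (A : PowerSeries ℤ)
    (_ : qe K = A.map (Int.castRingHom ℂ)) (c : ℂ) (_ : c ≠ 0) (B : PowerSeries ℤ)
    (_ : c • qe (atZero p k K) = B.map (Int.castRingHom ℂ))
    (_ : ∀ n, 12 * n ≤ k * (p + 1) → (ℓ : ℤ) ^ e ∣ A.coeff n) (n : ℕ),
    (ℓ : ℤ) ^ e ∣ A.coeff n := by
  induction e with
  | zero => intro K A hA c hc B hB h n; simp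
  | succ e ih =>
    intro K A hA c hc B hB h
    have hℓ0 : (ℓ : ℂ) ≠ 0 := by exact_mod_cast hℓ.ne_zero
    have hℓZ : (ℓ : ℤ) ≠ 0 := by exact_mod_cast hℓ.ne_zero
    have h1 := sturm_prime p K A hA c hc B hB hℓ (fun n hn ↦
      dvd_trans (dvd_pow_self _ (by omega)) (h n hn))
    choose a ha using h1
    have h2 := ih ((ℓ : ℂ)⁻¹ • K) (PowerSeries.mk a) (by
      have : (((ℓ : ℂ)⁻¹ • K : ModularForm (Gamma0 p) (k : ℤ)) : ℍ → ℂ) = (ℓ : ℂ)⁻¹ • (K : ℍ → ℂ) :=
        rfl
      rw [this, (QF.of_Gamma0 K).qe_smul, hA]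
      ext n
      simp only [PowerSeries.coeff_smul, smul_eq_mul, PowerSeries.coeff_map, ha n,
        PowerSeries.coeff_mk]
      simp [hℓ0]) (ℓ * c) (mul_ne_zero hℓ0 hc) B (by
      rw [← hB]
      have : atZero p k (((ℓ : ℂ)⁻¹ • K : ModularForm (Gamma0 p) (k : ℤ)) : ℍ → ℂ) =
          (ℓ : ℂ)⁻¹ • atZero p k K := by
        ext τ
        simp only [atZero, dil_apply, Pi.smul_apply, smul_eq_mul]
        rw [show (((ℓ : ℂ)⁻¹ • K : ModularForm (Gamma0 p) (k : ℤ)) : ℍ → ℂ) =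
          (ℓ : ℂ)⁻¹ • (K : ℍ → ℂ) from rfl, ModularForm.SL_smul_slash]
        rfl
      rw [this, (QF.atZero p K).qe_smul, smul_smul]
      congr 1
      field_simp) (by
      intro n hn
      have := h n hn
      rw [ha n, pow_succ'] at this
      rw [PowerSeries.coeff_mk]
      exact Int.dvd_of_mul_dvd_mul_left hℓZ this)
    intro n
    rw [ha n, pow_succ']
    have := h2 n
    rw [PowerSeries.coeff_mk] at this
    exact mul_dvd_mul_left _ this

end

end Fermat.Agent.Mazur16
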