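import Mathlib

/-!
# One-dimensional theta series with periodic coefficients
-/

set_option autoImplicit false

open UpperHalfPlane hiding I
open Complex
open scoped Real MatrixGroups ModularForm Manifold

namespace Fermat.Agent.Mazur16

noncomputable section

/-- a term of the theta series -/
def tt (M : ℕ) (s : ℤ) (z : ℂ) : ℂ := cexp (π * I * s ^ 2 / M * z)

/-- theta series with coefficients `c`. -/
def TH (c : ℤ → ℂ) (M : ℕ) (τ : ℍ) : ℂ := ∑' s : ℤ, c s * tt M s τ

lemma norm_tt (M : ℕ) (s : ℤ) (z : ℂ) : ‖tt M s z‖ = Real.exp (-π * s ^ 2 / M * z.im) := by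
  rw [tt, Complex.norm_exp]
  congr 1
  have : (π * I * s ^ 2 / M * z : ℂ) = ((π * s ^ 2 / M : ℝ) : ℂ) * (I * z) := by
    push_cast; ring
  rw [this, Complex.re_ofReal_mul]
  simp
  ring

lemma summable_exp (M : ℕ) (hM : 0 < M) {y : ℝ} (hy : 0 < y) :
    Summable (fun s : ℤ ↦ Real.exp (-π * s ^ 2 / M * y)) := by
  have hMR : (0 : ℝ) < M := by exact_mod_cast hM
  have h := (summable_jacobiTheta₂_term_iff 0 (I * (y / M : ℝ))).mpr (by
    simp; positivity)
  have h2 := h.norm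
  refine h2.congr fun s ↦ ?_
  rw [norm_jacobiTheta₂_term]
  congr 1
  simp
  ring

lemma summable_tt {c : ℤ → ℂ} (hc : ∀ s, ‖c s‖ ≤ 1) (M : ℕ) (hM : 0 < M) {z : ℂ}
    (hz : 0 < z.im) : Summable (fun s : ℤ ↦ c s * tt M s z) := by
  refine Summable.of_norm_bounded (summable_exp M hM hz) fun s ↦ ?_
  rw [norm_mul, norm_tt]
  exact mul_le_of_le_one_left (Real.exp_pos _).le (hc s)

lemma TH_mdiff {c : ℤ → ℂ} (hc : ∀ s, ‖c s‖ ≤ 1) (M : ℕ) (hM : 0 < M) : MDiff (TH c M) := by
  have hMR : (0 : ℝ) < M := by exact_mod_cast hM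
  rw [UpperHalfPlane.mdifferentiable_iff]
  have h1 : DifferentiableOn ℂ (fun z : ℂ ↦ ∑' s : ℤ, c s * tt M s z) {z | 0 < z.im} := by
    intro z hz
    obtain ⟨ε, hε, hεz⟩ := exists_between (show (0 : ℝ) < z.im from hz)
    have hopen : IsOpen {w : ℂ | ε < w.im} := isOpen_lt continuous_const Complex.continuous_im
    have h2 : DifferentiableOn ℂ (fun z : ℂ ↦ ∑' s : ℤ, c s * tt M s z) {w | ε < w.im} := by
      refine Complex.differentiableOn_tsum_of_summable_norm (summable_exp M hM hε) (fun s ↦ ?_)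
        hopen (fun s w hw ↦ ?_)
      · unfold tt
        fun_prop
      · rw [norm_mul, norm_tt]
        refine (mul_le_of_le_one_left (Real.exp_pos _).le (hc s)).trans ?_
        rw [Real.exp_le_exp]
        have hw' : ε ≤ w.im := le_of_lt hw
        have : 0 ≤ π * (s : ℝ) ^ 2 / M := by positivity
        have h3 := mul_le_mul_of_nonneg_left hw' this
        have e1 : -π * (s : ℝ) ^ 2 / M * w.im = -(π * (s : ℝ) ^ 2 / M * w.im) := by ring
        have e2 : -π * (s : ℝ) ^ 2 / M * ε = -(π * (s : ℝ) ^ 2 / M * ε) := by ring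
        rw [e1, e2]
        linarith
    exact (h2.differentiableAt (hopen.mem_nhds hεz)).differentiableWithinAt
  refine h1.congr fun z hz ↦ ?_
  simp only [Function.comp_apply, ofComplex_apply_of_im_pos hz, TH]

lemma TH_bdd {c : ℤ → ℂ} (hc : ∀ s, ‖c s‖ ≤ 1) (M : ℕ) (hM : 0 < M) :
    IsBoundedAtImInfty (TH c M) := by
  have hMR : (0 : ℝ) < M := by exact_mod_cast hM
  rw [isBoundedAtImInfty_iff]
  refine ⟨∑' s : ℤ, Real.exp (-π * s ^ 2 / M * 1), 1, fun z hz ↦ ?_⟩
  refine tsum_of_norm_bounded (summable_exp M hM one_pos).hasSum fun s ↦ ?_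
  rw [norm_mul, norm_tt]
  refine (mul_le_of_le_one_left (Real.exp_pos _).le (hc s)).trans ?_
  rw [Real.exp_le_exp]
  have hw' : 1 ≤ (z : ℂ).im := hz
  have : 0 ≤ π * (s : ℝ) ^ 2 / M := by positivity
  have h3 := mul_le_mul_of_nonneg_left hw' this
  have e1 : -π * (s : ℝ) ^ 2 / M * (z : ℂ).im = -(π * (s : ℝ) ^ 2 / M * (z : ℂ).im) := by ring
  have e2 : -π * (s : ℝ) ^ 2 / M * 1 = -(π * (s : ℝ) ^ 2 / M * 1) := by ring
  rw [e1, e2]
  linarith

/-- The transformation formula of theta series. -/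
lemma TH_S (M : ℕ) (hM : 0 < M) (r : ℤ) (τ : ℍ) :
    TH (fun s ↦ if (s : ZMod M) = (r : ZMod M) then 1 else 0) M (ModularGroup.S • τ) =
      1 / (I * M / τ) ^ (1 / 2 : ℂ) * TH (fun s ↦ cexp (2 * π * I * r * s / M)) M τ := by
  have hMC : (M : ℂ) ≠ 0 := by exact_mod_cast hM.ne'
  have hMZ : (M : ℤ) ≠ 0 := by exact_mod_cast hM.ne'
  have hτ : (τ : ℂ) ≠ 0 := ne_zero τ
  have hS : ((ModularGroup.S • τ : ℍ) : ℂ) = -1 / τ := by
    rw [modular_S_smul]
    change (-(τ : ℂ))⁻¹ = -1 / τ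
    field_simp
  -- left side
  have h1 : TH (fun s ↦ if (s : ZMod M) = (r : ZMod M) then 1 else 0) M (ModularGroup.S • τ) =
      ∑' n : ℤ, tt M (M * n + r) (-1 / τ) := by
    rw [TH, hS]
    have hinj : Function.Injective (fun n : ℤ ↦ M * n + r) := by
      intro a b hab
      simp only [add_left_inj] at hab
      exact mul_left_cancel₀ hMZ hab
    rw [← hinj.tsum_eq]
    · refine tsum_congr fun n ↦ ?_
      rw [if_pos (by push_cast; simp), one_mul]
    · intro s hs
      simp only [Function.mem_support, ne_eq, mul_eq_zero, not_or] at hs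
      have h2 : (s : ZMod M) = (r : ZMod M) := by
        by_contra h
        exact hs.1 (if_neg h)
      have h3 : (M : ℤ) ∣ s - r := by
        rw [← ZMod.intCast_zmod_eq_zero_iff_dvd]
        push_cast
        rw [h2, sub_self]
      obtain ⟨n, hn⟩ := h3
      exact ⟨n, by simp only; linarith⟩
  have h2 : ∑' n : ℤ, tt M (M * n + r) (-1 / τ) =
      cexp (-(π * I * r ^ 2 / (M * τ))) * jacobiTheta₂ (-r / τ) (-M / τ) := by
    rw [jacobiTheta₂, ← tsum_mul_left]
    refine tsum_congr fun n ↦ ?_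
    rw [tt, jacobiTheta₂_term, ← Complex.exp_add]
    congr 1
    push_cast
    field_simp
    ring
  have h3 := jacobiTheta₂_functional_equation (-r / τ) (-M / τ)
  have h4 : -I * (-M / τ) = I * M / τ := by ring
  have h5 : (-(r : ℂ) / τ) / (-M / τ) = r / M := by field_simp
  have h6 : -1 / (-(M : ℂ) / τ) = τ / M := by field_simp
  have h7 : -π * I * (-(r : ℂ) / τ) ^ 2 / (-M / τ) = π * I * r ^ 2 / (M * τ) := by field_simp
  rw [h4, h5, h6, h7] at h3
  rw [h1, h2, h3]
  have h8 : jacobiTheta₂ (r / M) (τ / M) = TH (fun s ↦ cexp (2 * π * I * r * s / M)) M τ := by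
    rw [jacobiTheta₂, TH]
    refine tsum_congr fun n ↦ ?_
    rw [tt, jacobiTheta₂_term, ← Complex.exp_add]
    congr 1
    ring
  rw [h8]
  have h9 : cexp (-(π * I * r ^ 2 / (M * τ))) * cexp (π * I * r ^ 2 / (M * τ)) = 1 := by
    rw [← Complex.exp_add]; simp
  linear_combination (1 / (I * M / τ) ^ (1 / 2 : ℂ) *
    TH (fun s ↦ cexp (2 * π * I * r * s / M)) M τ) * h9

end

end Fermat.Agent.Mazur16
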