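import Fermat.Agent.Mazur16.Theta1

/-!
# The vector of binary theta series attached to `ℚ(√-q)`
-/

set_option autoImplicit false

open UpperHalfPlane hiding I
open Complex
open scoped Real MatrixGroups ModularForm Manifold

namespace Fermat.Agent.Mazur16

noncomputable section

lemma TH_congr {c d : ℤ → ℂ} (h : ∀ s, c s = d s) (M : ℕ) : TH c M = TH d M := by
  have : c = d := funext h
  rw [this]

lemma TH_add {c d : ℤ → ℂ} (hc : ∀ s, ‖c s‖ ≤ 1) (hd : ∀ s, ‖d s‖ ≤ 1) (M : ℕ) (hM : 0 < M)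
    (τ : ℍ) : TH (fun s ↦ c s + d s) M τ = TH c M τ + TH d M τ := by
  rw [TH, TH, TH, ← (summable_tt hc M hM τ.im_pos).tsum_add (summable_tt hd M hM τ.im_pos)]
  refine tsum_congr fun s ↦ ?_
  ring

lemma TH_sub {c d : ℤ → ℂ} (hc : ∀ s, ‖c s‖ ≤ 1) (hd : ∀ s, ‖d s‖ ≤ 1) (M : ℕ) (hM : 0 < M)
    (τ : ℍ) : TH (fun s ↦ c s - d s) M τ = TH c M τ - TH d M τ := by
  rw [TH, TH, TH, ← (summable_tt hc M hM τ.im_pos).tsum_sub (summable_tt hd M hM τ.im_pos)]
  refine tsum_congr fun s ↦ ?_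
  ring

lemma TH_sum {ι : Type*} (S : Finset ι) (a : ι → ℂ) {c : ι → ℤ → ℂ} (hc : ∀ i s, ‖c i s‖ ≤ 1)
    (M : ℕ) (hM : 0 < M) (τ : ℍ) :
    TH (fun s ↦ ∑ i ∈ S, a i * c i s) M τ = ∑ i ∈ S, a i * TH (c i) M τ := by
  simp only [TH, ← tsum_mul_left]
  rw [← Summable.tsum_finsetSum]
  · refine tsum_congr fun s ↦ ?_
    rw [Finset.sum_mul]
    refine Finset.sum_congr rfl fun i _ ↦ ?_
    ring
  · intro i _
    exact (summable_tt (hc i) M hM τ.im_pos).mul_left _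

lemma TH_T {c : ℤ → ℂ} (M : ℕ) (ω : ℂ) (h : ∀ s, c s ≠ 0 → cexp (π * I * s ^ 2 / M) = ω)
    (τ : ℍ) : TH c M ((1 : ℝ) +ᵥ τ) = ω * TH c M τ := by
  rw [TH, TH, ← tsum_mul_left]
  refine tsum_congr fun s ↦ ?_
  by_cases hs : c s = 0
  · rw [hs]; ring
  · rw [← h s hs, tt, tt, coe_vadd]
    have : (π * I * s ^ 2 / M * (((1 : ℝ) : ℂ) + τ) : ℂ) =
        π * I * s ^ 2 / M + π * I * s ^ 2 / M * τ := by push_cast; ring
    rw [this, Complex.exp_add]
    ring

lemma sqrt_prod {r : ℝ} (hr : 0 < r) {w : ℂ} (hw : w ≠ 0) :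
    ((r : ℂ) * w) ^ (1 / 2 : ℂ) * w ^ (1 / 2 : ℂ) = (√r : ℝ) * w := by
  have hrC : (r : ℂ) ≠ 0 := by exact_mod_cast hr.ne'
  rw [Complex.cpow_def_of_ne_zero (mul_ne_zero hrC hw), Complex.cpow_def_of_ne_zero hw,
    Complex.log_ofReal_mul hr hw, ← Complex.exp_add]
  have e1 : ((Real.log r : ℂ) + log w) * (1 / 2) + log w * (1 / 2) =
      ((Real.log r / 2 : ℝ) : ℂ) + log w := by push_cast; ring
  rw [e1, Complex.exp_add, Complex.exp_log hw, ← Complex.ofReal_exp]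
  congr 2
  rw [Real.sqrt_eq_rpow, Real.rpow_def_of_pos hr]
  congr 1
  ring

variable (q : ℕ)

/-- coefficients in the second variable -/
def c1 (κ : ZMod 2) (t : ℤ) : ℂ := if (t : ZMod 2) = κ then 1 else 0

/-- coefficients in the first variable -/
def c2 (κ : ZMod 2) (h : ZMod q) (s : ℤ) : ℂ :=
  if (s : ZMod 2) = κ ∧ (s : ZMod q) = 2 * h then 1 else 0

/-- the binary theta series. -/
def Phi (h : ZMod q) (τ : ℍ) : ℂ := ∑ κ : ZMod 2, TH (c2 q κ h) (2 * q) τ * TH (c1 κ) 2 τ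

lemma norm_c1 (κ : ZMod 2) (s : ℤ) : ‖c1 κ s‖ ≤ 1 := by
  unfold c1; split_ifs <;> simp

lemma norm_c2 (κ : ZMod 2) (h : ZMod q) (s : ℤ) : ‖c2 q κ h s‖ ≤ 1 := by
  unfold c2; split_ifs <;> simp

variable [hq : Fact q.Prime]

lemma Phi_mdiff (h : ZMod q) : MDiff (Phi q h) := by
  have h1 : Phi q h = ∑ κ : ZMod 2, TH (c2 q κ h) (2 * q) * TH (c1 κ) 2 := by
    ext τ; simp [Phi]
  have hpos : 0 < 2 * q := by have := hq.out.pos; omega
  have h2 : ∀ κ : ZMod 2, MDiff (TH (c2 q κ h) (2 * q) * TH (c1 κ) 2) := fun κ ↦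
    (TH_mdiff (norm_c2 q κ h) _ hpos).mul (TH_mdiff (norm_c1 κ) _ two_pos)
  have h3 : Phi q h = TH (c2 q 0 h) (2 * q) * TH (c1 0) 2 + TH (c2 q 1 h) (2 * q) * TH (c1 1) 2 := by
    rw [h1]; exact Fin.sum_univ_two _
  rw [h3]
  exact (h2 0).add (h2 1)

lemma Phi_bdd (h : ZMod q) : IsBoundedAtImInfty (Phi q h) := by
  have hpos : 0 < 2 * q := by have := hq.out.pos; omega
  have h2 : ∀ κ : ZMod 2, IsBoundedAtImInfty (TH (c2 q κ h) (2 * q) * TH (c1 κ) 2) := fun κ ↦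
    (TH_bdd (norm_c2 q κ h) _ hpos).mul (TH_bdd (norm_c1 κ) _ two_pos)
  have h3 : Phi q h = TH (c2 q 0 h) (2 * q) * TH (c1 0) 2 + TH (c2 q 1 h) (2 * q) * TH (c1 1) 2 := by
    ext τ
    exact Fin.sum_univ_two _
  rw [h3]
  exact (h2 0).add (h2 1)

/-- the additive character -/
abbrev psi : AddChar (ZMod q) ℂ := ZMod.stdAddChar

lemma psi_coe (j : ℤ) : psi q (j : ZMod q) = cexp (2 * π * I * j / q) := ZMod.stdAddChar_coe j

lemma norm_psi (x : ZMod q) : ‖psi q x‖ = 1 := by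
  rw [ZMod.stdAddChar_apply]; simp

variable (hq4 : q % 4 = 3)

include hq4

/-- translation formula -/
lemma Phi_T (h : ZMod q) (τ : ℍ) : Phi q h ((1 : ℝ) +ᵥ τ) = psi q (h ^ 2) * Phi q h τ := by
  have hq0 : (q : ℂ) ≠ 0 := by exact_mod_cast hq.out.ne_zero
  have hqodd : (q : ZMod 2) = 1 := by
    rw [ZMod.natCast_eq_one_iff_odd, Nat.odd_iff]; omega
  simp only [Phi, Finset.mul_sum]
  refine Finset.sum_congr rfl fun κ _ ↦ ?_
  set k : ℤ := (κ.val : ℤ) with hk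
  have hkκ : (k : ZMod 2) = κ := by rw [hk]; simp
  have h1 := TH_T (c := c1 κ) 2 (cexp (π * I * k ^ 2 / (2 : ℕ))) (fun t ht ↦ by
    have ht' : (t : ZMod 2) = κ := by
      by_contra hne
      exact ht (if_neg hne)
    have h2 : (2 : ℤ) ∣ t - k := by
      have := (ZMod.intCast_zmod_eq_zero_iff_dvd (t - k) 2).mp (by
        push_cast; rw [ht', hkκ, sub_self])
      exact_mod_cast this
    obtain ⟨a, ha⟩ := h2
    have ht2 : t = k + 2 * a := by linarith
    rw [ht2, Complex.exp_eq_exp_iff_exists_int]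
    refine ⟨k * a + a ^ 2, ?_⟩
    push_cast
    ring) τ
  have h2 := TH_T (c := c2 q κ h) (2 * q) (psi q (h ^ 2) * (cexp (π * I * k ^ 2 / (2 : ℕ)))⁻¹)
    (fun s hs ↦ by
      have hs' : (s : ZMod 2) = κ ∧ (s : ZMod q) = 2 * h := by
        by_contra hne
        exact hs (if_neg hne)
      have h4 : (4 : ℤ) ∣ s ^ 2 + q * k ^ 2 := by
        have h2 : (2 : ℤ) ∣ s - k := by
          have := (ZMod.intCast_zmod_eq_zero_iff_dvd (s - k) 2).mp (by
            push_cast; rw [hs'.1, hkκ, sub_self])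
          exact_mod_cast this
        obtain ⟨a, ha⟩ := h2
        obtain ⟨b, hb⟩ : ∃ b : ℤ, (q : ℤ) + 1 = 4 * b := ⟨(q + 1) / 4, by omega⟩
        have hs2 : s = k + 2 * a := by linarith
        have hqb : (q : ℤ) = 4 * b - 1 := by linarith
        rw [hs2, hqb]
        exact ⟨k * a + a ^ 2 + b * k ^ 2, by ring⟩
      obtain ⟨N, hN⟩ := h4
      have hNh : (N : ZMod q) = h ^ 2 := by
        have h5 : ((4 * N : ℤ) : ZMod q) = 4 * h ^ 2 := by
          rw [← hN]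
          push_cast
          rw [hs'.2]
          simp
          ring
        push_cast at h5
        have h4ne : (4 : ZMod q) ≠ 0 := by
          intro h0
          have h6 : (q : ℕ) ∣ 4 := by
            rw [← ZMod.natCast_eq_zero_iff]
            exact_mod_cast h0
          have h7 : q ∣ 2 ^ 2 := h6
          have h8 := (Nat.prime_dvd_prime_iff_eq hq.out Nat.prime_two).mp
            (hq.out.dvd_of_dvd_pow h7)
          omega
        exact mul_left_cancel₀ h4ne h5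
      rw [← hNh, psi_coe, ← Complex.exp_neg, ← Complex.exp_add]
      congr 1
      have hN' : (s : ℂ) ^ 2 + q * k ^ 2 = 4 * N := by exact_mod_cast hN
      have hN'' : (N : ℂ) = ((s : ℂ) ^ 2 + q * k ^ 2) / 4 := by rw [hN']; ring
      rw [hN'']
      push_cast
      field_simp
      ring) τ
  rw [h1, h2]
  have h3 : cexp (π * I * k ^ 2 / (2 : ℕ)) ≠ 0 := Complex.exp_ne_zero _
  field_simp

omit hq hq4 in
lemma c1_zero_add (s : ℤ) : c1 0 s + c1 1 s = 1 := by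
  unfold c1
  have key : ∀ x : ZMod 2, x = 0 ∨ x = 1 := by decide
  rcases key (s : ZMod 2) with h | h <;> simp [h]

omit hq hq4 in
lemma c1_zero_sub (s : ℤ) : c1 0 s - c1 1 s = cexp (π * I * s) := by
  unfold c1
  rcases Int.even_or_odd' s with ⟨a, rfl | rfl⟩
  · have h1 : ((2 * a : ℤ) : ZMod 2) = 0 := by
      push_cast
      have : (2 : ZMod 2) = 0 := rfl
      rw [this, zero_mul]
    rw [h1, if_pos rfl, if_neg (by decide), sub_zero]
    have : (π * I * ((2 * a : ℤ) : ℂ) : ℂ) = a * (2 * π * I) := by push_cast; ring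
    rw [this, Complex.exp_int_mul_two_pi_mul_I]
  · have h1 : ((2 * a + 1 : ℤ) : ZMod 2) = 1 := by
      push_cast
      have : (2 : ZMod 2) = 0 := rfl
      rw [this, zero_mul, zero_add]
    rw [h1, if_neg (by decide), if_pos rfl, zero_sub]
    have : (π * I * ((2 * a + 1 : ℤ) : ℂ) : ℂ) = a * (2 * π * I) + π * I := by push_cast; ring
    rw [this, Complex.exp_add, Complex.exp_int_mul_two_pi_mul_I, Complex.exp_pi_mul_I]
    ring

omit hq4 in
lemma norm_c1_psi (κ : ZMod 2) (h : ZMod q) (s : ℤ) : ‖c1 κ s * psi q (h * s)‖ ≤ 1 := by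
  rw [norm_mul, norm_psi, mul_one]
  exact norm_c1 κ s

lemma two_ne_zero' : (2 : ZMod q) ≠ 0 := by
  intro h0
  have h6 : (q : ℕ) ∣ 2 := by
    rw [← ZMod.natCast_eq_zero_iff]
    exact_mod_cast h0
  have h8 := (Nat.prime_dvd_prime_iff_eq hq.out Nat.prime_two).mp h6
  omega

/-- Splitting according to residue classes. -/
lemma TH_split (κ : ZMod 2) (h : ZMod q) (τ : ℍ) :
    TH (fun s ↦ c1 κ s * psi q (h * s)) (2 * q) τ =
      ∑ h' : ZMod q, psi q (2 * h * h') * TH (c2 q κ h') (2 * q) τ := by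
  have hpos : 0 < 2 * q := by have := hq.out.pos; omega
  have h2 := two_ne_zero' q hq4
  rw [← TH_sum _ _ (norm_c2 q κ) _ hpos]
  refine congrFun (TH_congr (fun s ↦ ?_) _) τ
  rw [Finset.sum_eq_single ((s : ZMod q) / 2)]
  · unfold c1 c2
    have e1 : 2 * ((s : ZMod q) / 2) = s := by field_simp
    have e2 : 2 * h * ((s : ZMod q) / 2) = h * s := by field_simp
    rw [e1, e2]
    by_cases hs : (s : ZMod 2) = κ
    · rw [if_pos hs, if_pos ⟨hs, rfl⟩]; ring
    · rw [if_neg hs, if_neg (fun h ↦ hs h.1)]; ring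
  · intro b _ hb
    unfold c2
    rw [if_neg, mul_zero]
    rintro ⟨-, hsb⟩
    apply hb
    rw [hsb]
    field_simp
  · intro h; exact absurd (Finset.mem_univ _) h

/-- inversion formula -/
theorem Phi_S (h : ZMod q) (τ : ℍ) : Phi q h (ModularGroup.S • τ) =
    τ / (I * (√(q : ℝ) : ℝ)) * ∑ h' : ZMod q, psi q (2 * h * h') * Phi q h' τ := by
  have hpos : 0 < 2 * q := by have := hq.out.pos; omega
  have hq0 : (q : ℂ) ≠ 0 := by exact_mod_cast hq.out.ne_zero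
  have hτ : (τ : ℂ) ≠ 0 := ne_zero τ
  have hqodd : (q : ZMod 2) = 1 := by
    rw [ZMod.natCast_eq_one_iff_odd, Nat.odd_iff]; omega
  -- values at `S • τ`
  have hA : ∀ κ : ZMod 2, TH (c2 q κ h) (2 * q) (ModularGroup.S • τ) =
      1 / (I * (2 * q : ℕ) / τ) ^ (1 / 2 : ℂ) *
        TH (fun s ↦ cexp (π * I * ((κ.val : ℤ) * s : ℤ)) * psi q (h * s)) (2 * q) τ := by
    intro κ
    set r : ℤ := q * (κ.val : ℤ) + 2 * (h.val : ℤ) with hr
    have h1 := TH_S (2 * q) hpos r τ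
    have h2 : ∀ s : ℤ, c2 q κ h s = if (s : ZMod (2 * q)) = (r : ZMod (2 * q)) then 1 else 0 := by
      intro s
      unfold c2
      have e1 : (r : ZMod 2) = κ := by
        rw [hr]; push_cast
        have : (2 : ZMod 2) = 0 := rfl
        rw [this, hqodd, zero_mul, add_zero, one_mul]
        simp
      have e2 : (r : ZMod q) = 2 * h := by
        rw [hr]; push_cast; simp
      have e3 : ((s : ZMod 2) = κ ∧ (s : ZMod q) = 2 * h) ↔
          (s : ZMod (2 * q)) = (r : ZMod (2 * q)) := by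
        rw [← e1, ← e2, ZMod.intCast_eq_intCast_iff_dvd_sub, ZMod.intCast_eq_intCast_iff_dvd_sub,
          ZMod.intCast_eq_intCast_iff_dvd_sub]
        have hcop : IsCoprime ((2 : ℕ) : ℤ) (q : ℤ) := by
          rw [Nat.isCoprime_iff_coprime, Nat.coprime_two_left, Nat.odd_iff]
          omega
        constructor
        · rintro ⟨ha, hb⟩
          push_cast
          exact_mod_cast hcop.mul_dvd ha hb
        · intro hd
          push_cast at hd
          constructor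
          · exact_mod_cast (dvd_mul_right _ _).trans hd
          · exact (dvd_mul_left _ _).trans hd
      by_cases hc : (s : ZMod 2) = κ ∧ (s : ZMod q) = 2 * h
      · rw [if_pos hc, if_pos (e3.mp hc)]
      · rw [if_neg hc, if_neg (fun h' ↦ hc (e3.mpr h'))]
    rw [TH_congr h2, h1]
    congr 1
    refine congrFun (TH_congr (fun s ↦ ?_) _) τ
    have h3 : h * (s : ZMod q) = (((h.val : ℤ) * s : ℤ) : ZMod q) := by push_cast; simp
    rw [h3, psi_coe, ← Complex.exp_add]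
    congr 1
    rw [hr]
    push_cast
    field_simp
  have hB : ∀ κ : ZMod 2, TH (c1 κ) 2 (ModularGroup.S • τ) =
      1 / (I * (2 : ℕ) / τ) ^ (1 / 2 : ℂ) *
        TH (fun s ↦ cexp (π * I * ((κ.val : ℤ) * s : ℤ))) 2 τ := by
    intro κ
    have h1 := TH_S 2 two_pos (κ.val : ℤ) τ
    have h2 : ∀ s : ℤ, c1 κ s = if (s : ZMod 2) = ((κ.val : ℤ) : ZMod 2) then 1 else 0 := by
      intro s
      unfold c1
      simp
    rw [TH_congr h2, h1]
    congr 1
    refine congrFun (TH_congr (fun s ↦ ?_) _) τ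
    congr 1
    push_cast
    ring
  set a0 := TH (fun s ↦ c1 0 s * psi q (h * s)) (2 * q) τ with ha0
  set a1 := TH (fun s ↦ c1 1 s * psi q (h * s)) (2 * q) τ with ha1
  set b0 := TH (c1 0) 2 τ with hb0
  set b1 := TH (c1 1) 2 τ with hb1
  have e0 : ∀ s : ℤ, cexp (π * I * (((0 : ZMod 2).val : ℤ) * s : ℤ)) = 1 := by
    intro s; simp
  have e1 : ∀ s : ℤ, cexp (π * I * (((1 : ZMod 2).val : ℤ) * s : ℤ)) = cexp (π * I * s) := by
    intro s
    have : ((1 : ZMod 2).val : ℤ) = 1 := rfl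
    rw [this, one_mul]
  have hA0 : TH (fun s ↦ cexp (π * I * (((0 : ZMod 2).val : ℤ) * s : ℤ)) * psi q (h * s))
      (2 * q) τ = a0 + a1 := by
    rw [ha0, ha1, ← TH_add (norm_c1_psi q 0 h) (norm_c1_psi q 1 h) _ hpos]
    refine congrFun (TH_congr (fun s ↦ ?_) _) τ
    rw [e0, ← add_mul, c1_zero_add]
  have hA1 : TH (fun s ↦ cexp (π * I * (((1 : ZMod 2).val : ℤ) * s : ℤ)) * psi q (h * s))
      (2 * q) τ = a0 - a1 := by
    rw [ha0, ha1, ← TH_sub (norm_c1_psi q 0 h) (norm_c1_psi q 1 h) _ hpos]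
    refine congrFun (TH_congr (fun s ↦ ?_) _) τ
    rw [e1, ← sub_mul, c1_zero_sub]
  have hB0 : TH (fun s ↦ cexp (π * I * (((0 : ZMod 2).val : ℤ) * s : ℤ))) 2 τ = b0 + b1 := by
    rw [hb0, hb1, ← TH_add (norm_c1 0) (norm_c1 1) _ two_pos]
    refine congrFun (TH_congr (fun s ↦ ?_) _) τ
    rw [e0, c1_zero_add]
  have hB1 : TH (fun s ↦ cexp (π * I * (((1 : ZMod 2).val : ℤ) * s : ℤ))) 2 τ = b0 - b1 := by
    rw [hb0, hb1, ← TH_sub (norm_c1 0) (norm_c1 1) _ two_pos]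
    refine congrFun (TH_congr (fun s ↦ ?_) _) τ
    rw [e1, c1_zero_sub]
  have hsum : Phi q h (ModularGroup.S • τ) =
      TH (c2 q 0 h) (2 * q) (ModularGroup.S • τ) * TH (c1 0) 2 (ModularGroup.S • τ) +
      TH (c2 q 1 h) (2 * q) (ModularGroup.S • τ) * TH (c1 1) 2 (ModularGroup.S • τ) :=
    Fin.sum_univ_two _
  rw [hsum, hA, hA, hB, hB, hA0, hA1, hB0, hB1]
  have hR : ∑ h' : ZMod q, psi q (2 * h * h') * Phi q h' τ = a0 * b0 + a1 * b1 := by
    rw [ha0, ha1, TH_split q hq4, TH_split q hq4, Finset.sum_mul, Finset.sum_mul,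
      ← Finset.sum_add_distrib]
    refine Finset.sum_congr rfl fun h' _ ↦ ?_
    have : Phi q h' τ = TH (c2 q 0 h') (2 * q) τ * TH (c1 0) 2 τ +
      TH (c2 q 1 h') (2 * q) τ * TH (c1 1) 2 τ := Fin.sum_univ_two _
    rw [this, hb0, hb1]
    ring
  rw [hR]
  -- the constant
  have hw : (I * (2 : ℕ) / τ : ℂ) ≠ 0 := by
    push_cast
    exact div_ne_zero (mul_ne_zero I_ne_zero two_ne_zero) hτ
  have hqR : (0 : ℝ) < q := by exact_mod_cast hq.out.pos
  have h1 := sqrt_prod hqR hw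
  have h2 : (((q : ℝ) : ℂ) * (I * (2 : ℕ) / τ)) = I * (2 * q : ℕ) / τ := by push_cast; ring
  rw [h2] at h1
  have hsq : ((√(q : ℝ) : ℝ) : ℂ) ≠ 0 := by
    have : √(q : ℝ) ≠ 0 := (Real.sqrt_pos.mpr hqR).ne'
    exact_mod_cast this
  set X := (I * (2 * q : ℕ) / τ : ℂ) ^ (1 / 2 : ℂ) with hX
  set Y := (I * (2 : ℕ) / τ : ℂ) ^ (1 / 2 : ℂ) with hY
  have hXY : X * Y ≠ 0 := by rw [h1]; exact mul_ne_zero hsq hw
  have hX0 : X ≠ 0 := left_ne_zero_of_mul hXY
  have hY0 : Y ≠ 0 := right_ne_zero_of_mul hXY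
  have h3 : (1 / X) * (1 / Y) = 1 / ((√(q : ℝ) : ℝ) * (I * (2 : ℕ) / τ)) := by
    rw [← h1]; field_simp
  have h4 : 1 / X * (a0 + a1) * (1 / Y * (b0 + b1)) + 1 / X * (a0 - a1) * (1 / Y * (b0 - b1)) =
      (1 / X) * (1 / Y) * (2 * (a0 * b0 + a1 * b1)) := by ring
  rw [h4, h3]
  push_cast
  field_simp

end

end Fermat.Agent.Mazur16
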