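import Fermat.Agent.Mazur16.Theta2

/-!
# The multiplier system of the binary theta series
-/

set_option autoImplicit false

open UpperHalfPlane hiding I
open Complex Matrix.SpecialLinearGroup
open scoped Real MatrixGroups ModularForm Manifold

namespace Fermat.Agent.Mazur16

noncomputable section

variable (q : ℕ) [hq : Fact q.Prime]

/-- the constant `1 / (i √q)` -/
def cc : ℂ := 1 / (I * (√(q : ℝ) : ℝ))

omit hq in
lemma cc_sq : cc q ^ 2 = -1 / q := by
  have hqR : (0 : ℝ) ≤ q := by positivity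
  have h1 : ((√(q : ℝ) : ℝ) : ℂ) ^ 2 = q := by
    rw [← Complex.ofReal_pow, Real.sq_sqrt hqR]; simp
  rw [cc, div_pow, mul_pow, h1, I_sq]
  field_simp

lemma cc_ne_zero : cc q ≠ 0 := by
  intro h
  have h1 := cc_sq q
  rw [h] at h1
  have hq0 : (q : ℂ) ≠ 0 := by exact_mod_cast hq.out.ne_zero
  field_simp at h1
  norm_num at h1

/-- translates of the theta series at the other cusp -/
def WW (j : ZMod q) (τ : ℍ) : ℂ := cc q * ∑ h : ZMod q, psi q (j * h ^ 2) * Phi q h τ

/-- quadratic Gauss sum -/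
def Gs (j : ZMod q) : ℂ := ∑ h : ZMod q, psi q (j * h ^ 2)

/-- the quadratic character, with complex values -/
def chi : MulChar (ZMod q) ℂ := (quadraticChar (ZMod q)).ringHomComp (Int.castRingHom ℂ)

lemma chi_apply (a : ZMod q) : chi q a = (quadraticChar (ZMod q) a : ℂ) := rfl

variable (hq4 : q % 4 = 3)

include hq4

lemma chi_neg_one : chi q (-1) = -1 := by
  rw [chi_apply, quadraticChar_neg_one (by rw [ZMod.ringChar_zmod_n]; omega), ZMod.card,
    ZMod.χ₄_nat_three_mod_four hq4]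
  simp

lemma chi_ne_one : chi q ≠ 1 := by
  intro h
  have h1 := chi_neg_one q hq4
  rw [h] at h1
  have h2 : (1 : MulChar (ZMod q) ℂ) (-1) = 1 := MulChar.one_apply (isUnit_one.neg)
  rw [h2] at h1
  norm_num at h1

omit hq4 in
lemma chi_isQuadratic : (chi q).IsQuadratic := (quadraticChar_isQuadratic (ZMod q)).comp _

omit hq4 in
lemma chi_sq {j : ZMod q} (hj : j ≠ 0) : chi q j * chi q j = 1 := by
  rw [chi_apply]
  have := quadraticChar_sq_one hj
  have h2 : ((quadraticChar (ZMod q) j ^ 2 : ℤ) : ℂ) = 1 := by rw [this]; simp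
  push_cast at h2
  rw [← h2]; ring

lemma Gs_eq {j : ZMod q} (hj : j ≠ 0) : Gs q j = gaussSum (chi q) ((psi q).mulShift j) := by
  have h1 : Gs q j = ∑ x : ZMod q, ((quadraticChar (ZMod q) x + 1 : ℤ) : ℂ) * psi q (j * x) := by
    rw [Gs, ← Finset.sum_fiberwise (s := Finset.univ) (g := fun h : ZMod q ↦ h ^ 2)]
    refine Finset.sum_congr rfl fun x _ ↦ ?_
    have h2 : ∀ h ∈ Finset.univ.filter (fun h : ZMod q ↦ h ^ 2 = x),
        psi q (j * h ^ 2) = psi q (j * x) := by
      intro h hh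
      rw [(Finset.mem_filter.mp hh).2]
    rw [Finset.sum_congr rfl h2, Finset.sum_const, nsmul_eq_mul]
    congr 1
    have h3 := quadraticChar_card_sqrts (F := ZMod q) (by rw [ZMod.ringChar_zmod_n]; omega) x
    rw [← h3]
    push_cast
    congr 1
    congr 1
    ext h
    simp
  rw [h1, gaussSum]
  have h4 : ∑ x : ZMod q, psi q (j * x) = 0 := by
    have := AddChar.sum_mulShift j (ZMod.isPrimitive_stdAddChar q)
    rw [if_neg hj, Nat.cast_zero] at this
    rw [← this]
    exact Finset.sum_congr rfl fun x _ ↦ by rw [mul_comm]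
  have h5 : ∀ x : ZMod q, ((quadraticChar (ZMod q) x + 1 : ℤ) : ℂ) * psi q (j * x) =
      chi q x * (psi q).mulShift j x + psi q (j * x) := by
    intro x
    rw [AddChar.mulShift_apply, chi_apply]
    push_cast
    ring
  simp_rw [h5]
  rw [Finset.sum_add_distrib, h4, add_zero]

lemma Gs_mul {j : ZMod q} (hj : j ≠ 0) : Gs q j = chi q j * Gs q 1 := by
  rw [Gs_eq q hq4 hj, Gs_eq q hq4 one_ne_zero]
  have h1 := gaussSum_mulShift (chi q) (psi q) (Units.mk0 j hj)
  have h2 : (psi q).mulShift 1 = psi q := by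
    ext x; rw [AddChar.mulShift_apply, one_mul]
  rw [h2, ← h1, Units.val_mk0, ← mul_assoc, chi_sq q hj, one_mul]

lemma Gs_one_sq : Gs q 1 ^ 2 = -q := by
  rw [Gs_eq q hq4 one_ne_zero]
  have h2 : (psi q).mulShift 1 = psi q := by
    ext x; rw [AddChar.mulShift_apply, one_mul]
  rw [h2, gaussSum_sq (chi_ne_one q hq4) (chi_isQuadratic q) (ZMod.isPrimitive_stdAddChar q),
    chi_neg_one q hq4, ZMod.card]
  ring

omit hq4 in
/-- completing the square -/
lemma sum_sq {j : ZMod q} (hj : j ≠ 0) (h' : ZMod q) :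
    ∑ h : ZMod q, psi q (j * h ^ 2) * psi q (2 * h * h') = Gs q j * psi q (-j⁻¹ * h' ^ 2) := by
  rw [Gs, Finset.sum_mul, ← Equiv.sum_comp (Equiv.addRight (j⁻¹ * h'))
    (fun h ↦ psi q (j * h ^ 2) * psi q (-j⁻¹ * h' ^ 2))]
  refine Finset.sum_congr rfl fun h _ ↦ ?_
  rw [← AddChar.map_add_eq_mul, ← AddChar.map_add_eq_mul]
  congr 1
  simp only [Equiv.coe_addRight]
  field_simp
  ring

/-- slash of `Phi` by `S`. -/
lemma Phi_slash_S (h : ZMod q) (τ : ℍ) : (Phi q h ∣[(1 : ℤ)] ModularGroup.S) τ =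
    cc q * ∑ h' : ZMod q, psi q (2 * h * h') * Phi q h' τ := by
  rw [ModularForm.SL_slash_apply, ModularGroup.denom_S, Phi_S q hq4, cc]
  have hτ : (τ : ℂ) ≠ 0 := ne_zero τ
  rw [zpow_neg, zpow_one]
  field_simp

omit hq4 in
lemma slash_T_apply (f : ℍ → ℂ) (τ : ℍ) :
    (f ∣[(1 : ℤ)] ModularGroup.T) τ = f ((1 : ℝ) +ᵥ τ) := by
  rw [ModularForm.SL_slash_apply, modular_T_smul]
  simp [ModularGroup.denom_apply, ModularGroup.T]

lemma WW_T (j : ZMod q) : WW q j ∣[(1 : ℤ)] ModularGroup.T = WW q (j + 1) := by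
  ext τ
  rw [slash_T_apply, WW, WW]
  congr 1
  refine Finset.sum_congr rfl fun h _ ↦ ?_
  rw [Phi_T q hq4, ← mul_assoc, ← AddChar.map_add_eq_mul, add_mul, one_mul]

lemma Phi_zero_T : Phi q 0 ∣[(1 : ℤ)] ModularGroup.T = Phi q 0 := by
  ext τ
  rw [slash_T_apply, Phi_T q hq4]
  simp

lemma Phi_zero_S : Phi q 0 ∣[(1 : ℤ)] ModularGroup.S = WW q 0 := by
  ext τ
  rw [Phi_slash_S q hq4, WW]
  congr 1
  refine Finset.sum_congr rfl fun h _ ↦ ?_
  simp

omit hq4 in
lemma slash_neg_one (f : ℍ → ℂ) : f ∣[(1 : ℤ)] (-1 : SL(2, ℤ)) = -f := by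
  ext τ
  rw [ModularForm.SL_slash_apply]
  have h1 : (-1 : SL(2, ℤ)) • τ = τ := by
    rw [ModularGroup.SL_neg_smul, one_smul]
  rw [h1, ModularGroup.denom_apply]
  simp

omit hq4 in
lemma SS_eq : ModularGroup.S * ModularGroup.S = (-1 : SL(2, ℤ)) := by
  ext i j
  fin_cases i <;> fin_cases j <;> simp [ModularGroup.S]

lemma WW_zero_S : WW q 0 ∣[(1 : ℤ)] ModularGroup.S = - Phi q 0 := by
  rw [← Phi_zero_S q hq4, ← SlashAction.slash_mul, SS_eq, slash_neg_one]

/-- the sign -/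
def eps : ℂ := cc q * Gs q 1

lemma eps_sq : eps q ^ 2 = 1 := by
  have hq0 : (q : ℂ) ≠ 0 := by exact_mod_cast hq.out.ne_zero
  rw [eps, mul_pow, cc_sq, Gs_one_sq q hq4]
  field_simp

lemma WW_S' {j : ZMod q} (hj : j ≠ 0) :
    WW q j ∣[(1 : ℤ)] ModularGroup.S = (eps q * chi q j) • WW q (-j⁻¹) := by
  ext τ
  have h1 : (WW q j ∣[(1 : ℤ)] ModularGroup.S) τ =
      cc q * ∑ h : ZMod q, psi q (j * h ^ 2) * (Phi q h ∣[(1 : ℤ)] ModularGroup.S) τ := by
    simp only [ModularForm.SL_slash_apply, WW]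
    rw [mul_assoc, Finset.sum_mul]
    simp only [mul_assoc]
  rw [h1, Pi.smul_apply, smul_eq_mul, WW]
  simp_rw [Phi_slash_S q hq4]
  have h2 : ∑ h : ZMod q, psi q (j * h ^ 2) *
      (cc q * ∑ h' : ZMod q, psi q (2 * h * h') * Phi q h' τ) =
      cc q * ∑ h' : ZMod q, (Gs q j * psi q (-j⁻¹ * h' ^ 2)) * Phi q h' τ := by
    simp_rw [← sum_sq q hj, Finset.mul_sum, Finset.sum_mul, Finset.mul_sum]
    rw [Finset.sum_comm]
    refine Finset.sum_congr rfl fun h' _ ↦ Finset.sum_congr rfl fun h _ ↦ ?_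
    ring
  rw [h2, Gs_mul q hq4 hj, eps]
  simp_rw [Finset.mul_sum]
  refine Finset.sum_congr rfl fun h' _ ↦ ?_
  ring

omit hq4 in
lemma ST_cube : ModularGroup.S * ModularGroup.T * ModularGroup.S * ModularGroup.T *
    ModularGroup.S * ModularGroup.T = (-1 : SL(2, ℤ)) := by
  ext i j
  fin_cases i <;> fin_cases j <;> simp [ModularGroup.S, ModularGroup.T]

/-- the sign is one -/
lemma eps_eq_one (hne : Phi q 0 ≠ 0) : eps q = 1 := by
  have h1 : Phi q 0 ∣[(1 : ℤ)] (ModularGroup.S * ModularGroup.T * ModularGroup.S * ModularGroup.T *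
    ModularGroup.S * ModularGroup.T) = -(eps q • Phi q 0) := by
    simp only [SlashAction.slash_mul]
    rw [Phi_zero_S q hq4, WW_T q hq4, zero_add, WW_S' q hq4 one_ne_zero, map_one, mul_one,
      inv_one, ModularForm.SL_smul_slash, WW_T q hq4, neg_add_cancel, ModularForm.SL_smul_slash,
      WW_zero_S q hq4, ModularForm.SL_smul_slash, SlashAction.neg_slash, Phi_zero_T q hq4,
      smul_neg]
  rw [ST_cube, slash_neg_one] at h1
  have h2 : Phi q 0 = eps q • Phi q 0 := neg_injective h1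
  obtain ⟨τ, hτ⟩ : ∃ τ, Phi q 0 τ ≠ 0 := by
    by_contra hcon
    push Not at hcon
    exact hne (funext hcon)
  have h3 := congrFun h2 τ
  rw [Pi.smul_apply, smul_eq_mul] at h3
  have h4 : (eps q - 1) * Phi q 0 τ = 0 := by linear_combination -h3
  rcases mul_eq_zero.mp h4 with h5 | h5
  · linear_combination h5
  · exact absurd h5 hτ

/-- the value of `Phi 0 ∣ γ` in terms of the bottom row of `γ`. -/
def QQ (c d : ZMod q) : ℍ → ℂ :=
  if c = 0 then chi q d • Phi q 0 else chi q c • WW q (d / c)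

omit hq4 in
lemma QQ_zero (d : ZMod q) : QQ q 0 d = chi q d • Phi q 0 := if_pos rfl

omit hq4 in
lemma QQ_ne {c : ZMod q} (hc : c ≠ 0) (d : ZMod q) : QQ q c d = chi q c • WW q (d / c) :=
  if_neg hc

lemma QQ_T (c d : ZMod q) : QQ q c d ∣[(1 : ℤ)] ModularGroup.T = QQ q c (c + d) := by
  by_cases hc : c = 0
  · subst hc
    rw [QQ_zero, QQ_zero, zero_add, ModularForm.SL_smul_slash, Phi_zero_T q hq4]
  · rw [QQ_ne q hc, QQ_ne q hc, ModularForm.SL_smul_slash, WW_T q hq4]
    congr 2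
    field_simp
    ring

lemma QQ_neg (c d : ZMod q) : QQ q (-c) (-d) = -QQ q c d := by
  have h1 : ∀ a : ZMod q, chi q (-a) = -chi q a := by
    intro a
    rw [neg_eq_neg_one_mul, map_mul, chi_neg_one q hq4]
    ring
  by_cases hc : c = 0
  · subst hc
    rw [neg_zero, QQ_zero, QQ_zero, h1, _root_.neg_smul]
  · rw [QQ_ne q hc, QQ_ne q (neg_ne_zero.mpr hc), h1, _root_.neg_smul, neg_div_neg_eq]

lemma QQ_S (hne : Phi q 0 ≠ 0) {c d : ZMod q} (hcd : c ≠ 0 ∨ d ≠ 0) :
    QQ q c d ∣[(1 : ℤ)] ModularGroup.S = QQ q d (-c) := by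
  by_cases hc : c = 0
  · subst hc
    have hd : d ≠ 0 := by simpa using hcd
    rw [QQ_zero, QQ_ne q hd, neg_zero, zero_div, ModularForm.SL_smul_slash, Phi_zero_S q hq4]
  · by_cases hd : d = 0
    · subst hd
      rw [QQ_ne q hc, zero_div, ModularForm.SL_smul_slash, WW_zero_S q hq4, QQ_zero,
        neg_eq_neg_one_mul c, map_mul, chi_neg_one q hq4]
      ext τ
      simp
    · rw [QQ_ne q hc, QQ_ne q hd, ModularForm.SL_smul_slash,
        WW_S' q hq4 (div_ne_zero hd hc), eps_eq_one q hq4 hne, one_mul, smul_smul, ← map_mul]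
      congr 2
      · field_simp
      · field_simp

/-- The transformation formula under the full modular group. -/
theorem Phi_slash (hne : Phi q 0 ≠ 0) (γ : SL(2, ℤ)) :
    Phi q 0 ∣[(1 : ℤ)] γ = QQ q (γ 1 0 : ℤ) (γ 1 1 : ℤ) := by
  have hcd : ∀ γ : SL(2, ℤ), ((γ 1 0 : ℤ) : ZMod q) ≠ 0 ∨ ((γ 1 1 : ℤ) : ZMod q) ≠ 0 := by
    intro γ
    by_contra hcon
    push Not at hcon
    have hdet := γ.det_coe
    rw [Matrix.det_fin_two] at hdet
    have h1 := congrArg (Int.cast : ℤ → ZMod q) hdet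
    push_cast at h1
    rw [hcon.1, hcon.2] at h1
    simp at h1
  have hTinv : ∀ c d : ZMod q, QQ q c d ∣[(1 : ℤ)] ModularGroup.T⁻¹ = QQ q c (d - c) := by
    intro c d
    have h1 := QQ_T q hq4 c (d - c)
    rw [add_sub_cancel] at h1
    rw [← h1, ← SlashAction.slash_mul, mul_inv_cancel, SlashAction.slash_one]
  have hmem : γ ∈ Subgroup.closure {ModularGroup.S, ModularGroup.T} := by
    rw [SpecialLinearGroup.SL2Z_generators]; trivial
  induction hmem using Subgroup.closure_induction_right with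
  | one =>
    rw [SlashAction.slash_one]
    have h1 : (((1 : SL(2, ℤ)) 1 0 : ℤ) : ZMod q) = 0 := by simp
    have h2 : (((1 : SL(2, ℤ)) 1 1 : ℤ) : ZMod q) = 1 := by simp
    rw [h1, h2, QQ_zero, map_one, one_smul]
  | mul_right x _ y hy ih =>
    rcases hy with rfl | rfl
    · rw [SlashAction.slash_mul, ih, QQ_S q hq4 hne (hcd x)]
      congr 1
      · simp [Matrix.mul_apply, Fin.sum_univ_two, ModularGroup.S]
      · simp [Matrix.mul_apply, Fin.sum_univ_two, ModularGroup.S]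
    · rw [SlashAction.slash_mul, ih, QQ_T q hq4]
      congr 1
      · simp [Matrix.mul_apply, Fin.sum_univ_two, ModularGroup.T]
      · simp [Matrix.mul_apply, Fin.sum_univ_two, ModularGroup.T]
  | mul_inv_cancel x _ y hy ih =>
    rcases hy with rfl | rfl
    · have hS : x * ModularGroup.S⁻¹ = x * ModularGroup.S * (-1) := by
        rw [← SS_eq]
        have h4 : ModularGroup.S * (ModularGroup.S * (ModularGroup.S * ModularGroup.S)) =
            (1 : SL(2, ℤ)) := by
          rw [SS_eq, ← mul_assoc, SS_eq]; simp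
        rw [eq_comm, eq_mul_inv_iff_mul_eq]
        simp only [mul_assoc]
        rw [h4, mul_one]
      rw [hS, SlashAction.slash_mul, SlashAction.slash_mul, ih, QQ_S q hq4 hne (hcd x),
        slash_neg_one, ← QQ_neg q hq4]
      congr 1
      · simp [Matrix.mul_apply, Fin.sum_univ_two, ModularGroup.S]
      · simp [Matrix.mul_apply, Fin.sum_univ_two, ModularGroup.S]
    · rw [SlashAction.slash_mul, ih, hTinv]
      congr 1
      · simp [Matrix.mul_apply, Fin.sum_univ_two, ModularGroup.T]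
      · simp [Matrix.mul_apply, Fin.sum_univ_two, ModularGroup.T]
        ring

end

end Fermat.Agent.Mazur16
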