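import Fermat.Agent.Mazur16.Theta3
import Fermat.Agent.Mazur16.IP

/-!
# A weight two form on `Γ₀(p)` from binary theta series
-/

set_option autoImplicit false

open UpperHalfPlane hiding I
open Complex Matrix.SpecialLinearGroup CongruenceSubgroup
open scoped Real MatrixGroups ModularForm Manifold

namespace Fermat.Agent.Mazur16

open Fermat.Agent.IntStr

noncomputable section

variable (p q : ℕ) [hp : Fact p.Prime] [hq : Fact q.Prime]

lemma dil_eq_slash_one (f : ℍ → ℂ) : dil p f = f ∣[(1 : ℤ)] ModularForm.heckeDiagMatrix p := by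
  ext τ
  rw [ModularForm.slash_heckeDiagMatrix_apply 1 hp.out.ne_zero]
  simp [dil]

/-- conjugating an element of `Γ₀(p)` by `diag(p,1)`. -/
lemma exists_conj_diag {γ : SL(2, ℤ)} {c : ℤ} (hc : γ 1 0 = p * c) :
    ∃ γ' : SL(2, ℤ), γ' 1 0 = c ∧ γ' 1 1 = γ 1 1 ∧
      ModularForm.heckeDiagMatrix p * (mapGL ℝ γ : GL (Fin 2) ℝ) =
        mapGL ℝ γ' * ModularForm.heckeDiagMatrix p := by
  have hN := hp.out.ne_zero
  have hdet : γ 0 0 * γ 1 1 - γ 0 1 * γ 1 0 = 1 := by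
    have := γ.det_coe
    rwa [Matrix.det_fin_two] at this
  let γ' : SL(2, ℤ) := ⟨!![γ 0 0, p * γ 0 1; c, γ 1 1], by
    rw [Matrix.det_fin_two_of]; rw [hc] at hdet; linear_combination hdet⟩
  refine ⟨γ', rfl, rfl, ?_⟩
  apply Units.ext
  rw [Units.val_mul, Units.val_mul, val_mapGL_eq, val_mapGL_eq,
    ModularForm.val_heckeDiagMatrix hN]
  have e00 : ((γ' 0 0 : ℤ) : ℝ) = γ 0 0 := rfl
  have e01 : ((γ' 0 1 : ℤ) : ℝ) = p * γ 0 1 := by
    have : γ' 0 1 = p * γ 0 1 := rfl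
    rw [this]; push_cast; ring
  have e10 : ((γ' 1 0 : ℤ) : ℝ) = c := rfl
  have e11 : ((γ' 1 1 : ℤ) : ℝ) = γ 1 1 := rfl
  have hcR : ((γ 1 0 : ℤ) : ℝ) = p * c := by exact_mod_cast hc
  rw [e00, e01, e10, e11]
  ext i j
  fin_cases i <;> fin_cases j <;> simp [Matrix.mul_apply, Fin.sum_univ_two]
  · ring
  · rw [hcR]; ring

/-- the product theta series of weight two. -/
def FF : ℍ → ℂ := Phi q 0 * dil p (Phi q 0)

/-- the value of `FF ∣ γ`, `γ ∈ Γ₀(p)`, in terms of the bottom row. -/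
def HH (c d : ZMod q) : ℍ → ℂ := QQ q c d * dil p (QQ q (c / p) d)

variable (hq4 : q % 4 = 3) (hpq : p ≠ q) (hne : Phi q 0 ≠ 0)

include hq4 hne hpq

omit hq4 hne in
lemma p_ne_zero : (p : ZMod q) ≠ 0 := by
  intro h
  rw [ZMod.natCast_eq_zero_iff] at h
  exact hpq ((Nat.prime_dvd_prime_iff_eq hq.out hp.out).mp h).symm

lemma FF_slash {γ : SL(2, ℤ)} (hγ : γ ∈ Gamma0 p) :
    FF p q ∣[(2 : ℤ)] γ = HH p q (γ 1 0 : ℤ) (γ 1 1 : ℤ) := by
  obtain ⟨c, hc⟩ := mem_Gamma0_iff_dvd.mp hγ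
  obtain ⟨γ', h10, h11, hconj⟩ := exists_conj_diag p hc
  have h1 : dil p (Phi q 0) ∣[(1 : ℤ)] γ = dil p (QQ q (c : ℤ) (γ 1 1 : ℤ)) := by
    rw [dil_eq_slash_one, ModularForm.SL_slash, ← SlashAction.slash_mul,
      show (((γ : SL(2, ℤ)) : GL (Fin 2) ℝ)) = mapGL ℝ γ from rfl, hconj, SlashAction.slash_mul]
    have h2 := Phi_slash q hq4 hne γ'
    rw [h10, h11] at h2
    rw [dil_eq_slash_one, ← h2]
    rfl
  have h3 : FF p q ∣[(2 : ℤ)] γ = (Phi q 0 ∣[(1 : ℤ)] γ) * (dil p (Phi q 0) ∣[(1 : ℤ)] γ) := by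
    rw [FF, show (2 : ℤ) = 1 + 1 by norm_num, ModularForm.mul_slash_SL2]
  rw [h3, h1, Phi_slash q hq4 hne, HH]
  congr 3
  rw [hc]
  have := p_ne_zero p q hpq
  push_cast
  field_simp

omit hq4 hne hpq hp in
lemma chi_sq' {a : ZMod q} (ha : a ≠ 0) : chi q a ^ 2 = 1 := by
  rw [pow_two, chi_sq q ha]

omit hq4 hne hpq hp in
lemma HH_smul {a : ZMod q} (ha : a ≠ 0) (c d : ZMod q) : HH p q (a * c) (a * d) = HH p q c d := by
  have hQ : ∀ c d, QQ q (a * c) (a * d) = chi q a • QQ q c d := by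
    intro c d
    by_cases hc : c = 0
    · subst hc
      rw [mul_zero, QQ_zero, QQ_zero, map_mul, smul_smul]
    · rw [QQ_ne q hc, QQ_ne q (mul_ne_zero ha hc), map_mul, smul_smul, mul_div_mul_left _ _ ha]
  rw [HH, HH, mul_div_assoc, hQ, hQ, dil_smul, smul_mul_smul_comm, chi_sq q ha, one_smul]

/-- point of the projective line attached to a row -/
def idx (c d : ZMod q) : Option (ZMod q) := if c = 0 then none else some (d / c)

/-- values indexed by the projective line -/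
def HP : Option (ZMod q) → ℍ → ℂ
  | none => HH p q 0 1
  | some j => HH p q 1 j

omit hq4 hne hpq hp in
lemma HH_idx {c d : ZMod q} (hcd : c ≠ 0 ∨ d ≠ 0) : HH p q c d = HP p q (idx q c d) := by
  by_cases hc : c = 0
  · subst hc
    have hd : d ≠ 0 := by simpa using hcd
    rw [idx, if_pos rfl, HP]
    have := HH_smul p q hd 0 1
    rwa [mul_zero, mul_one] at this
  · rw [idx, if_neg hc, HP]
    have := HH_smul p q hc 1 (d / c)
    rwa [mul_one, mul_div_cancel₀ _ hc] at this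

omit hq4 hne hpq hp in
lemma idx_eq_iff {c d c' d' : ZMod q} (h : c ≠ 0 ∨ d ≠ 0) (h' : c' ≠ 0 ∨ d' ≠ 0) :
    idx q c d = idx q c' d' ↔ c * d' = d * c' := by
  unfold idx
  by_cases hc : c = 0
  · subst hc
    have hd : d ≠ 0 := by simpa using h
    by_cases hc' : c' = 0
    · simp [hc']
    · simp [hc', hd]
  · by_cases hc' : c' = 0
    · subst hc'
      have hd' : d' ≠ 0 := by simpa using h'
      simp [hc, hd']
    · rw [if_neg hc, if_neg hc', Option.some_inj, div_eq_div_iff hc hc', mul_comm c d']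
      exact eq_comm

/-- the point of the projective line attached to a matrix -/
def ix (γ : SL(2, ℤ)) : Option (ZMod q) := idx q (γ 1 0 : ℤ) (γ 1 1 : ℤ)

omit hq4 hne hpq hp in
lemma row_ne (γ : SL(2, ℤ)) :
    ((γ 1 0 : ℤ) : ZMod q) ≠ 0 ∨ ((γ 1 1 : ℤ) : ZMod q) ≠ 0 := by
  by_contra hcon
  push Not at hcon
  have hdet := γ.det_coe
  rw [Matrix.det_fin_two] at hdet
  have h1 := congrArg (Int.cast : ℤ → ZMod q) hdet
  push_cast at h1
  rw [hcon.1, hcon.2] at h1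
  simp at h1

omit hq4 hne hpq hp in
lemma ix_eq_iff (α β : SL(2, ℤ)) : ix q α = ix q β ↔ (((α * β⁻¹) 1 0 : ℤ) : ZMod q) = 0 := by
  rw [ix, ix, idx_eq_iff q (row_ne q α) (row_ne q β)]
  have : (α * β⁻¹) 1 0 = α 1 0 * β 1 1 - α 1 1 * β 1 0 := by
    simp [Matrix.mul_apply, Fin.sum_univ_two, coe_inv, Matrix.adjugate_fin_two]
    ring
  rw [this]
  push_cast
  rw [sub_eq_zero]

omit hq4 hne hpq hp in
lemma ix_mul_eq_iff (α β γ : SL(2, ℤ)) : ix q (α * γ) = ix q (β * γ) ↔ ix q α = ix q β := by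
  rw [ix_eq_iff, ix_eq_iff]
  have : α * γ * (β * γ)⁻¹ = α * β⁻¹ := by group
  rw [this]

lemma FF_slash' {γ : SL(2, ℤ)} (hγ : γ ∈ Gamma0 p) : FF p q ∣[(2 : ℤ)] γ = HP p q (ix q γ) := by
  rw [FF_slash p q hq4 hpq hne hγ, HH_idx p q (row_ne q γ)]; rfl

omit hq4 hne in
lemma exists_bezout : ∃ x y : ℤ, x * q - y * p = 1 := by
  have hcop : IsCoprime (q : ℤ) (p : ℤ) := by
    rw [Nat.isCoprime_iff_coprime, Nat.coprime_primes hq.out hp.out]
    exact hpq.symm
  obtain ⟨a, b, hab⟩ := hcop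
  exact ⟨a, -b, by linarith⟩

/-- the matrix `[[x, y], [p, q]]`. -/
def delta0 : SL(2, ℤ) :=
  ⟨!![(exists_bezout p q hpq).choose, (exists_bezout p q hpq).choose_spec.choose; (p : ℤ), (q : ℤ)],
    by
      rw [Matrix.det_fin_two_of]
      exact (exists_bezout p q hpq).choose_spec.choose_spec⟩

/-- coset representatives -/
def DD : Option (ZMod q) → SL(2, ℤ)
  | none => 1
  | some j => delta0 p q hpq * ModularGroup.T ^ (j.val : ℤ)

omit hq4 hne in
lemma DD_mem (x : Option (ZMod q)) : DD p q hpq x ∈ Gamma0 p := by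
  rcases x with _ | j
  · exact one_mem _
  · rw [mem_Gamma0_iff_dvd]
    simp [DD, delta0, Matrix.mul_apply, Fin.sum_univ_two, ModularGroup.coe_T_zpow]

omit hq4 hne in
lemma ix_DD (x : Option (ZMod q)) : ix q (DD p q hpq x) = x := by
  have hp0 := p_ne_zero p q hpq
  rcases x with _ | j
  · simp [DD, ix, idx]
  · have h1 : (((DD p q hpq (some j)) 1 0 : ℤ) : ZMod q) = p := by
      simp [DD, delta0, Matrix.mul_apply, Fin.sum_univ_two, ModularGroup.coe_T_zpow]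
    have h2 : (((DD p q hpq (some j)) 1 1 : ℤ) : ZMod q) = p * j := by
      simp [DD, delta0, Matrix.mul_apply, Fin.sum_univ_two, ModularGroup.coe_T_zpow]
    rw [ix, h1, h2, idx, if_neg hp0, mul_div_cancel_left₀ _ hp0]

/-- The trace to level `p`. -/
def GG : ℍ → ℂ := ∑ x : Option (ZMod q), FF p q ∣[(2 : ℤ)] DD p q hpq x

lemma GG_slash {γ : SL(2, ℤ)} (hγ : γ ∈ Gamma0 p) : GG p q hpq ∣[(2 : ℤ)] γ = GG p q hpq := by
  have hsum : ∀ (s : Finset (Option (ZMod q))) (φ : Option (ZMod q) → ℍ → ℂ),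
      (∑ x ∈ s, φ x) ∣[(2 : ℤ)] γ = ∑ x ∈ s, φ x ∣[(2 : ℤ)] γ := by
    intro s φ
    classical
    induction s using Finset.induction_on with
    | empty => simp [SlashAction.zero_slash]
    | insert a s ha ih => rw [Finset.sum_insert ha, Finset.sum_insert ha, SlashAction.add_slash, ih]
  rw [GG, hsum]
  have hbij : Function.Bijective (fun x : Option (ZMod q) ↦ ix q (DD p q hpq x * γ)) := by
    rw [Fintype.bijective_iff_injective_and_card]
    refine ⟨fun x y hxy ↦ ?_, rfl⟩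
    have h1 := (ix_mul_eq_iff q (DD p q hpq x) (DD p q hpq y) γ).mp hxy
    rwa [ix_DD, ix_DD] at h1
  have h1 : ∀ x, (FF p q ∣[(2 : ℤ)] DD p q hpq x) ∣[(2 : ℤ)] γ =
      HP p q (ix q (DD p q hpq x * γ)) := by
    intro x
    rw [← SlashAction.slash_mul, FF_slash' p q hq4 hpq hne (mul_mem (DD_mem p q hpq x) hγ)]
  have h2 : ∀ x, FF p q ∣[(2 : ℤ)] DD p q hpq x = HP p q x := by
    intro x
    rw [FF_slash' p q hq4 hpq hne (DD_mem p q hpq x), ix_DD]
  simp_rw [h1, h2]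
  exact hbij.sum_comp (HP p q)

end

end Fermat.Agent.Mazur16
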