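import Fermat.Agent.Mazur16.Theta4

/-!
# `GG` is a modular form, and its expression through `U_q`
-/

set_option autoImplicit false

open UpperHalfPlane hiding I
open Complex Matrix.SpecialLinearGroup CongruenceSubgroup
open scoped Real MatrixGroups ModularForm Manifold

namespace Fermat.Agent.Mazur16

open Fermat.Agent.IntStr

noncomputable section

variable (p q : ℕ) [hp : Fact p.Prime] [hq : Fact q.Prime]

lemma isBdd_sum {ι : Type*} (s : Finset ι) {φ : ι → ℍ → ℂ}
    (h : ∀ i ∈ s, IsBoundedAtImInfty (φ i)) : IsBoundedAtImInfty (∑ i ∈ s, φ i) := by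
  classical
  induction s using Finset.induction_on with
  | empty => rw [Finset.sum_empty]; exact Filter.const_boundedAtFilter _ (0 : ℂ)
  | insert a s ha ih =>
    rw [Finset.sum_insert ha]
    exact (h a (by simp)).add (ih fun i hi ↦ h i (by simp [hi]))

lemma mdiff_sum {ι : Type*} (s : Finset ι) {φ : ι → ℍ → ℂ}
    (h : ∀ i ∈ s, MDiff (φ i)) : MDiff (∑ i ∈ s, φ i) := by
  classical
  induction s using Finset.induction_on with
  | empty => rw [Finset.sum_empty]; exact (mdifferentiable_const : MDiff (fun _ : ℍ ↦ (0 : ℂ)))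
  | insert a s ha ih =>
    rw [Finset.sum_insert ha]
    exact (h a (by simp)).add (ih fun i hi ↦ h i (by simp [hi]))

lemma WW_eq (j : ZMod q) : WW q j = cc q • ∑ h : ZMod q, psi q (j * h ^ 2) • Phi q h := by
  ext τ
  simp [WW]

lemma WW_bdd (j : ZMod q) : IsBoundedAtImInfty (WW q j) := by
  rw [WW_eq]
  exact (isBdd_sum _ fun h _ ↦ (Phi_bdd q h).const_smul_left _).const_smul_left _

lemma QQ_bdd (c d : ZMod q) : IsBoundedAtImInfty (QQ q c d) := by
  unfold QQ
  split_ifs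
  · exact (Phi_bdd q 0).const_smul_left _
  · exact (WW_bdd q _).const_smul_left _

variable (hq4 : q % 4 = 3) (hpq : p ≠ q) (hne : Phi q 0 ≠ 0)

include hq4

lemma QF_Phi : QF (Phi q 0) where
  per := by
    rw [per_iff]
    intro τ
    rw [Phi_T q hq4]
    simp
  hol := Phi_mdiff q 0
  bdd := Phi_bdd q 0

lemma QF_FF : QF (FF p q) := (QF_Phi q hq4).mul ((QF_Phi q hq4).dil hp.out.ne_zero)

include hne hpq

omit hpq in
lemma FF_slash_bdd (γ : SL(2, ℤ)) : IsBoundedAtImInfty (FF p q ∣[(2 : ℤ)] γ) := by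
  have h3 : FF p q ∣[(2 : ℤ)] γ = (Phi q 0 ∣[(1 : ℤ)] γ) * (dil p (Phi q 0) ∣[(1 : ℤ)] γ) := by
    rw [FF, show (2 : ℤ) = 1 + 1 by norm_num, ModularForm.mul_slash_SL2]
  have hA : ∀ γ : SL(2, ℤ), IsBoundedAtImInfty (Phi q 0 ∣[(1 : ℤ)] γ) := by
    intro γ
    rw [Phi_slash q hq4 hne]
    exact QQ_bdd q _ _
  have hB : IsBoundedAtImInfty (dil p (Phi q 0) ∣[(1 : ℤ)] γ) := by
    rw [dil_eq_slash_one, ModularForm.SL_slash, ← SlashAction.slash_mul]
    obtain ⟨γ', a, b, d, had, -, -, -, h, -⟩ := exists_hermite hp.out.ne_zero γ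
    rw [show (((γ : SL(2, ℤ)) : GL (Fin 2) ℝ)) = mapGL ℝ γ from rfl, h, SlashAction.slash_mul]
    apply IsBoundedAtImInfty.slash
    · rw [ModularForm.val_upperTriangularGL]; simp
    · exact hA γ'
  rw [h3]
  exact (hA γ).mul hB

omit hp hq hq4 hpq hne in
lemma slash_sum (s : Finset (Option (ZMod q))) (φ : Option (ZMod q) → ℍ → ℂ) (γ : SL(2, ℤ)) :
    (∑ x ∈ s, φ x) ∣[(2 : ℤ)] γ = ∑ x ∈ s, φ x ∣[(2 : ℤ)] γ := by
  classical
  induction s using Finset.induction_on with
  | empty => simp [SlashAction.zero_slash]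
  | insert a s ha ih => rw [Finset.sum_insert ha, Finset.sum_insert ha, SlashAction.add_slash, ih]

theorem isForm_GG : IsForm p 2 (GG p q hpq) where
  slash γ hγ := GG_slash p q hq4 hpq hne hγ
  holo := mdiff_sum _ fun x _ ↦ (QF_FF p q hq4).hol.slash 2 _
  bdd γ := by
    rw [GG, slash_sum q]
    refine isBdd_sum _ fun x _ ↦ ?_
    rw [← SlashAction.slash_mul]
    exact FF_slash_bdd p q hq4 hne _

/-- the sum of all the components -/
def gg : ℍ → ℂ := ∑ h : ZMod q, Phi q h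

omit hne hpq hp in
lemma Phi_shift (h : ZMod q) (n : ℕ) (τ : ℍ) :
    Phi q h ((n : ℝ) +ᵥ τ) = psi q (n * h ^ 2) * Phi q h τ := by
  induction n with
  | zero => simp
  | succ n ih =>
    have : ((n + 1 : ℕ) : ℝ) +ᵥ τ = (1 : ℝ) +ᵥ ((n : ℝ) +ᵥ τ) := by
      rw [vadd_vadd]; congr 1; push_cast; ring
    rw [this, Phi_T q hq4, ih, ← mul_assoc, ← AddChar.map_add_eq_mul]
    congr 2
    push_cast
    ring

omit hne hpq hp in
lemma WW_natCast (n : ℕ) : WW q (n : ZMod q) = cc q • shift n (gg q) := by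
  ext τ
  simp only [WW, gg, Pi.smul_apply, shift_apply, smul_eq_mul, Finset.sum_apply]
  simp_rw [Phi_shift q hq4]

omit hne in
lemma HP_some (n : ℕ) (hchi : chi q p = -1) :
    HP p q (some (n : ZMod q)) = (1 / q : ℂ) • shift n (gg q * dil p (gg q)) := by
  have hp0 := p_ne_zero p q hpq
  have h1 : (1 : ZMod q) / p ≠ 0 := one_div_ne_zero hp0
  rw [HP, HH, QQ_ne q one_ne_zero, QQ_ne q h1, map_one, one_smul, div_one,
    div_div_eq_mul_div, div_one, one_div]
  have h2 : chi q (p : ZMod q)⁻¹ = -1 := by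
    have : chi q (p : ZMod q)⁻¹ * chi q p = 1 := by
      rw [← map_mul, inv_mul_cancel₀ hp0, map_one]
    rw [hchi] at this
    linear_combination -this
  rw [h2, dil_smul]
  have h3 : (n : ZMod q) * p = ((n * p : ℕ) : ZMod q) := by push_cast; ring
  rw [h3, WW_natCast q hq4, WW_natCast q hq4, dil_smul, dil_shift hp.out.ne_zero]
  have h4 : ((n * p : ℕ) : ℝ) / p = n := by
    have : (p : ℝ) ≠ 0 := by exact_mod_cast hp.out.ne_zero
    push_cast
    field_simp
  rw [h4]
  ext τ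
  simp only [Pi.mul_apply, Pi.smul_apply, smul_eq_mul, shift_apply]
  have h5 := cc_sq q
  linear_combination (-(gg q ((n : ℝ) +ᵥ τ) * dil p (gg q) ((n : ℝ) +ᵥ τ))) * h5

theorem GG_eq (hchi : chi q p = -1) : GG p q hpq =
    FF p q + (1 / q : ℂ) • ∑ n ∈ Finset.range q, shift n (gg q * dil p (gg q)) := by
  have h2 : ∀ x, FF p q ∣[(2 : ℤ)] DD p q hpq x = HP p q x := by
    intro x
    rw [FF_slash' p q hq4 hpq hne (DD_mem p q hpq x), ix_DD]
  rw [GG, Fintype.sum_option]
  simp_rw [h2]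
  congr 1
  · rw [HP, HH, zero_div, QQ_zero, map_one, one_smul]; rfl
  · rw [Finset.smul_sum]
    refine Finset.sum_nbij' (fun j ↦ j.val) (fun n ↦ (n : ZMod q)) ?_ ?_ ?_ ?_ ?_
    · intro j _
      exact Finset.mem_range.mpr (ZMod.val_lt j)
    · intro n _
      exact Finset.mem_univ _
    · intro j _
      exact ZMod.natCast_zmod_val j
    · intro n hn
      exact ZMod.val_natCast_of_lt (Finset.mem_range.mp hn)
    · intro j _
      rw [← HP_some p q hq4 hpq _ hchi, ZMod.natCast_zmod_val]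

end

end Fermat.Agent.Mazur16
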