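import Fermat.Agent.Mazur16.Theta5
import Fermat.Agent.Mazur16.Rel

/-!
# `q`-expansions of the theta series
-/

set_option autoImplicit false

open UpperHalfPlane hiding I
open Complex Matrix.SpecialLinearGroup CongruenceSubgroup
open scoped Real MatrixGroups ModularForm Manifold

namespace Fermat.Agent.Mazur16

open Fermat.Agent.IntStr

noncomputable section

variable (p q : ℕ) [hp : Fact p.Prime] [hq : Fact q.Prime]

lemma dil_inj {n : ℕ} {f g : ℍ → ℂ} (h : dil n f = dil n g) : f = g := by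
  ext τ
  have := congrFun h ((ModularForm.heckeDiagMatrix n)⁻¹ • τ)
  rwa [dil_apply, dil_apply, smul_inv_smul] at this

lemma dil_dil (m n : ℕ) (hm : m ≠ 0) (hn : n ≠ 0) (f : ℍ → ℂ) :
    dil m (dil n f) = dil n (dil m f) := by
  ext τ
  simp only [dil_apply]
  congr 1
  ext
  rw [heckeDiagMatrix_smul_coe hn, heckeDiagMatrix_smul_coe hm, heckeDiagMatrix_smul_coe hm,
    heckeDiagMatrix_smul_coe hn]
  ring

lemma c1_eq_sum (hq4 : q % 4 = 3) (κ : ZMod 2) (s : ℤ) : ∑ h : ZMod q, c2 q κ h s = c1 κ s := by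
  have h2 := two_ne_zero' q hq4
  rw [Finset.sum_eq_single ((s : ZMod q) / 2)]
  · unfold c1 c2
    have e1 : 2 * ((s : ZMod q) / 2) = s := by field_simp
    rw [e1]
    by_cases hs : (s : ZMod 2) = κ
    · rw [if_pos hs, if_pos ⟨hs, rfl⟩]
    · rw [if_neg hs, if_neg (fun h ↦ hs h.1)]
  · intro b _ hb
    unfold c2
    rw [if_neg]
    rintro ⟨-, hsb⟩
    apply hb
    rw [hsb]
    field_simp
  · intro h; exact absurd (Finset.mem_univ _) h

lemma dil_TH (c : ℤ → ℂ) : dil q (TH c (2 * q)) = TH c 2 := by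
  have hq0 : (q : ℂ) ≠ 0 := by exact_mod_cast hq.out.ne_zero
  ext τ
  rw [dil_apply, TH, TH]
  refine tsum_congr fun s ↦ ?_
  rw [tt, tt, heckeDiagMatrix_smul_coe hq.out.ne_zero]
  congr 2
  push_cast
  field_simp

lemma dil_TH_c1 (hq4 : q % 4 = 3) (κ : ZMod 2) : dil q (TH (c1 κ) 2) = TH (c2 q κ 0) (2 * q) := by
  have hq0 : (q : ℂ) ≠ 0 := by exact_mod_cast hq.out.ne_zero
  have hqZ : (q : ℤ) ≠ 0 := by exact_mod_cast hq.out.ne_zero
  have hqodd : (q : ZMod 2) = 1 := by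
    rw [ZMod.natCast_eq_one_iff_odd, Nat.odd_iff]; omega
  ext τ
  rw [dil_apply, TH, TH]
  have hinj : Function.Injective (fun n : ℤ ↦ (q : ℤ) * n) := fun a b hab ↦
    mul_left_cancel₀ hqZ hab
  rw [← hinj.tsum_eq (f := fun s : ℤ ↦ c2 q κ 0 s * tt (2 * q) s τ)]
  · refine tsum_congr fun s ↦ ?_
    congr 1
    · unfold c1 c2
      push_cast
      rw [hqodd, one_mul]
      simp
    · rw [tt, tt, heckeDiagMatrix_smul_coe hq.out.ne_zero]
      congr 1
      push_cast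
      field_simp
  · intro s hs
    simp only [Function.mem_support, ne_eq, mul_eq_zero, not_or] at hs
    have h2 : (s : ZMod 2) = κ ∧ (s : ZMod q) = 2 * 0 := by
      by_contra h
      exact hs.1 (if_neg h)
    have h3 : (q : ℤ) ∣ s := by
      rw [← ZMod.intCast_zmod_eq_zero_iff_dvd, h2.2, mul_zero]
    obtain ⟨n, hn⟩ := h3
    exact ⟨n, hn.symm⟩

/-- scaling relation. -/
theorem dil_gg (hq4 : q % 4 = 3) : dil q (gg q) = Phi q 0 := by
  have hpos : 0 < 2 := two_pos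
  have h1 : ∀ h : ZMod q, dil q (Phi q h) =
      ∑ κ : ZMod 2, TH (c2 q κ h) 2 * TH (c2 q κ 0) (2 * q) := by
    intro h
    have : Phi q h = ∑ κ : ZMod 2, TH (c2 q κ h) (2 * q) * TH (c1 κ) 2 := by
      ext τ; simp [Phi]
    rw [this, dil_sum]
    refine Finset.sum_congr rfl fun κ _ ↦ ?_
    rw [dil_mul, dil_TH, dil_TH_c1 q hq4]
  rw [gg, dil_sum]
  simp_rw [h1]
  rw [Finset.sum_comm]
  ext τ
  rw [Finset.sum_apply, Phi]
  refine Finset.sum_congr rfl fun κ _ ↦ ?_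
  rw [Finset.sum_apply]
  simp only [Pi.mul_apply]
  rw [← Finset.sum_mul, mul_comm]
  congr 1
  have h2 := TH_sum (Finset.univ : Finset (ZMod q)) (fun _ ↦ (1 : ℂ)) (norm_c2 q κ) 2 hpos τ
  simp only [one_mul] at h2
  rw [← h2]
  exact congrFun (TH_congr (fun s ↦ c1_eq_sum q hq4 κ s) 2) τ

lemma sum_shift_gg (hq4 : q % 4 = 3) :
    ∑ n ∈ Finset.range q, shift n (gg q) = (q : ℂ) • Phi q 0 := by
  ext τ
  have h1 : ∀ n : ℕ, shift n (gg q) τ = ∑ h : ZMod q, psi q ((n : ZMod q) * h ^ 2) * Phi q h τ := by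
    intro n
    rw [shift_apply, gg, Finset.sum_apply]
    exact Finset.sum_congr rfl fun h _ ↦ Phi_shift q hq4 h n τ
  rw [Finset.sum_apply, Pi.smul_apply, smul_eq_mul]
  simp_rw [h1]
  have h2 : ∀ φ : ZMod q → ℂ, ∑ n ∈ Finset.range q, φ n = ∑ j : ZMod q, φ j := by
    intro φ
    refine (Finset.sum_nbij' (fun j : ZMod q ↦ j.val) (fun n ↦ (n : ZMod q)) ?_ ?_ ?_ ?_ ?_).symm
    · intro j _
      exact Finset.mem_range.mpr (ZMod.val_lt j)
    · intro n _
      exact Finset.mem_univ _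
    · intro j _
      exact ZMod.natCast_zmod_val j
    · intro n hn
      exact ZMod.val_natCast_of_lt (Finset.mem_range.mp hn)
    · intro j _
      rw [ZMod.natCast_zmod_val]
  rw [h2 (fun j ↦ ∑ h : ZMod q, psi q (j * h ^ 2) * Phi q h τ), Finset.sum_comm]
  simp_rw [← Finset.sum_mul]
  rw [Finset.sum_eq_single 0]
  · have h3 := AddChar.sum_mulShift ((0 : ZMod q) ^ 2) (ZMod.isPrimitive_stdAddChar q)
    rw [h3, if_pos (by ring), ZMod.card]
  · intro h _ hh
    have h3 := AddChar.sum_mulShift (h ^ 2) (ZMod.isPrimitive_stdAddChar q)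
    rw [h3, if_neg (pow_ne_zero 2 hh)]
    simp
  · intro h; exact absurd (Finset.mem_univ _) h

theorem heckeU_Phi (hq4 : q % 4 = 3) : ModularForm.heckeU 2 q (Phi q 0) = Phi q 0 := by
  have hq0 := hq.out.ne_zero
  have hqC : (q : ℂ) ≠ 0 := by exact_mod_cast hq0
  have h1 := sum_shift q (k := 2) (QF_Phi q hq4)
  have h2 : ∑ j ∈ Finset.range q, shift (j / q) (Phi q 0) = dil q ((q : ℂ) • Phi q 0) := by
    rw [← sum_shift_gg q hq4, dil_sum]
    refine Finset.sum_congr rfl fun j _ ↦ ?_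
    rw [dil_shift hq0, dil_gg q hq4]
  rw [h2, dil_smul] at h1
  exact (dil_inj (smul_right_injective _ hqC h1)).symm

theorem GG_eq' (hq4 : q % 4 = 3) (hpq : p ≠ q) (hne : Phi q 0 ≠ 0) (hchi : chi q p = -1) :
    GG p q hpq = FF p q + ModularForm.heckeU 2 q (FF p q) := by
  have hq0 := hq.out.ne_zero
  have hqC : (q : ℂ) ≠ 0 := by exact_mod_cast hq0
  rw [GG_eq p q hq4 hpq hne hchi]
  congr 1
  apply dil_inj (n := q)
  have h1 := sum_shift q (k := 2) (QF_FF p q hq4)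
  rw [dil_smul, dil_sum]
  have h2 : ∀ j : ℕ, dil q (shift j (gg q * dil p (gg q))) = shift (j / q) (FF p q) := by
    intro j
    rw [dil_shift hq0, dil_mul, dil_dil q p hq0 hp.out.ne_zero, dil_gg q hq4]
    rfl
  simp_rw [h2]
  rw [h1, smul_smul, one_div, inv_mul_cancel₀ hqC, one_smul]

end

end Fermat.Agent.Mazur16
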