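import Fermat.Agent.Mazur16.Theta6

/-!
# Integrality of the `q`-expansion of the binary theta series
-/

set_option autoImplicit false

open UpperHalfPlane hiding I
open Complex Matrix.SpecialLinearGroup CongruenceSubgroup
open scoped Real MatrixGroups ModularForm Manifold

namespace Fermat.Agent.Mazur16

open Fermat.Agent.IntStr PowerSeries

noncomputable section

lemma natAbs_sq_cast (s : ℤ) : ((s.natAbs ^ 2 : ℕ) : ℂ) = (s : ℂ) ^ 2 := by
  have h1 : ((s.natAbs ^ 2 : ℕ) : ℤ) = s ^ 2 := by push_cast; exact sq_abs s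
  have h2 := congrArg (Int.cast : ℤ → ℂ) h1
  rw [Int.cast_natCast] at h2
  rw [h2]
  push_cast
  rfl

/-- one-dimensional theta series with integral exponents. -/
def th (κ : ZMod 2) : ℍ → ℂ := dil 4 (TH (c1 κ) 2)

lemma th_apply (κ : ZMod 2) (τ : ℍ) :
    th κ τ = ∑' s : ℤ, c1 κ s * Function.Periodic.qParam 1 τ ^ (s.natAbs ^ 2) := by
  rw [th, dil_apply, TH]
  refine tsum_congr fun s ↦ ?_
  rw [tt, heckeDiagMatrix_smul_coe (by norm_num), Function.Periodic.qParam, ← Complex.exp_nat_mul]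
  congr 2
  rw [natAbs_sq_cast]
  push_cast
  field_simp
  ring

lemma th_QF (κ : ZMod 2) : QF (th κ) where
  per := by
    rw [per_iff]
    intro τ
    rw [th_apply, th_apply]
    refine tsum_congr fun s ↦ ?_
    rw [qParam_vadd]
    simp
  hol := by
    have h1 := TH_mdiff (norm_c1 κ) 2 two_pos
    have h : th κ = (TH (c1 κ) 2) ∘ (fun τ ↦ ModularForm.heckeDiagMatrix 4 • τ) := rfl
    rw [h]
    refine h1.comp (UpperHalfPlane.mdifferentiable_smul ?_)
    rw [Matrix.GeneralLinearGroup.val_det_apply, ModularForm.val_heckeDiagMatrix (by norm_num)]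
    simp
  bdd := by
    obtain ⟨M, A, hMA⟩ := isBoundedAtImInfty_iff.mp (TH_bdd (norm_c1 κ) 2 two_pos)
    rw [isBoundedAtImInfty_iff]
    refine ⟨M, max A 0, fun z hz ↦ hMA _ ?_⟩
    have h1 := congrArg Complex.im (heckeDiagMatrix_smul_coe (p := 4) (by norm_num) z)
    have h2 : (ModularForm.heckeDiagMatrix 4 • z).im = 4 * z.im := by simpa using h1
    rw [h2]
    have h3 : A ≤ z.im := (le_max_left _ _).trans hz
    have h4 := z.im_pos
    linarith

/-- coefficients of the theta series. -/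
def sk (κ : ZMod 2) (m : ℕ) : ℤ :=
  if IsSquare m ∧ ((Nat.sqrt m : ℕ) : ZMod 2) = κ then 1 else 0

lemma sk_sq (κ : ZMod 2) (n : ℕ) : ((sk κ (n ^ 2) : ℤ) : ℂ) = c1 κ (n : ℤ) := by
  unfold sk c1
  rw [Nat.sqrt_eq']
  have : IsSquare (n ^ 2) := ⟨n, by ring⟩
  simp [this]

lemma th_hasSum (κ : ZMod 2) (τ : ℍ) :
    HasSum (fun m : ℕ ↦ ((2 * sk κ m - (if m = 0 then (if κ = 0 then 1 else 0) else 0) : ℤ) : ℂ) *
      Function.Periodic.qParam 1 τ ^ m) (th κ τ) := by
  set Q := Function.Periodic.qParam 1 τ with hQ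
  have hs : Summable (fun s : ℤ ↦ c1 κ s * Q ^ (s.natAbs ^ 2)) := by
    have h1 := summable_tt (norm_c1 κ) 2 two_pos
      (z := ((ModularForm.heckeDiagMatrix 4 • τ : ℍ) : ℂ)) (ModularForm.heckeDiagMatrix 4 • τ).im_pos
    refine h1.congr fun s ↦ ?_
    rw [tt, heckeDiagMatrix_smul_coe (by norm_num), hQ, Function.Periodic.qParam,
      ← Complex.exp_nat_mul]
    congr 2
    rw [natAbs_sq_cast]
    push_cast
    field_simp
    ring
  have h1 := hs.hasSum
  rw [← th_apply] at h1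
  have h2 := h1.nat_add_neg
  have h3 : HasSum (fun n : ℕ ↦ (2 * c1 κ (n : ℤ)) * Q ^ (n ^ 2)) (th κ τ + c1 κ 0) := by
    convert h2 using 1
    · ext n
      have hneg : c1 κ (-(n : ℤ)) = c1 κ n := by
        unfold c1
        have : ((-(n : ℤ) : ℤ) : ZMod 2) = ((n : ℤ) : ZMod 2) := by
          push_cast
          exact ZMod.neg_eq_self_mod_two _
        rw [this]
      rw [hneg]
      simp only [Int.natAbs_natCast, Int.natAbs_neg]
      ring
    · simp
  have h4 : HasSum (fun m : ℕ ↦ ((2 * sk κ m : ℤ) : ℂ) * Q ^ m) (th κ τ + c1 κ 0) := by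
    have hinj : Function.Injective (fun n : ℕ ↦ n ^ 2) := fun a b hab ↦
      Nat.pow_left_injective (n := 2) (by norm_num) hab
    rw [← hinj.hasSum_iff]
    · convert h3 using 1
      ext n
      simp only [Function.comp_apply]
      push_cast
      rw [sk_sq]
    · intro m hm
      have : ¬ IsSquare m := by
        rintro ⟨n, hn⟩
        exact hm ⟨n, by simp only; rw [hn, pow_two]⟩
      rw [sk, if_neg (fun h ↦ this h.1)]
      simp
  have h5 : HasSum (fun m : ℕ ↦ if m = 0 then c1 κ 0 else 0) (c1 κ 0) := hasSum_ite_eq 0 _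
  have h6 := h4.sub h5
  rw [add_sub_cancel_right] at h6
  have e7 : (fun m : ℕ ↦ ((2 * sk κ m - (if m = 0 then (if κ = 0 then 1 else 0) else 0) : ℤ) : ℂ) *
      Q ^ m) = fun b ↦ ((2 * sk κ b : ℤ) : ℂ) * Q ^ b - if b = 0 then c1 κ 0 else 0 := by
    ext m
    by_cases hm : m = 0
    · subst hm
      unfold c1
      by_cases hκ : κ = 0
      · simp [hκ]
      · simp [hκ, Ne.symm hκ]
    · simp [hm]
  rw [e7]
  exact h6

/-- the `q`-expansion of `th κ`. -/
def thps (κ : ZMod 2) : PowerSeries ℤ :=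
  PowerSeries.mk fun m ↦ 2 * sk κ m - (if m = 0 then (if κ = 0 then 1 else 0) else 0)

lemma qe_th (κ : ZMod 2) : qe (th κ) = (thps κ).map (Int.castRingHom ℂ) := by
  ext m
  rw [(th_QF κ).coeff_eq_of_hasSum (th_hasSum κ) m, coeff_map, thps, coeff_mk]
  rfl

variable (q : ℕ) [hq : Fact q.Prime]

/-- integrality and evenness of the expansion of `Phi 0`. -/
theorem exists_qe_Phi (hq4 : q % 4 = 3) : ∃ A : PowerSeries ℤ, A.coeff 0 = 0 ∧
    qe (Phi q 0) = (1 + C 2 * A).map (Int.castRingHom ℂ) := by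
  have hq0 := hq.out.ne_zero
  have h1 : dil 4 (Phi q 0) = th 0 * dil q (th 0) + th 1 * dil q (th 1) := by
    have e1 : Phi q 0 = TH (c2 q 0 0) (2 * q) * TH (c1 0) 2 +
        TH (c2 q 1 0) (2 * q) * TH (c1 1) 2 := by
      ext τ
      exact Fin.sum_univ_two _
    rw [e1, dil_add, dil_mul, dil_mul, ← dil_TH_c1 q hq4, ← dil_TH_c1 q hq4,
      dil_dil 4 q (by norm_num) hq0, dil_dil 4 q (by norm_num) hq0]
    rw [mul_comm, mul_comm (dil q _)]
    rfl
  have h2 : vps 4 (qe (Phi q 0)) = (thps 0 * vps q (thps 0) + thps 1 * vps q (thps 1)).map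
      (Int.castRingHom ℂ) := by
    rw [← (QF_Phi q hq4).qe_dil (by norm_num), h1,
      ((th_QF 0).mul ((th_QF 0).dil hq0)).qe_add ((th_QF 1).mul ((th_QF 1).dil hq0)),
      (th_QF 0).qe_mul ((th_QF 0).dil hq0), (th_QF 1).qe_mul ((th_QF 1).dil hq0),
      (th_QF 0).qe_dil hq0, (th_QF 1).qe_dil hq0, qe_th, qe_th]
    simp only [map_add, map_mul, map_vps]
  let S : ZMod 2 → PowerSeries ℤ := fun κ ↦ PowerSeries.mk (sk κ)
  have e0 : thps 0 = C 2 * S 0 - 1 := by
    ext m
    rw [thps, coeff_mk, map_sub, coeff_C_mul, coeff_mk, coeff_one]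
    simp
  have e1 : thps 1 = C 2 * S 1 := by
    ext m
    rw [thps, coeff_mk, coeff_C_mul, coeff_mk]
    simp
  have v0 : vps q (thps 0) = C 2 * vps q (S 0) - 1 := by
    rw [e0]
    ext m
    simp only [coeff_vps, map_sub, coeff_C_mul, coeff_one]
    by_cases hm : q ∣ m
    · have : (m / q = 0) ↔ (m = 0) := by
        obtain ⟨a, rfl⟩ := hm
        rw [Nat.mul_div_cancel_left _ hq.out.pos]
        simp [hq0]
      simp [hm, this]
    · have : m ≠ 0 := by rintro rfl; simp at hm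
      simp [hm, this]
  have v1 : vps q (thps 1) = C 2 * vps q (S 1) := by
    rw [e1]
    ext m
    simp only [coeff_vps, coeff_C_mul]
    split_ifs <;> simp
  let B : PowerSeries ℤ := C 2 * S 0 * vps q (S 0) - S 0 - vps q (S 0) + C 2 * S 1 * vps q (S 1)
  have h3 : thps 0 * vps q (thps 0) + thps 1 * vps q (thps 1) = 1 + C 2 * B := by
    rw [v0, v1, e0, e1]
    ring
  rw [h3] at h2
  have hB0 : B.coeff 0 = 0 := by
    have s00 : (S 0).coeff 0 = 1 := by
      simp only [S, coeff_mk, sk]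
      rw [if_pos]
      constructor
      · exact ⟨0, rfl⟩
      · simp
    have s10 : (S 1).coeff 0 = 0 := by
      simp only [S, coeff_mk, sk]
      rw [if_neg]
      simp
    have s00' : (vps q (S 0)).coeff 0 = 1 := by
      rw [coeff_vps, if_pos (dvd_zero q), Nat.zero_div, s00]
    have s10' : (vps q (S 1)).coeff 0 = 0 := by
      rw [coeff_vps, if_pos (dvd_zero q), Nat.zero_div, s10]
    rw [coeff_zero_eq_constantCoeff] at s00 s10 s00' s10' ⊢
    simp only [B, map_add, map_sub, map_mul, s00, s10, s00', s10', constantCoeff_C]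
    norm_num
  refine ⟨PowerSeries.mk fun n ↦ B.coeff (4 * n), by rw [coeff_mk, mul_zero, hB0], ?_⟩
  ext n
  have h4 := congrArg (PowerSeries.coeff (4 * n)) h2
  rw [coeff_vps, if_pos (dvd_mul_right 4 n), Nat.mul_div_cancel_left _ (by norm_num)] at h4
  rw [h4]
  simp only [coeff_map, map_add, coeff_C_mul, coeff_mk, coeff_one]
  congr 2
  by_cases hn : n = 0
  · simp [hn]
  · simp [hn]

end

end Fermat.Agent.Mazur16
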