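import Fermat.Agent.Mazur16.Theta7

/-!
# Existence of a form with constant term `1/2`
-/

set_option autoImplicit false

open UpperHalfPlane hiding I
open Complex Matrix.SpecialLinearGroup CongruenceSubgroup
open scoped Real MatrixGroups ModularForm Manifold

namespace Fermat.Agent.Mazur16

open Fermat.Agent.IntStr PowerSeries

noncomputable section

variable (p : ℕ) [hp : Fact p.Prime]

lemma exists_prime_q (hp2 : p ≠ 2) :
    ∃ q : ℕ, q.Prime ∧ q % 4 = 3 ∧ p ≠ q ∧ ∀ [Fact q.Prime], chi q p = -1 := by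
  have hpodd : p % 2 = 1 := hp.out.eq_two_or_odd.resolve_left hp2
  -- choose the residue modulo `p`
  obtain ⟨s, hs0, hs⟩ : ∃ s : ZMod p, s ≠ 0 ∧ quadraticChar (ZMod p) s = -(-1) ^ (p / 2) := by
    rcases (show p % 4 = 1 ∨ p % 4 = 3 by omega) with h4 | h4
    · obtain ⟨s, hs⟩ := quadraticChar_exists_neg_one (F := ZMod p) (by
        rw [ZMod.ringChar_zmod_n]; exact hp2)
      refine ⟨s, ?_, ?_⟩
      · rintro rfl
        rw [quadraticChar_zero] at hs
        norm_num at hs
      · rw [hs]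
        have : Even (p / 2) := by rw [Nat.even_iff]; omega
        rw [this.neg_one_pow]
    · refine ⟨1, one_ne_zero, ?_⟩
      have : Odd (p / 2) := by rw [Nat.odd_iff]; omega
      rw [this.neg_one_pow, map_one]
      norm_num
  have hcop : Nat.Coprime 4 p := by
    rw [show 4 = 2 ^ 2 by norm_num]
    exact Nat.Coprime.pow_left 2 (Nat.coprime_two_left.mpr (Nat.odd_iff.mpr hpodd))
  let e := ZMod.chineseRemainder hcop
  have hunit : IsUnit (e.symm ((3 : ZMod 4), s)) := by
    have h1 : IsUnit ((3 : ZMod 4), s) := by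
      rw [Prod.isUnit_iff]
      exact ⟨(by decide : IsUnit (3 : ZMod 4)), isUnit_iff_ne_zero.mpr hs0⟩
    exact h1.map e.symm
  have : NeZero (4 * p) := ⟨mul_ne_zero (by norm_num) hp.out.ne_zero⟩
  obtain ⟨q, hqp, hq, hqe⟩ := Nat.forall_exists_prime_gt_and_eq_mod hunit p
  have h2 : e (q : ZMod (4 * p)) = ((3 : ZMod 4), s) := by
    rw [hqe, RingEquiv.apply_symm_apply]
  have h3 : ((q : ZMod 4), (q : ZMod p)) = ((3 : ZMod 4), s) := by
    rw [← h2, map_natCast]
    rfl
  have h4 : (q : ZMod 4) = 3 := congrArg Prod.fst h3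
  have h5 : (q : ZMod p) = s := congrArg Prod.snd h3
  have hq4 : q % 4 = 3 := by
    have : (q : ZMod 4) = ((3 : ℕ) : ZMod 4) := by rw [h4]; rfl
    have h6 := (ZMod.natCast_eq_natCast_iff _ _ _).mp this
    exact h6
  refine ⟨q, hq, hq4, by omega, ?_⟩
  intro hqF
  have h6 := legendreSym.quadratic_reciprocity' (p := p) (q := q) hp2 (by rintro rfl; omega)
  have h7 : legendreSym p (q : ℤ) = -(-1) ^ (p / 2) := by
    rw [legendreSym]
    push_cast
    rw [h5, hs]
  have h8 : chi q p = ((legendreSym q (p : ℤ) : ℤ) : ℂ) := by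
    rw [chi_apply, legendreSym]
    push_cast
    rfl
  have h9 : Odd (q / 2) := by rw [Nat.odd_iff]; omega
  rw [h8, h6, h7, pow_mul]
  have h10 : ((-1 : ℤ) ^ (p / 2)) ^ (q / 2) = (-1) ^ (p / 2) := by
    rcases neg_one_pow_eq_or ℤ (p / 2) with h | h
    · rw [h, one_pow]
    · rw [h, h9.neg_one_pow]
  rw [h10]
  rcases neg_one_pow_eq_or ℤ (p / 2) with h | h <;> rw [h] <;> norm_num

lemma ups_vps {p q : ℕ} (hp : p.Prime) (hq : q.Prime) (hpq : p ≠ q) (A : PowerSeries ℤ) :
    ups q (vps p A) = vps p (ups q A) := by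
  ext n
  rw [coeff_ups, coeff_vps, coeff_vps]
  have hcop : Nat.Coprime p q := (Nat.coprime_primes hp hq).mpr hpq
  have h1 : p ∣ n * q ↔ p ∣ n := ⟨fun h ↦ hcop.dvd_of_dvd_mul_right h, fun h ↦ h.mul_right _⟩
  by_cases hn : p ∣ n
  · rw [if_pos (h1.mpr hn), if_pos hn, coeff_ups]
    obtain ⟨a, rfl⟩ := hn
    rw [mul_assoc, Nat.mul_div_cancel_left _ hp.pos, Nat.mul_div_cancel_left _ hp.pos]
  · rw [if_neg (fun h ↦ hn (h1.mp h)), if_neg hn]

theorem exists_half_form (hp2 : p ≠ 2) : ∃ (G : ℍ → ℂ) (b : PowerSeries ℤ), IsForm p 2 G ∧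
    b.coeff 0 = 0 ∧ qe G = (C 2 + C 4 * b).map (Int.castRingHom ℂ) := by
  obtain ⟨q, hqp, hq4, hpq, hchi⟩ := exists_prime_q p hp2
  have hq : Fact q.Prime := ⟨hqp⟩
  obtain ⟨A, hA0, hA⟩ := exists_qe_Phi q hq4
  have hQ := QF_Phi q hq4
  have hp0 := hp.out.ne_zero
  have hq0 := hq.out.ne_zero
  have hne : Phi q 0 ≠ 0 := by
    intro h
    rw [h, QF.qe_zero] at hA
    have := congrArg (PowerSeries.coeff 0) hA
    rw [coeff_map, map_add, coeff_C_mul, hA0] at this
    simp at this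
  have hUA : ups q A = A := by
    have h1 := hQ.qe_heckeU 2 hq0
    rw [heckeU_Phi q hq4, hA, ← map_ups] at h1
    have h2 := PowerSeries.map_injective (Int.castRingHom ℂ) Int.cast_injective h1
    have h3 : (1 : PowerSeries ℤ) = C 1 := by simp
    rw [ups_add, ups_C_mul, h3, ups_C q hq0] at h2
    have h4 := add_left_cancel h2
    have h5 : (C (2 : ℤ) : PowerSeries ℤ) ≠ 0 := by
      intro h
      have := congrArg (PowerSeries.coeff 0) h
      rw [coeff_C, if_pos rfl, map_zero] at this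
      norm_num at this
    exact (mul_left_cancel₀ h5 h4).symm
  have hVA0 : (vps p A).coeff 0 = 0 := by
    rw [coeff_vps, if_pos (dvd_zero p), Nat.zero_div, hA0]
  refine ⟨GG p q hpq, A + vps p A + A * vps p A + ups q (A * vps p A), ?_, ?_, ?_⟩
  · exact isForm_GG p q hq4 hpq hne
  · have h1 : (A * vps p A).coeff 0 = 0 := by
      rw [coeff_zero_eq_constantCoeff] at hA0 ⊢
      rw [map_mul, hA0, zero_mul]
    rw [map_add, map_add, map_add, hA0, hVA0, coeff_ups, zero_mul, h1]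
    norm_num
  · have hF := QF_FF p q hq4
    have hqF : qe (FF p q) = ((1 + C 2 * A) * vps p (1 + C 2 * A)).map (Int.castRingHom ℂ) := by
      rw [FF, hQ.qe_mul (hQ.dil hp0), hQ.qe_dil hp0, hA, map_mul, map_vps]
    rw [GG_eq' p q hq4 hpq hne hchi, hF.qe_add (hF.heckeU 2 q), hF.qe_heckeU 2 hq0, hqF,
      ← map_ups, ← map_add]
    congr 1
    have hv : vps p (1 + C 2 * A) = 1 + C 2 * vps p A := by
      ext m
      simp only [coeff_vps, map_add, coeff_C_mul, coeff_one]
      by_cases hm : p ∣ m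
      · have : (m / p = 0) ↔ (m = 0) := by
          obtain ⟨a, rfl⟩ := hm
          rw [Nat.mul_div_cancel_left _ hp.out.pos]
          simp [hp0]
        simp [hm, this]
      · have : m ≠ 0 := by rintro rfl; simp at hm
        simp [hm, this]
    have hexp : (1 + C 2 * A) * (1 + C 2 * vps p A) =
        C (1 : ℤ) + (C 2 * A + (C 2 * vps p A + C 4 * (A * vps p A))) := by
      have e1 : (C (1 : ℤ) : PowerSeries ℤ) = 1 := by simp
      have e2 : (C (2 : ℤ) : PowerSeries ℤ) = 2 := by simp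
      have e4 : (C (4 : ℤ) : PowerSeries ℤ) = 4 := by simp
      rw [e1, e2, e4]; ring
    rw [hv, hexp, ups_add, ups_add, ups_add, ups_C q hq0, ups_C_mul, ups_C_mul, ups_C_mul, hUA,
      ups_vps hp.out hqp hpq, hUA]
    have e1 : (C (1 : ℤ) : PowerSeries ℤ) = 1 := by simp
    have e2 : (C (2 : ℤ) : PowerSeries ℤ) = 2 := by simp
    have e4 : (C (4 : ℤ) : PowerSeries ℤ) = 4 := by simp
    rw [e1, e2, e4]; ring

end

end Fermat.Agent.Mazur16
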