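import Fermat.Agent.Mazur16.Cosets
import Fermat.Agent.Mazur16.QF

/-!
# Atkin-Lehner involution in weight two and explicit traces
-/

set_option autoImplicit false

open UpperHalfPlane CongruenceSubgroup Matrix.SpecialLinearGroup Function
open scoped MatrixGroups ModularForm Manifold

namespace Fermat.Agent.Mazur16

noncomputable section

variable (p : ℕ) [hp : Fact p.Prime]

/-- the matrix `S * diag(p, 1)`. -/
def alMat : GL (Fin 2) ℝ := mapGL ℝ ModularGroup.S * ModularForm.heckeDiagMatrix p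

lemma alMat_coe : (alMat p : Matrix (Fin 2) (Fin 2) ℝ) = !![0, -1; (p : ℝ), 0] := by
  rw [alMat, Units.val_mul, ModularForm.val_heckeDiagMatrix hp.out.ne_zero]
  have : ((mapGL ℝ ModularGroup.S : GL (Fin 2) ℝ) : Matrix (Fin 2) (Fin 2) ℝ) = !![0, -1; 1, 0] := by
    ext i j
    fin_cases i <;> fin_cases j <;> simp [ModularGroup.S]
  rw [this]
  ext i j
  fin_cases i <;> fin_cases j <;> simp

/-- the conjugate of an element of `Γ₀(p)` by `alMat`. -/
lemma exists_conj {γ : SL(2, ℤ)} (hγ : γ ∈ Gamma0 p) :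
    ∃ γ' ∈ Gamma0 p, mapGL ℝ γ * alMat p = alMat p * mapGL ℝ γ' ∧
      mapGL ℝ γ' * alMat p = alMat p * mapGL ℝ γ := by
  rw [mem_Gamma0_iff_dvd] at hγ
  obtain ⟨c, hc⟩ := hγ
  have hdet := γ.det_coe
  rw [Matrix.det_fin_two] at hdet
  let M : Matrix (Fin 2) (Fin 2) ℤ := !![γ 1 1, -c; -(p * γ 0 1), γ 0 0]
  have hM : M.det = 1 := by
    simp only [M, Matrix.det_fin_two_of]
    rw [hc] at hdet
    linear_combination hdet
  refine ⟨⟨M, hM⟩, ?_, ?_, ?_⟩
  · rw [mem_Gamma0_iff_dvd]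
    simp [M]
  · ext i j
    have h10 : ((γ 1 0 : ℤ) : ℝ) = p * c := by rw [hc]; push_cast; ring
    fin_cases i <;> fin_cases j <;>
      simp [alMat_coe, Matrix.mul_apply, Fin.sum_univ_two, M, h10]
    · ring
    · ring
  · ext i j
    have h10 : ((γ 1 0 : ℤ) : ℝ) = p * c := by rw [hc]; push_cast; ring
    fin_cases i <;> fin_cases j <;>
      simp [alMat_coe, Matrix.mul_apply, Fin.sum_univ_two, M, h10]
    · ring
    · ring

open ConjAct Pointwise in
lemma conj_Gamma0 : (Gamma0 p : Subgroup (GL (Fin 2) ℝ)) =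
    toConjAct (alMat p)⁻¹ • (Gamma0 p : Subgroup (GL (Fin 2) ℝ)) := by
  ext x
  rw [Subgroup.mem_pointwise_smul_iff_inv_smul_mem, ← map_inv, inv_inv, toConjAct_smul]
  constructor
  · rintro ⟨γ, hγ, rfl⟩
    obtain ⟨γ', hγ', h1, h2⟩ := exists_conj p hγ
    rw [← h2, mul_inv_cancel_right]
    exact ⟨γ', hγ', rfl⟩
  · rintro ⟨γ, hγ, h⟩
    obtain ⟨γ', hγ', h1, h2⟩ := exists_conj p hγ
    have : x = mapGL ℝ γ' := by
      have h3 : mapGL ℝ γ * alMat p = alMat p * x := by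
        rw [h]; group
      rw [h1] at h3
      exact (mul_left_cancel h3).symm
    rw [this]
    exact ⟨γ', hγ', rfl⟩

variable {k : ℤ}

/-- The form `f ∣[k] (S * diag(p,1))` as a modular form on `Γ₀(p)`. -/
def alForm (f : ModularForm (Gamma0 p) k) : ModularForm (Gamma0 p) k :=
  ModularForm.mcast rfl (ModularForm.translate f (alMat p)) (conj_Gamma0 p)

lemma coe_alForm (f : ModularForm (Gamma0 p) k) : ⇑(alForm p f) = ⇑f ∣[k] alMat p := rfl

open SlashInvariantForm in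
lemma trace_apply (f : ModularForm (Gamma0 p) k) :
    ⇑(ModularForm.trace 𝒮ℒ f) =
      ⇑f + ∑ j ∈ Finset.range p, (⇑f ∣[k] stJ (j : ℕ)) := by
  rw [ModularForm.coe_trace]
  refine (@sum_coset p _ _ _ (Fintype.ofFinite _) (quotientFunc (ℋ := 𝒮ℒ) f)).trans ?_
  rw [quotientFunc_cosetMap_none, Finset.sum_range]
  simp_rw [quotientFunc_cosetMap_some]

open SlashInvariantForm in
lemma norm_apply (f : ModularForm (Gamma0 p) k) :
    ⇑(ModularForm.norm 𝒮ℒ f) =
      ⇑f * ∏ j ∈ Finset.range p, (⇑f ∣[k] stJ (j : ℕ)) := by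
  rw [ModularForm.coe_norm]
  refine (@prod_coset p _ _ _ (Fintype.ofFinite _) (quotientFunc (ℋ := 𝒮ℒ) f)).trans ?_
  rw [quotientFunc_cosetMap_none, Finset.prod_range]
  simp_rw [quotientFunc_cosetMap_some]

/-- matrix identity `alMat * (S T^j) = - heckeMatrix p j` -/
lemma alMat_mul_stJ (j : ℕ) :
    alMat p * mapGL ℝ (stJ (j : ℕ)) = mapGL ℝ (-1 : SL(2, ℤ)) * ModularForm.heckeMatrix p j := by
  ext a b
  fin_cases a <;> fin_cases b <;>
    simp [alMat_coe, stJ_coe, Matrix.mul_apply, Fin.sum_univ_two,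
      ModularForm.val_heckeMatrix hp.out.ne_zero]

lemma neg_one_mem_Gamma0 : (-1 : SL(2, ℤ)) ∈ Gamma0 p := by
  rw [mem_Gamma0_iff_dvd]; simp

lemma alForm_slash_stJ (f : ModularForm (Gamma0 p) k) (j : ℕ) :
    ⇑(alForm p f) ∣[k] stJ (j : ℕ) = ⇑f ∣[k] ModularForm.heckeMatrix p j := by
  rw [coe_alForm, ModularForm.SL_slash, ← SlashAction.slash_mul]
  change ⇑f ∣[k] (alMat p * mapGL ℝ (stJ (j : ℕ))) = _
  rw [alMat_mul_stJ, SlashAction.slash_mul]
  congr 1
  exact SlashInvariantFormClass.slash_action_eq f _ ⟨-1, neg_one_mem_Gamma0 p, rfl⟩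

/-- In weight two the Atkin-Lehner involution is `-U_p`. -/
theorem alForm_eq (f : ModularForm (Gamma0 p) 2) :
    ⇑(alForm p f) = - ModularForm.heckeU 2 p f := by
  have h0 : ModularForm.trace 𝒮ℒ (alForm p f) = 0 :=
    rank_zero_iff_forall_zero.mp ModularForm.levelOne_weight_two_rank_zero _
  have h1 := trace_apply p (alForm p f)
  rw [h0] at h1
  simp_rw [alForm_slash_stJ] at h1
  rw [← ModularForm.heckeU_def] at h1
  rw [eq_neg_iff_add_eq_zero]
  exact h1.symm

lemma alForm_apply (f : ModularForm (Gamma0 p) k) (τ : ℍ) :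
    alForm p f τ = (p : ℂ) ^ (k - 1) * (⇑f ∣[k] ModularGroup.S) (ModularForm.heckeDiagMatrix p • τ) := by
  rw [coe_alForm, alMat, SlashAction.slash_mul,
    ModularForm.slash_heckeDiagMatrix_apply k hp.out.ne_zero]
  rfl

/-- `f ∣ S` for a weight two form. -/
theorem slash_S_apply (f : ModularForm (Gamma0 p) 2) (τ : ℍ) :
    (⇑f ∣[(2 : ℤ)] ModularGroup.S) (ModularForm.heckeDiagMatrix p • τ) =
      - (p : ℂ)⁻¹ * ModularForm.heckeU 2 p f τ := by
  have h := alForm_apply p f τ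
  have hp0 : (p : ℂ) ≠ 0 := by exact_mod_cast hp.out.ne_zero
  rw [alForm_eq, Pi.neg_apply] at h
  norm_num at h
  field_simp
  linear_combination -h

end

end Fermat.Agent.Mazur16
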