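import Fermat.Agent.Mazur16.Dual

/-!
# The index of the Eisenstein ideal, given the lower bound
-/

set_option autoImplicit false

open CuspForm ModularCurve CongruenceSubgroup ModularFormClass

namespace Fermat.Agent.Mazur16

open Fermat.Agent.DS Fermat.Agent.IntStr

noncomputable section

variable (p : ℕ) [hp : Fact p.Prime]

theorem exists_cong (m : ℕ) (ψ : TT p →+* ZMod m) (hψ : ∀ P, ψ (phi p P) = (ev p P : ZMod m)) :
    ∃ f : ↥(intLattice p 2), ∀ n, n ≠ 0 → (m : ℤ) ∣ sig p n - cz p n f := by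
  obtain ⟨Φ, hΦ⟩ := Module.projective_lifting_property
    (Int.castAddHom (ZMod m)).toIntLinearMap ψ.toAddMonoidHom.toIntLinearMap
    (ZMod.intCast_surjective)
  obtain ⟨f, hf⟩ := pairL_surjective p Φ
  refine ⟨f, fun n hn ↦ ?_⟩
  obtain ⟨P, hP, hPe⟩ := exists_T p n hn
  rw [← hP, ← hPe]
  have h1 : cz p 1 (act p P f) = Φ (phi p P) := by
    rw [← hf, pairL_apply]
  have h2 := LinearMap.congr_fun hΦ (phi p P)
  have h3 : ((Φ (phi p P) : ℤ) : ZMod m) = ψ (phi p P) := h2
  rw [h1, ← ZMod.intCast_zmod_eq_zero_iff_dvd, Int.cast_sub, h3, hψ, sub_self]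

theorem dvd_num (hp5 : 5 ≤ p) (m : ℕ) (f : ↥(intLattice p 2))
    (h : ∀ n, n ≠ 0 → (m : ℤ) ∣ sig p n - cz p n f) : m ∣ eisensteinNumerator p := by
  have hc : ∀ n, ∃ c : ℤ, n ≠ 0 → sig p n - cz p n f = m * c := by
    intro n
    by_cases hn : n = 0
    · exact ⟨0, fun h ↦ absurd hn h⟩
    · obtain ⟨c, hc⟩ := h n hn
      exact ⟨c, fun _ ↦ hc⟩
  choose c hc using hc
  let F : ModularForm (Gamma0 p) 2 := ModularFormClass.modularForm (f : CuspForm (Gamma0 p) 2)
  have hF : IsForm p 2 (F : UpperHalfPlane → ℂ) := IsForm.of_modularForm F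
  have hFq : ∀ n, (qe F).coeff n = ((cz p n f : ℤ) : ℂ) := fun n ↦ cz_spec p n f
  let Γ : UpperHalfPlane → ℂ := eis p + (-24 : ℂ) • (F : UpperHalfPlane → ℂ)
  have hΓ : IsForm p 2 Γ := (isForm_eis p).add (hF.smul _)
  have hq : qe Γ = (PowerSeries.C ((p : ℤ) - 1) + PowerSeries.C (24 * (m : ℤ)) *
      PowerSeries.mk (fun n ↦ if n = 0 then 0 else c n)).map (Int.castRingHom ℂ) := by
    have h1 := (QF.of_isForm (isForm_eis p)).qe_add ((QF.of_isForm hF).smul (-24))
    rw [h1, (QF.of_isForm hF).qe_smul, qe_eis]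
    ext n
    simp only [map_add, PowerSeries.coeff_map, PowerSeries.coeff_C_mul, PowerSeries.coeff_smul,
      PowerSeries.coeff_mk, smul_eq_mul, hFq, del]
    by_cases hn : n = 0
    · subst hn
      simp [sig_zero, cz_zero]
    · have h2 := hc n hn
      have h3 : (sig p n : ℂ) = m * c n + cz p n f := by
        have : sig p n = m * c n + cz p n f := by linarith
        exact_mod_cast this
      simp only [if_neg hn, eq_intCast]
      push_cast
      rw [h3]
      ring
  have h4 := propU hp5 hΓ (by simp) hq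
  exact Nat.dvd_div_of_mul_dvd (by rwa [mul_comm] at h4)

/-- The Eisenstein ideal in the lattice Hecke algebra. -/
abbrev II : Ideal (TT p) := Ideal.map (phi p) (eisensteinIdeal p)

lemma phi_sub_ev_mem (P : HeckeAlg) : phi p P - ((ev p P : ℤ) : TT p) ∈ II p := by
  have h1 : phi p P - ((ev p P : ℤ) : TT p) = phi p (P - MvPolynomial.C (ev p P)) := by
    rw [map_sub]
    congr 1
    have : (MvPolynomial.C (ev p P) : HeckeAlg) = ((ev p P : ℤ) : HeckeAlg) := by simp
    rw [this, map_intCast]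
  rw [h1]
  refine Ideal.mem_map_of_mem _ ?_
  rw [mem_eisensteinIdeal, map_sub]
  have : (MvPolynomial.C (ev p P) : HeckeAlg) = ((ev p P : ℤ) : HeckeAlg) := by simp
  rw [this, map_intCast]
  simp

/-- main reduction -/
theorem card_of_lower (hp5 : 5 ≤ p)
    (hA : ∀ P, phi p P = 0 → (eisensteinNumerator p : ℤ) ∣ ev p P) :
    Nat.card (TT p ⧸ II p) = eisensteinNumerator p := by
  let c : ℤ →+* TT p ⧸ II p := Int.castRingHom _
  have hc : Function.Surjective c := by
    intro x
    obtain ⟨t, rfl⟩ := Ideal.Quotient.mk_surjective x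
    obtain ⟨P, rfl⟩ := phi_surjective p t
    refine ⟨ev p P, ?_⟩
    have := Ideal.Quotient.eq.mpr (phi_sub_ev_mem p P)
    rw [this]
    simp [c]
  set g := Submodule.IsPrincipal.generator (RingHom.ker c) with hg
  have hker : RingHom.ker c = Ideal.span {g} := (Ideal.span_singleton_generator _).symm
  let e : (TT p ⧸ II p) ≃+* ZMod g.natAbs :=
    ((RingHom.quotientKerEquivOfSurjective hc).symm.trans (Ideal.quotEquivOfEq hker)).trans
      (Int.quotientSpanEquivZMod g)
  have hcard : Nat.card (TT p ⧸ II p) = g.natAbs := by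
    rw [Nat.card_congr e.toEquiv, Nat.card_zmod]
  rw [hcard]
  let ψ : TT p →+* ZMod g.natAbs := (e : (TT p ⧸ II p) →+* ZMod g.natAbs).comp
    (Ideal.Quotient.mk (II p))
  have hψ : ∀ P, ψ (phi p P) = (ev p P : ZMod g.natAbs) := by
    intro P
    have h1 := Ideal.Quotient.eq.mpr (phi_sub_ev_mem p P)
    change e (Ideal.Quotient.mk (II p) (phi p P)) = _
    rw [h1, map_intCast, map_intCast]
  obtain ⟨f, hf⟩ := exists_cong p g.natAbs ψ hψ
  refine Nat.dvd_antisymm (dvd_num p hp5 _ f hf) ?_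
  have h1 : ((g.natAbs : ℕ) : TT p) ∈ II p := by
    rw [← Ideal.Quotient.eq_zero_iff_mem, map_natCast]
    apply e.injective
    rw [map_natCast, map_zero, ZMod.natCast_self]
  obtain ⟨P, hP, hP'⟩ := (Ideal.mem_map_iff_of_surjective (phi p) (phi_surjective p)).mp h1
  have h2 : phi p (((g.natAbs : ℕ) : HeckeAlg) - P) = 0 := by
    rw [map_sub, hP', map_natCast, sub_self]
  have h3 := hA _ h2
  rw [map_sub, (mem_eisensteinIdeal p).mp hP, sub_zero, map_natCast] at h3
  exact Int.natCast_dvd_natCast.mp h3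

end

end Fermat.Agent.Mazur16
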